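/-
S41 / [IH2] (F): the abstract finite-group setting for the last step of the congruence-subgroup
argument (board #1976).  Mathlib only.

`LiftCore N p D` : a central extension `π : D → SL₂(ℤ/N)` whose kernel has exponent `p`, generated by
additive lifts `u`, `v` of the elementary matrices, with the Weyl relation.
`LiftData N p D` : a `LiftCore` together with a complement `B'` of the kernel over the upper
triangular subgroup, containing the `u t`, whose diagonal part is stable under `w`.
-/
import Mathlib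

set_option autoImplicit false

namespace Fermat.Agent.S41.CSP.Descent

open Matrix

/-- `SL₂(R)`. -/
abbrev SL2 (R : Type*) [CommRing R] := Matrix.SpecialLinearGroup (Fin 2) R

section Elementary

variable {R : Type*} [CommRing R]

/-- upper elementary matrix -/
def eU (t : R) : SL2 R := ⟨!![1, t; 0, 1], by simp [Matrix.det_fin_two]⟩

/-- lower elementary matrix -/
def eL (t : R) : SL2 R := ⟨!![1, 0; t, 1], by simp [Matrix.det_fin_two]⟩

/-- the Weyl element `[[0,1],[-1,0]]` -/
def wW : SL2 R := ⟨!![0, 1; -1, 0], by simp [Matrix.det_fin_two]⟩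

@[simp] theorem eU_val (t : R) : (eU t).1 = !![1, t; 0, 1] := rfl
@[simp] theorem eL_val (t : R) : (eL t).1 = !![1, 0; t, 1] := rfl
@[simp] theorem wW_val : (wW : SL2 R).1 = !![0, 1; -1, 0] := rfl

theorem sl2_ext {g h : SL2 R} (h00 : g.1 0 0 = h.1 0 0) (h01 : g.1 0 1 = h.1 0 1)
    (h10 : g.1 1 0 = h.1 1 0) (h11 : g.1 1 1 = h.1 1 1) : g = h := by
  apply Subtype.ext
  ext i j
  fin_cases i <;> fin_cases j <;> assumption

theorem eU_add (s t : R) : eU (s + t) = eU s * eU t := by
  apply sl2_ext <;> simp [Matrix.mul_apply, Fin.sum_univ_two, add_comm]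

theorem eL_add (s t : R) : eL (s + t) = eL s * eL t := by
  apply sl2_ext <;> simp [Matrix.mul_apply, Fin.sum_univ_two, add_comm]

@[simp] theorem eU_zero : eU (0 : R) = 1 := by
  apply sl2_ext <;> simp

@[simp] theorem eL_zero : eL (0 : R) = 1 := by
  apply sl2_ext <;> simp

theorem eU_neg (t : R) : eU (-t) = (eU t)⁻¹ := by
  rw [eq_inv_iff_mul_eq_one, ← eU_add]; simp

theorem eL_neg (t : R) : eL (-t) = (eL t)⁻¹ := by
  rw [eq_inv_iff_mul_eq_one, ← eL_add]; simp

theorem wW_eq : eU (1 : R) * eL (-1) * eU 1 = wW := by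
  apply sl2_ext <;> simp [Matrix.mul_apply, Fin.sum_univ_two]

theorem wW_conj_eU (t : R) : wW * eU t * wW⁻¹ = eL (-t) := by
  rw [mul_inv_eq_iff_eq_mul]
  apply sl2_ext <;> simp [Matrix.mul_apply, Fin.sum_univ_two]

end Elementary

/-- The core data: a central extension of `SL₂(ℤ/N)` with kernel of exponent `p`, generated by
additive lifts of the elementary matrices satisfying the Weyl relation. -/
structure LiftCore (N p : ℕ) (D : Type*) [Group D] where
  π : D →* SL2 (ZMod N)
  π_surj : Function.Surjective π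
  central : ∀ z, π z = 1 → ∀ x, z * x = x * z
  ker_pow : ∀ z, π z = 1 → z ^ p = 1
  u : ZMod N → D
  v : ZMod N → D
  u_add : ∀ s t, u (s + t) = u s * u t
  v_add : ∀ s t, v (s + t) = v s * v t
  π_u : ∀ t, π (u t) = eU t
  π_v : ∀ t, π (v t) = eL t
  gen : Subgroup.closure (Set.range u ∪ Set.range v) = ⊤
  w_conj : ∀ t, (u 1 * v (-1) * u 1) * u t * (u 1 * v (-1) * u 1)⁻¹ = v (-t)
  w_pow : (u 1 * v (-1) * u 1) ^ 4 = 1

/-- Core data plus a complement `B'` of the kernel over the upper triangular matrices which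
contains the `u t` and whose diagonal part is stable under conjugation by `w`. -/
structure LiftData (N p : ℕ) (D : Type*) [Group D] extends LiftCore N p D where
  B' : Subgroup D
  B'_inj : ∀ x ∈ B', π x = 1 → x = 1
  B'_surj : ∀ g : SL2 (ZMod N), g.1 1 0 = 0 → ∃ x ∈ B', π x = g
  B'_upper : ∀ x ∈ B', (π x).1 1 0 = 0
  u_mem : ∀ t, u t ∈ B'
  B'_w : ∀ x ∈ B', (π x).1 0 1 = 0 →
    (u 1 * v (-1) * u 1) * x * (u 1 * v (-1) * u 1)⁻¹ ∈ B'

end Fermat.Agent.S41.CSP.Descent
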