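/-
S41 / [IH2-F] BASE, leaf (board #2010, helper6): for an odd prime `p ≠ r` the Sylow `p`-subgroup of
`SL₂(ℤ/r^f)` is cyclic, in the form "some cyclic subgroup has index prime to `p`"; and the upper
unipotent subgroup of `SL₂(𝔽_p)` has index prime to `p`.

Route: `|SL₂(𝔽_r)| = r (r-1) (r+1)` (from `Matrix.card_GL_field` and `det`); the split torus
`diag(a, a⁻¹)` has an element of order `r - 1`, the non-split torus (left multiplication by
`𝔽_{r²}ˣ` on `𝔽_{r²} ≅ 𝔽_r²`, raised to the power `r - 1`) has an element of order `r + 1`;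
`SL₂(ℤ/r^f) → SL₂(𝔽_r)` is onto with kernel an `r`-group (`(1 + rY)^(r^(f-1)) = 1`).
-/
import Mathlib
import Fermat.Agent.S41.CSP.LiftData

set_option autoImplicit false

namespace Fermat.Agent.S41.CSP.CyclicSylow

open Matrix Fermat.Agent.S41.CSP.Descent


section CardSL

variable (𝔽 : Type*) [Field 𝔽]

theorem det_GL_surjective :
    Function.Surjective (Matrix.GeneralLinearGroup.det : GL (Fin 2) 𝔽 →* 𝔽ˣ) := by
  intro u
  refine ⟨Matrix.GeneralLinearGroup.mk'' !![(u : 𝔽), 0; 0, 1] (by simp [Matrix.det_fin_two]), ?_⟩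
  ext
  simp [Matrix.det_fin_two]

theorem ker_det_GL :
    (Matrix.GeneralLinearGroup.det : GL (Fin 2) 𝔽 →* 𝔽ˣ).ker
      = (Matrix.SpecialLinearGroup.toGL : SL2 𝔽 →* GL (Fin 2) 𝔽).range := by
  ext g
  rw [MonoidHom.mem_ker, MonoidHom.mem_range]
  constructor
  · intro h
    have h1 : (g : Matrix (Fin 2) (Fin 2) 𝔽).det = 1 := by
      have := congrArg (fun u : 𝔽ˣ => (u : 𝔽)) h
      simpa using this
    exact ⟨⟨g, h1⟩, by ext; rfl⟩
  · rintro ⟨s, rfl⟩
    ext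
    simp

theorem card_GL_eq_card_SL_mul [Fintype 𝔽] :
    Nat.card (GL (Fin 2) 𝔽) = Nat.card (SL2 𝔽) * Nat.card 𝔽ˣ := by
  classical
  rw [← Subgroup.card_mul_index (Matrix.GeneralLinearGroup.det : GL (Fin 2) 𝔽 →* 𝔽ˣ).ker,
    Subgroup.index_ker, ker_det_GL,
    MonoidHom.range_eq_top.mpr (det_GL_surjective 𝔽)]
  congr 1
  · exact Nat.card_congr (MonoidHom.ofInjective Matrix.SpecialLinearGroup.toGL_injective).symm.toEquiv
  · exact Nat.card_congr Subgroup.topEquiv.toEquiv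

end CardSL

theorem card_SL2_zmod_prime (r : ℕ) [Fact r.Prime] :
    Nat.card (SL2 (ZMod r)) = r * (r - 1) * (r + 1) := by
  have h := card_GL_eq_card_SL_mul (ZMod r)
  rw [Matrix.card_GL_field] at h
  have hr : 2 ≤ r := (Fact.out : r.Prime).two_le
  have hu : Nat.card (ZMod r)ˣ = r - 1 := by
    rw [Nat.card_eq_fintype_card, ZMod.card_units]
  rw [hu, ZMod.card] at h
  simp only [Fin.prod_univ_two, Fin.val_zero, Fin.val_one, pow_zero, pow_one] at h
  have h2 : (r ^ 2 - 1) * (r ^ 2 - r) = (r * (r - 1) * (r + 1)) * (r - 1) := by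
    obtain ⟨m, rfl⟩ : ∃ m, r = m + 1 := ⟨r - 1, by omega⟩
    have e1 : (m + 1) ^ 2 - 1 = m * (m + 2) := by
      have : (m + 1) ^ 2 = m * (m + 2) + 1 := by ring
      omega
    have e2 : (m + 1) ^ 2 - (m + 1) = m * (m + 1) := by
      have : (m + 1) ^ 2 = m * (m + 1) + (m + 1) := by ring
      omega
    rw [e1, e2]
    simp only [Nat.add_sub_cancel]
    ring
  rw [h2] at h
  have hpos : 0 < r - 1 := by omega
  exact (Nat.eq_of_mul_eq_mul_right hpos h).symm



section Split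

variable {R : Type*} [CommRing R]

/-- `diag(u, u⁻¹)` -/
def diagSL (u : Rˣ) : SL2 R := ⟨!![(u : R), 0; 0, ((u⁻¹ : Rˣ) : R)], by simp [Matrix.det_fin_two]⟩

@[simp] theorem diagSL_val (u : Rˣ) : (diagSL u).1 = !![(u : R), 0; 0, ((u⁻¹ : Rˣ) : R)] := rfl

/-- the split torus `u ↦ diag(u, u⁻¹)` -/
def splitTorus : Rˣ →* SL2 R where
  toFun := diagSL
  map_one' := by apply sl2_ext <;> simp
  map_mul' u v := by
    apply sl2_ext <;> simp [Matrix.mul_apply, Fin.sum_univ_two, mul_comm]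

theorem splitTorus_injective : Function.Injective (splitTorus : Rˣ →* SL2 R) := by
  intro u v h
  have := congrArg (fun g : SL2 R => g.1 0 0) h
  ext
  simpa [splitTorus] using this

end Split

theorem exists_split (r : ℕ) [Fact r.Prime] : ∃ g : SL2 (ZMod r), (r - 1) ∣ orderOf g := by
  obtain ⟨a, ha⟩ := IsCyclic.exists_generator (α := (ZMod r)ˣ)
  refine ⟨splitTorus a, ?_⟩
  rw [orderOf_injective _ splitTorus_injective, orderOf_eq_card_of_forall_mem_zpowers ha,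
    Nat.card_eq_fintype_card, ZMod.card_units]

theorem ker_det_GL' (𝔽 : Type*) [Field 𝔽] (g : GL (Fin 2) 𝔽)
    (h : Matrix.GeneralLinearGroup.det g = 1) :
    ∃ s : SL2 𝔽, Matrix.SpecialLinearGroup.toGL s = g := by
  have h1 : (g : Matrix (Fin 2) (Fin 2) 𝔽).det = 1 := by
    have := congrArg (fun u : 𝔽ˣ => (u : 𝔽)) h
    simpa using this
  exact ⟨⟨g, h1⟩, by ext; rfl⟩

theorem exists_nonsplit (r : ℕ) [Fact r.Prime] : ∃ g : SL2 (ZMod r), (r + 1) ∣ orderOf g := by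
  classical
  have hr : 2 ≤ r := (Fact.out : r.Prime).two_le
  let L := GaloisField r 2
  let b : Module.Basis (Fin 2) (ZMod r) L :=
    Module.finBasisOfFinrankEq (ZMod r) L (GaloisField.finrank r two_ne_zero)
  let Φ : Lˣ →* GL (Fin 2) (ZMod r) := Units.map (Algebra.leftMulMatrix b).toRingHom.toMonoidHom
  have hΦ : Function.Injective Φ :=
    Units.map_injective (f := (Algebra.leftMulMatrix b).toRingHom.toMonoidHom)
      (Algebra.leftMulMatrix_injective b)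
  obtain ⟨ζ, hζ⟩ := IsCyclic.exists_generator (α := Lˣ)
  have hordζ : orderOf ζ = r ^ 2 - 1 := by
    rw [orderOf_eq_card_of_forall_mem_zpowers hζ, Nat.card_units, GaloisField.card r 2 two_ne_zero]
  have hdet : Matrix.GeneralLinearGroup.det ((Φ ζ) ^ (r - 1)) = 1 := by
    rw [map_pow, ZMod.units_pow_card_sub_one_eq_one]
  obtain ⟨s, hs⟩ := ker_det_GL' (ZMod r) _ hdet
  refine ⟨s, ?_⟩
  have h1 : orderOf s = orderOf (ζ ^ (r - 1)) := by
    rw [← orderOf_injective _ Matrix.SpecialLinearGroup.toGL_injective s, hs, ← map_pow,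
      orderOf_injective _ hΦ]
  rw [h1, orderOf_pow, hordζ]
  have h2 : r ^ 2 - 1 = (r + 1) * (r - 1) := by
    obtain ⟨m, rfl⟩ : ∃ m, r = m + 1 := ⟨r - 1, by omega⟩
    have : (m + 1) ^ 2 = (m + 1 + 1) * m + 1 := by ring
    simp only [Nat.add_sub_cancel]
    omega
  rw [h2, Nat.gcd_mul_left_left, Nat.mul_div_cancel _ (by omega)]

theorem exists_orderOf_dvd (r p : ℕ) [Fact r.Prime] (hp : p.Prime) (hp2 : p ≠ 2) (hpr : p ≠ r) :
    ∃ g : SL2 (ZMod r), ∀ j, p ^ j ∣ r * (r - 1) * (r + 1) → p ^ j ∣ orderOf g := by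
  have hr : r.Prime := Fact.out
  have hcop : Nat.Coprime p r := (Nat.coprime_primes hp hr).mpr hpr
  by_cases h : p ∣ r + 1
  · obtain ⟨g, hg⟩ := exists_nonsplit r
    refine ⟨g, fun j hj => dvd_trans ?_ hg⟩
    have h1 : ¬ p ∣ r - 1 := by
      intro h1
      have h2 : p ∣ (r + 1) - (r - 1) := Nat.dvd_sub h h1
      have h3 : (r + 1) - (r - 1) = 2 := by have := hr.two_le; omega
      rw [h3] at h2
      exact hp2 ((Nat.prime_dvd_prime_iff_eq hp Nat.prime_two).mp h2)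
    have hc1 : Nat.Coprime (p ^ j) r := hcop.pow_left j
    have hc2 : Nat.Coprime (p ^ j) (r - 1) := ((Nat.Prime.coprime_iff_not_dvd hp).mpr h1).pow_left j
    rw [mul_assoc] at hj
    exact hc2.dvd_of_dvd_mul_left (hc1.dvd_of_dvd_mul_left hj)
  · obtain ⟨g, hg⟩ := exists_split r
    refine ⟨g, fun j hj => dvd_trans ?_ hg⟩
    have hc1 : Nat.Coprime (p ^ j) r := hcop.pow_left j
    have hc2 : Nat.Coprime (p ^ j) (r + 1) := ((Nat.Prime.coprime_iff_not_dvd hp).mpr h).pow_left j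
    exact hc1.dvd_of_dvd_mul_left (hc2.dvd_of_dvd_mul_right hj)



section Reduction

variable (r f : ℕ) [Fact r.Prime]

/-- reduction `SL₂(ℤ/r^f) → SL₂(𝔽_r)` -/
noncomputable def red (hf : 0 < f) : SL2 (ZMod (r ^ f)) →* SL2 (ZMod r) :=
  Matrix.SpecialLinearGroup.map (ZMod.castHom (dvd_pow_self r hf.ne') (ZMod r))

variable {r f}

theorem red_apply (hf : 0 < f) (g : SL2 (ZMod (r ^ f))) (i j : Fin 2) :
    (red r f hf g).1 i j = ZMod.castHom (dvd_pow_self r hf.ne') (ZMod r) (g.1 i j) := by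
  simp [red, Matrix.SpecialLinearGroup.map_apply_coe]

theorem sl2_ext_of_ne_zero {𝔽 : Type*} [Field 𝔽] {g h : SL2 𝔽} (h00 : g.1 0 0 = h.1 0 0)
    (h01 : g.1 0 1 = h.1 0 1) (h10 : g.1 1 0 = h.1 1 0) (hne : g.1 0 0 ≠ 0) : g = h := by
  refine sl2_ext h00 h01 h10 ?_
  have hg := g.2
  have hh := h.2
  rw [Matrix.det_fin_two] at hg hh
  rw [← h00, ← h01, ← h10] at hh
  have : g.1 0 0 * (g.1 1 1 - h.1 1 1) = 0 := by linear_combination hg - hh
  rcases mul_eq_zero.mp this with h0 | h0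
  · exact absurd h0 hne
  · exact sub_eq_zero.mp h0

theorem isUnit_natCast_of_ne_zero (n : ℕ) (hn : (n : ZMod r) ≠ 0) : IsUnit (n : ZMod (r ^ f)) := by
  have hr : r.Prime := Fact.out
  rw [ZMod.isUnit_iff_coprime]
  have : ¬ r ∣ n := fun h => hn ((ZMod.natCast_eq_zero_iff n r).mpr h)
  exact ((Nat.Prime.coprime_iff_not_dvd hr).mpr this).symm.pow_right f

theorem mem_range_red_of_ne_zero (hf : 0 < f) (g₀ : SL2 (ZMod r)) (h0 : g₀.1 0 0 ≠ 0) :
    g₀ ∈ (red r f hf).range := by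
  have hr : r.Prime := Fact.out
  have : NeZero r := ⟨hr.ne_zero⟩
  obtain ⟨a, ha⟩ := ZMod.natCast_zmod_surjective (g₀.1 0 0)
  obtain ⟨b, hb⟩ := ZMod.natCast_zmod_surjective (g₀.1 0 1)
  obtain ⟨c, hc⟩ := ZMod.natCast_zmod_surjective (g₀.1 1 0)
  obtain ⟨u, hu⟩ := isUnit_natCast_of_ne_zero (r := r) (f := f) a (by rw [ha]; exact h0)
  let g : SL2 (ZMod (r ^ f)) :=
    ⟨!![(a : ZMod (r ^ f)), (b : ZMod (r ^ f)); (c : ZMod (r ^ f)),
        ((u⁻¹ : (ZMod (r ^ f))ˣ) : ZMod (r ^ f)) * (1 + (b : ZMod (r ^ f)) * (c : ZMod (r ^ f)))], by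
      rw [Matrix.det_fin_two_of, ← hu, ← mul_assoc, Units.mul_inv, one_mul]; ring⟩
  refine ⟨g, ?_⟩
  apply sl2_ext_of_ne_zero
  · rw [red_apply]; simp [g, ha]
  · rw [red_apply]; simp [g, hb]
  · rw [red_apply]; simp [g, hc]
  · rw [red_apply]; simpa [g, ha] using h0

theorem red_wW (hf : 0 < f) : red r f hf wW = wW := by
  apply sl2_ext <;> rw [red_apply] <;> simp [-ZMod.castHom_apply]

theorem red_surjective (hf : 0 < f) : Function.Surjective (red r f hf) := by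
  intro g₀
  rw [← MonoidHom.mem_range]
  by_cases h0 : g₀.1 0 0 = 0
  · have h1 : (wW * g₀).1 0 0 ≠ 0 := by
      have hd := g₀.2
      rw [Matrix.det_fin_two, h0] at hd
      have : (wW * g₀).1 0 0 = g₀.1 1 0 := by
        simp [Matrix.mul_apply, Fin.sum_univ_two]
      rw [this]
      intro h
      rw [h] at hd
      simp at hd
    have h2 := mem_range_red_of_ne_zero hf _ h1
    have h3 : (wW : SL2 (ZMod r)) ∈ (red r f hf).range := ⟨wW, red_wW hf⟩
    have := (red r f hf).range.mul_mem ((red r f hf).range.inv_mem h3) h2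
    simpa using this
  · exact mem_range_red_of_ne_zero hf g₀ h0

theorem exists_eq_mul_of_castHom_eq_zero (hf : 0 < f) (z : ZMod (r ^ f))
    (hz : ZMod.castHom (dvd_pow_self r hf.ne') (ZMod r) z = 0) :
    ∃ y : ZMod (r ^ f), z = (r : ZMod (r ^ f)) * y := by
  have hr : r.Prime := Fact.out
  have : NeZero (r ^ f) := ⟨pow_ne_zero _ hr.ne_zero⟩
  rw [← ZMod.natCast_zmod_val z, map_natCast, ZMod.natCast_eq_zero_iff] at hz
  obtain ⟨m, hm⟩ := hz
  refine ⟨(m : ZMod (r ^ f)), ?_⟩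
  rw [← ZMod.natCast_zmod_val z, hm, Nat.cast_mul]

theorem exists_eq_one_add_of_mem_ker (hf : 0 < f) (g : SL2 (ZMod (r ^ f)))
    (hg : red r f hf g = 1) :
    ∃ Y : Matrix (Fin 2) (Fin 2) (ZMod (r ^ f)),
      g.1 = 1 + (r : Matrix (Fin 2) (Fin 2) (ZMod (r ^ f))) * Y := by
  have h : ∀ i j, ∃ y : ZMod (r ^ f),
      g.1 i j - (1 : Matrix (Fin 2) (Fin 2) (ZMod (r ^ f))) i j = (r : ZMod (r ^ f)) * y := by
    intro i j
    apply exists_eq_mul_of_castHom_eq_zero hf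
    rw [map_sub, ← red_apply hf g i j, hg]
    by_cases hij : i = j
    · subst hij; simp [-ZMod.castHom_apply]
    · simp [-ZMod.castHom_apply, Matrix.one_apply_ne hij]
  choose y hy using h
  refine ⟨Matrix.of y, ?_⟩
  ext i j
  have e : ((r : Matrix (Fin 2) (Fin 2) (ZMod (r ^ f))) * Matrix.of y) i j
      = (r : ZMod (r ^ f)) * y i j := by
    rw [← Matrix.diagonal_natCast, Matrix.diagonal_mul]
    rfl
  rw [Matrix.add_apply, e, ← hy i j]
  ring

omit [Fact r.Prime] in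
theorem pow_eq_one_of_eq_one_add (hf : 0 < f) (X Y : Matrix (Fin 2) (Fin 2) (ZMod (r ^ f)))
    (hX : X = 1 + (r : Matrix (Fin 2) (Fin 2) (ZMod (r ^ f))) * Y) :
    X ^ (r ^ (f - 1)) = 1 := by
  open Polynomial in
  have h1 : ((r : ℕ) : ℤ[X]) ∣ (1 + (r : ℤ[X]) * Polynomial.X) - 1 := ⟨Polynomial.X, by ring⟩
  obtain ⟨Q, hQ⟩ := dvd_sub_pow_of_dvd_sub h1 (f - 1)
  have h2 := congrArg (Polynomial.aeval Y) hQ
  have hf' : f - 1 + 1 = f := by omega
  rw [hf'] at h2
  have h3 : ((r : Matrix (Fin 2) (Fin 2) (ZMod (r ^ f))) ^ f) = 0 := by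
    rw [← Nat.cast_pow]
    ext i j
    rw [Matrix.natCast_apply]
    split_ifs <;> simp
  simp only [map_sub, map_pow, map_add, map_one, map_mul, map_natCast, Polynomial.aeval_X, one_pow, h3,
    zero_mul] at h2
  rw [hX]
  exact sub_eq_zero.mp h2

end Reduction


section Main

theorem isPGroup_ker_red {r f : ℕ} [Fact r.Prime] (hf : 0 < f) : IsPGroup r (red r f hf).ker := by
  rintro ⟨g, hg⟩
  refine ⟨f - 1, ?_⟩
  obtain ⟨Y, hY⟩ := exists_eq_one_add_of_mem_ker hf g (MonoidHom.mem_ker.mp hg)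
  have h := pow_eq_one_of_eq_one_add hf g.1 Y hY
  apply Subtype.ext
  apply Subtype.ext
  simpa using h

/-- `|SL₂(ℤ/r^f)| = r^m · r (r-1) (r+1)` for some `m`. -/
theorem exists_card_SL2_zmod_prime_pow {r f : ℕ} [Fact r.Prime] (hf : 0 < f) :
    ∃ m : ℕ, Nat.card (SL2 (ZMod (r ^ f))) = r ^ m * (r * (r - 1) * (r + 1)) := by
  have hr : r.Prime := Fact.out
  have : NeZero (r ^ f) := ⟨pow_ne_zero _ hr.ne_zero⟩
  obtain ⟨m, hm⟩ := IsPGroup.iff_card.mp (isPGroup_ker_red (r := r) hf)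
  refine ⟨m, ?_⟩
  rw [← hm, ← card_SL2_zmod_prime r, ← Subgroup.card_mul_index (red r f hf).ker, Subgroup.index_ker,
    MonoidHom.range_eq_top.mpr (red_surjective hf), Subgroup.card_top]

/-- **Cyclic Sylow.** For primes `p ≠ r`, `p` odd, some cyclic subgroup of `SL₂(ℤ/r^f)` has index
prime to `p`. -/
theorem exists_zpowers_index_not_dvd {r p f : ℕ} (hr : r.Prime) (hp : p.Prime) (hp2 : p ≠ 2)
    (hpr : p ≠ r) (hf : 0 < f) :
    ∃ g : SL2 (ZMod (r ^ f)), ¬ p ∣ (Subgroup.zpowers g).index := by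
  have : Fact r.Prime := ⟨hr⟩
  have : Fact p.Prime := ⟨hp⟩
  have : NeZero (r ^ f) := ⟨pow_ne_zero _ hr.ne_zero⟩
  obtain ⟨g₀, hg₀⟩ := exists_orderOf_dvd r p hp hp2 hpr
  obtain ⟨g, hg⟩ := red_surjective hf g₀
  refine ⟨g, fun hdvd => ?_⟩
  obtain ⟨m, hm⟩ := exists_card_SL2_zmod_prime_pow (r := r) hf
  have hn₀ : r * (r - 1) * (r + 1) ≠ 0 := by
    have := hr.two_le
    have h1 : r - 1 ≠ 0 := by omega
    exact mul_ne_zero (mul_ne_zero hr.ne_zero h1) (by omega)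
  have h1 : (Subgroup.zpowers g).index * orderOf g = Nat.card (SL2 (ZMod (r ^ f))) := by
    rw [← Nat.card_zpowers, mul_comm, Subgroup.card_mul_index]
  have h2 : p ^ padicValNat p (r * (r - 1) * (r + 1)) ∣ orderOf g :=
    (hg₀ _ pow_padicValNat_dvd).trans (hg ▸ orderOf_map_dvd _ g)
  have h3 : p ^ (padicValNat p (r * (r - 1) * (r + 1)) + 1) ∣ r ^ m * (r * (r - 1) * (r + 1)) := by
    rw [← hm, ← h1, pow_succ']
    exact mul_dvd_mul hdvd h2
  have hcop : Nat.Coprime p r := (Nat.coprime_primes hp hr).mpr hpr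
  have h4 : p ^ (padicValNat p (r * (r - 1) * (r + 1)) + 1) ∣ r * (r - 1) * (r + 1) :=
    (Nat.Coprime.pow _ m hcop).dvd_of_dvd_mul_left h3
  exact pow_succ_padicValNat_not_dvd hn₀ h4

theorem orderOf_eU_one (p : ℕ) [Fact p.Prime] : orderOf (eU 1 : SL2 (ZMod p)) = p := by
  have hpow : ∀ n : ℕ, (eU 1 : SL2 (ZMod p)) ^ n = eU (n : ZMod p) := by
    intro n
    induction n with
    | zero => simp
    | succ n ih => rw [pow_succ, ih, Nat.cast_succ, eU_add]
  apply orderOf_eq_prime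
  · rw [hpow, ZMod.natCast_self, eU_zero]
  · intro h
    have := congrArg (fun g : SL2 (ZMod p) => g.1 0 1) h
    simp at this

/-- The upper unipotent subgroup of `SL₂(𝔽_p)` has index prime to `p`. -/
theorem eU_one_zpowers_index_not_dvd {p : ℕ} (hp : p.Prime) :
    ¬ p ∣ (Subgroup.zpowers (eU 1 : SL2 (ZMod p))).index := by
  have : Fact p.Prime := ⟨hp⟩
  have h1 : (Subgroup.zpowers (eU 1 : SL2 (ZMod p))).index * p = p * (p - 1) * (p + 1) := by
    rw [← card_SL2_zmod_prime p, ← Subgroup.card_mul_index (Subgroup.zpowers (eU 1 : SL2 (ZMod p))),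
      Nat.card_zpowers, orderOf_eU_one, mul_comm]
  have h2 : (Subgroup.zpowers (eU 1 : SL2 (ZMod p))).index = (p - 1) * (p + 1) := by
    apply Nat.eq_of_mul_eq_mul_right hp.pos
    rw [h1]; ring
  rw [h2]
  have hp2 := hp.two_le
  intro h
  rcases (Nat.Prime.dvd_mul hp).mp h with h | h
  · exact absurd (Nat.le_of_dvd (by omega) h) (by omega)
  · have : p ∣ 1 := (Nat.dvd_add_right (dvd_refl p)).mp h
    exact hp.one_lt.ne' (Nat.dvd_one.mp this)

end Main

end Fermat.Agent.S41.CSP.CyclicSylow
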