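/-
S41 / [IH2] (F), Step 1 (board #1976): the descent `p² ∣ N ↦ N / p` for `LiftData`, and the
induction reducing "ker π = 1" to the base case `p² ∤ N`.  Mathlib only.

Main results: `LiftData.zeta_eq_one` (the only possible central defect vanishes),
`LiftData.V'` (complement of the kernel over `ker(SL₂(ℤ/N) → SL₂(ℤ/(N/p)))`), `V'_normal`,
`V'_inj`, `LiftCore.quot` (generic quotient core), `LiftData.descend`, `BaseStatement`,
`ker_trivial_of_base`.
-/
import Fermat.Agent.S41.CSP.LiftData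

set_option autoImplicit false
set_option linter.unusedSectionVars false
set_option linter.unnecessarySeqFocus false
set_option linter.style.haveILetI false

namespace Fermat.Agent.S41.CSP.Descent

open Matrix

section KM

variable {R : Type*} [CommRing R]

/-- The element `1 + s·(a e + b h + c f)` of `SL₂(R)` when `s² = 0`. -/
def kM (s : R) (hs : s * s = 0) (a b c : R) : SL2 R :=
  ⟨!![1 + s * b, s * a; s * c, 1 - s * b], by
    simp only [Matrix.det_fin_two_of]
    linear_combination (-(b * b) - a * c) * hs⟩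

variable (s : R) (hs : s * s = 0)

@[simp] theorem kM_val (a b c : R) :
    (kM s hs a b c).1 = !![1 + s * b, s * a; s * c, 1 - s * b] := rfl

theorem kM_mul (a b c a' b' c' : R) :
    kM s hs a b c * kM s hs a' b' c' = kM s hs (a + a') (b + b') (c + c') := by
  apply sl2_ext <;> simp [Matrix.mul_apply, Fin.sum_univ_two]
  · linear_combination (b * b' + a * c') * hs
  · linear_combination (b * a' - a * b') * hs
  · linear_combination (c * b' - b * c') * hs
  · linear_combination (c * a' + b * b') * hs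

theorem kM_zero : kM s hs 0 0 0 = 1 := by
  apply sl2_ext <;> simp

theorem eU_smul (a : R) : eU (s * a) = kM s hs a 0 0 := by
  apply sl2_ext <;> simp

theorem eL_smul (c : R) : eL (s * c) = kM s hs 0 0 c := by
  apply sl2_ext <;> simp

theorem kM_inv (a b c : R) : (kM s hs a b c)⁻¹ = kM s hs (-a) (-b) (-c) := by
  rw [inv_eq_iff_mul_eq_one, kM_mul]
  simp [kM_zero]

theorem eU_conj_kM (t a b c : R) :
    eU t * kM s hs a b c * (eU t)⁻¹ = kM s hs (a - 2 * t * b - t * t * c) (b + t * c) c := by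
  rw [mul_inv_eq_iff_eq_mul]
  apply sl2_ext <;> simp [Matrix.mul_apply, Fin.sum_univ_two] <;> ring

theorem eL_conj_kM (t a b c : R) :
    eL t * kM s hs a b c * (eL t)⁻¹ = kM s hs a (b - t * a) (c + 2 * t * b - t * t * a) := by
  rw [mul_inv_eq_iff_eq_mul]
  apply sl2_ext <;> simp [Matrix.mul_apply, Fin.sum_univ_two] <;> ring

theorem wW_conj_kM (a b c : R) :
    wW * kM s hs a b c * wW⁻¹ = kM s hs (-c) (-b) (-a) := by
  rw [mul_inv_eq_iff_eq_mul]
  apply sl2_ext <;> simp [Matrix.mul_apply, Fin.sum_univ_two] <;> ring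

theorem kM_eq_one_iff (a b c : R) : kM s hs a b c = 1 ↔ s * a = 0 ∧ s * b = 0 ∧ s * c = 0 := by
  constructor
  · intro h
    have h1 := congrArg (fun g : SL2 R => g.1 0 1) h
    have h2 := congrArg (fun g : SL2 R => g.1 0 0) h
    have h3 := congrArg (fun g : SL2 R => g.1 1 0) h
    simp at h1 h2 h3
    exact ⟨h1, h2, h3⟩
  · rintro ⟨h1, h2, h3⟩
    apply sl2_ext <;> simp [h1, h2, h3]

theorem kM_congr {a b c a' b' c' : R} (h1 : s * a = s * a') (h2 : s * b = s * b')
    (h3 : s * c = s * c') : kM s hs a b c = kM s hs a' b' c' := by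
  apply sl2_ext <;> simp [h1, h2, h3]

end KM

section Core

variable {N p : ℕ} {D : Type*} [Group D]

namespace LiftCore

variable (C : LiftCore N p D)

/-- the lift of the Weyl element -/
def w : D := C.u 1 * C.v (-1) * C.u 1

theorem w_def : C.w = C.u 1 * C.v (-1) * C.u 1 := rfl

theorem π_w : C.π C.w = wW := by
  simp only [w, map_mul, C.π_u, C.π_v, wW_eq]

theorem w_conj_u (t : ZMod N) : C.w * C.u t * C.w⁻¹ = C.v (-t) := C.w_conj t

theorem u_zero : C.u 0 = 1 := by
  have h := C.u_add 0 0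
  simp only [add_zero] at h
  exact (mul_eq_left.mp h.symm)

theorem v_zero : C.v 0 = 1 := by
  have h := C.v_add 0 0
  simp only [add_zero] at h
  exact (mul_eq_left.mp h.symm)

theorem u_neg (t : ZMod N) : C.u (-t) = (C.u t)⁻¹ := by
  rw [eq_inv_iff_mul_eq_one, ← C.u_add, neg_add_cancel, C.u_zero]

theorem v_neg (t : ZMod N) : C.v (-t) = (C.v t)⁻¹ := by
  rw [eq_inv_iff_mul_eq_one, ← C.v_add, neg_add_cancel, C.v_zero]

theorem u_comm (s t : ZMod N) : Commute (C.u s) (C.u t) := by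
  unfold Commute SemiconjBy
  rw [← C.u_add, ← C.u_add, add_comm]

theorem v_comm (s t : ZMod N) : Commute (C.v s) (C.v t) := by
  unfold Commute SemiconjBy
  rw [← C.v_add, ← C.v_add, add_comm]

theorem central' {z : D} (hz : C.π z = 1) (x : D) : Commute z x := C.central z hz x

end LiftCore


end Core

section Data

variable {N p : ℕ} {D : Type*} [Group D]

namespace LiftData

variable (L : LiftData N p D)

theorem B'_ext {x y : D} (hx : x ∈ L.B') (hy : y ∈ L.B') (h : L.π x = L.π y) : x = y := by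
  have := L.B'_inj (x * y⁻¹) (L.B'.mul_mem hx (L.B'.inv_mem hy)) (by simp [h])
  exact mul_inv_eq_one.mp this

theorem B'_commute {x y : D} (hx : x ∈ L.B') (hy : y ∈ L.B')
    (h : Commute (L.π x) (L.π y)) : Commute x y := by
  apply L.B'_ext (L.B'.mul_mem hx hy) (L.B'.mul_mem hy hx)
  simp only [map_mul]
  exact h.eq

theorem wW_sq_commute {R : Type*} [CommRing R] (g : SL2 R) : Commute (wW * wW) g := by
  unfold Commute SemiconjBy
  apply sl2_ext <;> simp [Matrix.mul_apply, Fin.sum_univ_two]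

theorem w_sq_commute_u (t : ZMod N) : Commute (L.w * L.w) (L.u t) := by
  obtain ⟨b, hb, hπb⟩ := L.B'_surj (wW * wW) (by simp [Matrix.mul_apply, Fin.sum_univ_two])
  have hz : L.π (L.w * L.w * b⁻¹) = 1 := by
    simp [hπb, L.toLiftCore.π_w]
  have h1 : Commute (L.w * L.w * b⁻¹) (L.u t) := L.toLiftCore.central' hz _
  have h2 : Commute b (L.u t) := by
    apply L.B'_commute hb (L.u_mem t)
    rw [hπb]
    exact wW_sq_commute _
  have : L.w * L.w = (L.w * L.w * b⁻¹) * b := by group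
  rw [this]
  exact h1.mul_left h2

theorem w_conj_v (t : ZMod N) : L.w * L.v t * L.w⁻¹ = L.u (-t) := by
  have h := L.toLiftCore.w_conj_u (-t)
  rw [neg_neg] at h
  rw [← h]
  have hc := L.w_sq_commute_u (-t)
  have : L.w * (L.w * L.u (-t) * L.w⁻¹) * L.w⁻¹ = (L.w * L.w) * L.u (-t) * (L.w * L.w)⁻¹ := by
    group
  rw [this, hc.eq]
  group

/-- the opposite complement `w B' w⁻¹` -/
def Bm : Subgroup D := L.B'.map (MulAut.conj L.w).toMonoidHom

theorem mem_Bm {x : D} : x ∈ L.Bm ↔ L.w⁻¹ * x * L.w ∈ L.B' := by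
  unfold Bm
  constructor
  · rintro ⟨y, hy, rfl⟩
    simp only [MulEquiv.coe_toMonoidHom, MulAut.conj_apply]
    have : L.w⁻¹ * (L.w * y * L.w⁻¹) * L.w = y := by group
    rw [this]; exact hy
  · intro h
    refine ⟨_, h, ?_⟩
    simp only [MulEquiv.coe_toMonoidHom, MulAut.conj_apply]
    group

theorem v_mem_Bm (t : ZMod N) : L.v t ∈ L.Bm := by
  rw [mem_Bm]
  have h := L.toLiftCore.w_conj_u (-t)
  rw [neg_neg] at h
  rw [← h]
  have : L.w⁻¹ * (L.w * L.u (-t) * L.w⁻¹) * L.w = L.u (-t) := by group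
  rw [this]
  exact L.u_mem _

theorem Bm_ext {x y : D} (hx : x ∈ L.Bm) (hy : y ∈ L.Bm) (h : L.π x = L.π y) : x = y := by
  rw [mem_Bm] at hx hy
  have := L.B'_ext hx hy (by simp [h])
  have h2 : x = L.w * (L.w⁻¹ * x * L.w) * L.w⁻¹ := by group
  rw [h2, this]
  group

theorem Bm_commute {x y : D} (hx : x ∈ L.Bm) (hy : y ∈ L.Bm)
    (h : Commute (L.π x) (L.π y)) : Commute x y := by
  apply L.Bm_ext (L.Bm.mul_mem hx hy) (L.Bm.mul_mem hy hx)
  simp only [map_mul]
  exact h.eq

end LiftData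

end Data

section CommHelpers

theorem comm4_aux {G : Type*} [CommGroup G] (x h y z : G) :
    y * (h * (y⁻¹ * y⁻¹)) * (x * h⁻¹ * y * z) * z = x * z * z := by
  have := (by intros; abel : ∀ (x h y z : Additive G),
    y + (h + (-y + -y)) + (x + -h + y + z) + z = x + z + z)
  exact this (Additive.ofMul x) (Additive.ofMul h) (Additive.ofMul y) (Additive.ofMul z)

theorem comm4 {G : Type*} [Group G] (x h y z : G) (hxh : Commute x h) (hxy : Commute x y)
    (hxz : Commute x z) (hhy : Commute h y) (hhz : Commute h z) (hyz : Commute y z) :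
    y * (h * (y⁻¹ * y⁻¹)) * (x * h⁻¹ * y * z) * z = x * z * z := by
  let k : Set G := {x, h, y, z}
  have hk : ∀ a ∈ k, ∀ b ∈ k, a * b = b * a := by
    intro a ha b hb
    simp only [k, Set.mem_insert_iff, Set.mem_singleton_iff] at ha hb
    rcases ha with ha | ha | ha | ha <;> rcases hb with hb | hb | hb | hb <;> rw [ha, hb] <;>
      first | rfl | exact hxh.eq | exact hxh.eq.symm | exact hxy.eq | exact hxy.eq.symm | exact hxz.eq | exact hxz.eq.symm | exact hhy.eq | exact hhy.eq.symm | exact hhz.eq | exact hhz.eq.symm | exact hyz.eq | exact hyz.eq.symm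
  haveI := Subgroup.isMulCommutative_closure hk
  let _ : CommGroup (Subgroup.closure k) :=
    { (inferInstance : Group (Subgroup.closure k)) with mul_comm := fun a b => mul_comm' a b }
  have hx : x ∈ Subgroup.closure k := Subgroup.subset_closure (by simp [k])
  have hh : h ∈ Subgroup.closure k := Subgroup.subset_closure (by simp [k])
  have hy : y ∈ Subgroup.closure k := Subgroup.subset_closure (by simp [k])
  have hz : z ∈ Subgroup.closure k := Subgroup.subset_closure (by simp [k])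
  have key := comm4_aux (⟨x, hx⟩ : Subgroup.closure k) ⟨h, hh⟩ ⟨y, hy⟩ ⟨z, hz⟩
  exact congrArg Subtype.val key

theorem commute_conj {G : Type*} [Group G] (g : G) {x y : G} (h : Commute x y) :
    Commute (g * x * g⁻¹) (g * y * g⁻¹) := by
  unfold Commute SemiconjBy
  have h1 : g * x * g⁻¹ * (g * y * g⁻¹) = g * (x * y) * g⁻¹ := by group
  have h2 : g * y * g⁻¹ * (g * x * g⁻¹) = g * (y * x) * g⁻¹ := by group
  rw [h1, h2, h.eq]

theorem eq_one_of_sq_of_pow {G : Type*} [Group G] {z : G} {p : ℕ} (hodd : Odd p)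
    (h2 : z * z = 1) (hp : z ^ p = 1) : z = 1 := by
  obtain ⟨k, rfl⟩ := hodd
  have : z ^ (2 * k + 1) = z := by
    rw [pow_succ, pow_mul, pow_two, h2, one_pow, one_mul]
  rw [← this, hp]

end CommHelpers

section Step1

variable {N p : ℕ} {D : Type*} [Group D] (L : LiftData N p D)
variable (s : ZMod N) (hs : s * s = 0)

theorem kM_commute {R : Type*} [CommRing R] (s : R) (hs : s * s = 0) (a b c a' b' c' : R) :
    Commute (kM s hs a b c) (kM s hs a' b' c') := by
  unfold Commute SemiconjBy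
  rw [kM_mul, kM_mul, add_comm a, add_comm b, add_comm c]

namespace LiftData

/-- `X a = u (s a)` -/
def X (a : ZMod N) : D := L.u (s * a)

/-- `Y c = v (s c)` -/
def Y (c : ZMod N) : D := L.v (s * c)

include hs in
theorem upper_kM0 (b : ZMod N) : (kM s hs 0 b 0).1 1 0 = 0 := by simp

/-- the lift in `B'` of `diag(1 + s b, 1 - s b)` -/
noncomputable def hT (b : ZMod N) : D :=
  Classical.choose (L.B'_surj (kM s hs 0 b 0) (by simp))

theorem hT_mem (b : ZMod N) : L.hT s hs b ∈ L.B' :=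
  (Classical.choose_spec (L.B'_surj (kM s hs 0 b 0) (by simp))).1

theorem π_hT (b : ZMod N) : L.π (L.hT s hs b) = kM s hs 0 b 0 :=
  (Classical.choose_spec (L.B'_surj (kM s hs 0 b 0) (by simp))).2

theorem X_mem (a : ZMod N) : L.X s a ∈ L.B' := L.u_mem _

theorem Y_mem (c : ZMod N) : L.Y s c ∈ L.Bm := L.v_mem_Bm _

include hs in
theorem π_X (a : ZMod N) : L.π (L.X s a) = kM s hs a 0 0 := by
  rw [X, L.π_u, eU_smul s hs]

include hs in
theorem π_Y (c : ZMod N) : L.π (L.Y s c) = kM s hs 0 0 c := by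
  rw [Y, L.π_v, eL_smul s hs]

theorem X_add (a a' : ZMod N) : L.X s (a + a') = L.X s a * L.X s a' := by
  rw [X, X, X, mul_add, L.u_add]

theorem Y_add (c c' : ZMod N) : L.Y s (c + c') = L.Y s c * L.Y s c' := by
  rw [Y, Y, Y, mul_add, L.v_add]

theorem X_zero : L.X s 0 = 1 := by rw [X, mul_zero, L.toLiftCore.u_zero]

theorem Y_zero : L.Y s 0 = 1 := by rw [Y, mul_zero, L.toLiftCore.v_zero]

theorem X_neg (a : ZMod N) : L.X s (-a) = (L.X s a)⁻¹ := by
  rw [X, X, mul_neg, L.toLiftCore.u_neg]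

theorem Y_neg (c : ZMod N) : L.Y s (-c) = (L.Y s c)⁻¹ := by
  rw [Y, Y, mul_neg, L.toLiftCore.v_neg]

theorem hT_add (b b' : ZMod N) : L.hT s hs (b + b') = L.hT s hs b * L.hT s hs b' := by
  apply L.B'_ext (L.hT_mem s hs _) (L.B'.mul_mem (L.hT_mem s hs _) (L.hT_mem s hs _))
  rw [map_mul, π_hT, π_hT, π_hT, kM_mul]
  simp

theorem hT_zero : L.hT s hs 0 = 1 := by
  apply L.B'_inj _ (L.hT_mem s hs 0)
  rw [π_hT, kM_zero]

theorem hT_neg (b : ZMod N) : L.hT s hs (-b) = (L.hT s hs b)⁻¹ := by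
  rw [eq_inv_iff_mul_eq_one, ← hT_add, neg_add_cancel, hT_zero]

theorem X_comm (a a' : ZMod N) : Commute (L.X s a) (L.X s a') := L.toLiftCore.u_comm _ _

theorem Y_comm (c c' : ZMod N) : Commute (L.Y s c) (L.Y s c') := L.toLiftCore.v_comm _ _

theorem hT_comm (b b' : ZMod N) : Commute (L.hT s hs b) (L.hT s hs b') := by
  unfold Commute SemiconjBy
  rw [← hT_add, ← hT_add, add_comm]

theorem X_hT_comm (a b : ZMod N) : Commute (L.X s a) (L.hT s hs b) := by
  apply L.B'_commute (L.X_mem s a) (L.hT_mem s hs b)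
  rw [L.π_X s hs, π_hT]
  exact kM_commute s hs _ _ _ _ _ _

theorem w_conj_hT (b : ZMod N) : L.w * L.hT s hs b * L.w⁻¹ = L.hT s hs (-b) := by
  have h1 : L.w * L.hT s hs b * L.w⁻¹ ∈ L.B' := by
    apply L.B'_w _ (L.hT_mem s hs b)
    rw [π_hT]; simp
  apply L.B'_ext h1 (L.hT_mem s hs _)
  rw [map_mul, map_mul, map_inv, L.toLiftCore.π_w, π_hT, π_hT, wW_conj_kM]
  simp

theorem hT_mem_Bm (b : ZMod N) : L.hT s hs b ∈ L.Bm := by
  rw [mem_Bm]
  have h := L.w_conj_hT s hs (-b)
  rw [neg_neg] at h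
  rw [← h]
  have : L.w⁻¹ * (L.w * L.hT s hs (-b) * L.w⁻¹) * L.w = L.hT s hs (-b) := by group
  rw [this]
  exact L.hT_mem s hs _

theorem hT_Y_comm (b c : ZMod N) : Commute (L.hT s hs b) (L.Y s c) := by
  apply L.Bm_commute (L.hT_mem_Bm s hs b) (L.Y_mem s c)
  rw [L.π_Y s hs, π_hT]
  exact kM_commute s hs _ _ _ _ _ _

theorem u_conj_hT (t b : ZMod N) :
    L.u t * L.hT s hs b * (L.u t)⁻¹ = L.hT s hs b * L.X s (-2 * t * b) := by
  apply L.B'_ext
  · exact L.B'.mul_mem (L.B'.mul_mem (L.u_mem t) (L.hT_mem s hs b)) (L.B'.inv_mem (L.u_mem t))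
  · exact L.B'.mul_mem (L.hT_mem s hs b) (L.X_mem s _)
  · rw [map_mul, map_mul, map_inv, map_mul, L.π_u, π_hT, L.π_X s hs, eU_conj_kM, kM_mul]
    congr 1 <;> ring

theorem v_conj_hT (t b : ZMod N) :
    L.v t * L.hT s hs b * (L.v t)⁻¹ = L.hT s hs b * L.Y s (2 * t * b) := by
  apply L.Bm_ext
  · exact L.Bm.mul_mem (L.Bm.mul_mem (L.v_mem_Bm t) (L.hT_mem_Bm s hs b))
      (L.Bm.inv_mem (L.v_mem_Bm t))
  · exact L.Bm.mul_mem (L.hT_mem_Bm s hs b) (L.Y_mem s _)
  · rw [map_mul, map_mul, map_inv, map_mul, L.π_v, π_hT, L.π_Y s hs, eL_conj_kM, kM_mul]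
    congr 1 <;> ring

theorem w_conj_X (a : ZMod N) : L.w * L.X s a * L.w⁻¹ = L.Y s (-a) := by
  rw [X, Y, L.toLiftCore.w_conj_u, mul_neg]

theorem w_conj_Y (c : ZMod N) : L.w * L.Y s c * L.w⁻¹ = L.X s (-c) := by
  rw [X, Y, L.w_conj_v, mul_neg]

end LiftData

end Step1

section Step1b

variable {N p : ℕ} {D : Type*} [Group D] (L : LiftData N p D)
variable (s : ZMod N) (hs : s * s = 0)

namespace LiftData

/-- the only possible central defect -/
noncomputable def zeta (c : ZMod N) : D :=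
  (L.Y s c * L.hT s hs c * L.X s (-c))⁻¹ * (L.u 1 * L.Y s c * (L.u 1)⁻¹)

theorem π_zeta (c : ZMod N) : L.π (L.zeta s hs c) = 1 := by
  simp only [zeta, map_mul, map_inv, L.π_Y s hs, π_hT, L.π_X s hs, L.π_u, kM_mul, eU_conj_kM]
  rw [inv_mul_eq_one]
  congr 1 <;> ring

theorem u1_conj_Y (c : ZMod N) :
    L.u 1 * L.Y s c * (L.u 1)⁻¹ = L.Y s c * L.hT s hs c * L.X s (-c) * L.zeta s hs c := by
  unfold zeta; group

theorem zeta_central (c : ZMod N) (x : D) : Commute (L.zeta s hs c) x :=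
  L.toLiftCore.central' (L.π_zeta s hs c) x

theorem X_congr {a a' : ZMod N} (h : s * a = s * a') : L.X s a = L.X s a' := by
  unfold X; rw [h]

variable (hps : (p : ZMod N) * s = 0) (hodd : Odd p)

include hs hps hodd in
theorem X_Y_comm (a c : ZMod N) : Commute (L.X s a) (L.Y s c) := by
  obtain ⟨k, hk⟩ := hodd
  -- choose `b` with `s * (-2 * 1 * b) = s * a`
  set b : ZMod N := -a * ((k + 1 : ℕ) : ZMod N) with hb
  have hsa : s * (-2 * 1 * b) = s * a := by
    have h2 : (-2 * 1 * b : ZMod N) = a * ((p : ℕ) : ZMod N) + a := by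
      rw [hb, hk]; push_cast; ring
    rw [h2, mul_add, ← mul_assoc, mul_comm s a, mul_assoc, mul_comm s, hps, mul_zero, zero_add]
  have hXa : L.X s (-2 * 1 * b) = L.X s a := L.X_congr s hsa
  -- conjugate `[hT b, Y c] = 1` by `u 1`
  have h0 : Commute (L.u 1 * L.hT s hs b * (L.u 1)⁻¹) (L.u 1 * L.Y s c * (L.u 1)⁻¹) :=
    commute_conj _ (L.hT_Y_comm s hs b c)
  rw [L.u_conj_hT s hs 1 b, hXa, L.u1_conj_Y s hs c] at h0
  -- `hT b` commutes with the right-hand side
  have hB : Commute (L.hT s hs b)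
      (L.Y s c * L.hT s hs c * L.X s (-c) * L.zeta s hs c) :=
    (((L.hT_Y_comm s hs b c).mul_right (L.hT_comm s hs b c)).mul_right
      (L.X_hT_comm s hs (-c) b).symm).mul_right (L.zeta_central s hs c _).symm
  have h1 : Commute (L.X s a)
      (L.Y s c * L.hT s hs c * L.X s (-c) * L.zeta s hs c) := by
    have := hB.inv_left.mul_left h0
    rwa [inv_mul_cancel_left] at this
  -- peel off the factors commuting with `X a`
  have h2 : Commute (L.X s a) (L.hT s hs c * L.X s (-c) * L.zeta s hs c) :=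
    ((L.X_hT_comm s hs a c).mul_right (L.X_comm s a (-c))).mul_right
      (L.zeta_central s hs c _).symm
  have h3 : L.Y s c = (L.Y s c * L.hT s hs c * L.X s (-c) * L.zeta s hs c) *
      (L.hT s hs c * L.X s (-c) * L.zeta s hs c)⁻¹ := by group
  rw [h3]
  exact h1.mul_right h2.inv_right

include hps hodd in
theorem zeta_eq_one (c : ZMod N) : L.zeta s hs c = 1 := by
  set ζ := L.zeta s hs c with hζ
  have hζc : ∀ x, Commute ζ x := L.zeta_central s hs c
  -- E2 : conjugate the defining relation by `w`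
  have hwu : L.w * L.u 1 * L.w⁻¹ = L.v (-1) := L.toLiftCore.w_conj_u 1
  have E2 : L.v (-1) * L.X s (-c) * (L.v (-1))⁻¹ =
      L.X s (-c) * L.hT s hs (-c) * L.Y s c * ζ := by
    have h1 : L.w * (L.u 1 * L.Y s c * (L.u 1)⁻¹) * L.w⁻¹ =
        (L.w * L.u 1 * L.w⁻¹) * (L.w * L.Y s c * L.w⁻¹) * (L.w * L.u 1 * L.w⁻¹)⁻¹ := by group
    have h2 : L.w * (L.Y s c * L.hT s hs c * L.X s (-c) * ζ) * L.w⁻¹ =
        (L.w * L.Y s c * L.w⁻¹) * (L.w * L.hT s hs c * L.w⁻¹) * (L.w * L.X s (-c) * L.w⁻¹) *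
          (L.w * ζ * L.w⁻¹) := by group
    have h3 : L.w * ζ * L.w⁻¹ = ζ := by
      rw [(hζc L.w).eq.symm]; group
    rw [L.u1_conj_Y s hs c, h2, hwu, L.w_conj_Y, L.w_conj_hT, L.w_conj_X, h3, neg_neg] at h1
    exact h1.symm
  -- conjugation of the other factors by `v (-1)`
  have E3 : L.v (-1) * L.Y s c * (L.v (-1))⁻¹ = L.Y s c := by
    have : Commute (L.v (-1)) (L.Y s c) := L.toLiftCore.v_comm _ _
    rw [this.eq]; group
  have E4 : L.v (-1) * L.hT s hs c * (L.v (-1))⁻¹ =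
      L.hT s hs c * ((L.Y s c)⁻¹ * (L.Y s c)⁻¹) := by
    rw [L.v_conj_hT s hs (-1) c]
    have : (2 * -1 * c : ZMod N) = -c + -c := by ring
    rw [this, Y_add, Y_neg]
  -- compute `w Y w⁻¹` through `w = u 1 * v (-1) * u 1`
  have hw : L.w * L.Y s c * L.w⁻¹ =
      L.u 1 * (L.v (-1) * (L.u 1 * L.Y s c * (L.u 1)⁻¹) * (L.v (-1))⁻¹) * (L.u 1)⁻¹ := by
    rw [L.toLiftCore.w_def]; group
  have hmid : L.v (-1) * (L.Y s c * L.hT s hs c * L.X s (-c) * ζ) * (L.v (-1))⁻¹ =
      L.X s (-c) * ζ * ζ := by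
    have h1 : L.v (-1) * (L.Y s c * L.hT s hs c * L.X s (-c) * ζ) * (L.v (-1))⁻¹ =
        (L.v (-1) * L.Y s c * (L.v (-1))⁻¹) * (L.v (-1) * L.hT s hs c * (L.v (-1))⁻¹) *
          (L.v (-1) * L.X s (-c) * (L.v (-1))⁻¹) * (L.v (-1) * ζ * (L.v (-1))⁻¹) := by group
    have h3 : L.v (-1) * ζ * (L.v (-1))⁻¹ = ζ := by
      rw [(hζc (L.v (-1))).eq.symm]; group
    rw [h1, E3, E4, E2, h3, hT_neg]
    exact comm4 (L.X s (-c)) (L.hT s hs c) (L.Y s c) ζ (L.X_hT_comm s hs _ _)
      (L.X_Y_comm s hs hps hodd _ _) (hζc _).symm (L.hT_Y_comm s hs _ _) (hζc _).symm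
      (hζc _).symm
  rw [L.u1_conj_Y s hs c, hmid, L.w_conj_Y] at hw
  have hu : L.u 1 * (L.X s (-c) * ζ * ζ) * (L.u 1)⁻¹ = L.X s (-c) * ζ * ζ := by
    have h1 : Commute (L.u 1) (L.X s (-c) * ζ * ζ) :=
      ((L.toLiftCore.u_comm _ _).mul_right (hζc _).symm).mul_right (hζc _).symm
    rw [h1.eq]; group
  rw [hu] at hw
  have h2 : ζ * ζ = 1 := by
    have : L.X s (-c) * (ζ * ζ) = L.X s (-c) * 1 := by rw [mul_one, ← mul_assoc]; exact hw.symm
    exact mul_left_cancel this
  exact eq_one_of_sq_of_pow hodd h2 (L.ker_pow _ (L.π_zeta s hs c))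

end LiftData

end Step1b

section Step1c

theorem mul6 {G : Type*} [Group G] {x h y x' h' y' : G} (hyx : Commute y x')
    (hhx : Commute h x') (hyh : Commute y h') :
    (x * h * y) * (x' * h' * y') = (x * x') * (h * h') * (y * y') := by
  have h1 : (x * h * y) * (x' * h' * y') = x * h * (y * x') * h' * y' := by group
  rw [h1, hyx.eq]
  have h2 : x * h * (x' * y) * h' * y' = x * (h * x') * (y * h') * y' := by group
  rw [h2, hhx.eq, hyh.eq]
  group

variable {N p : ℕ} {D : Type*} [Group D] (L : LiftData N p D)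
variable (s : ZMod N) (hs : s * s = 0)
variable (hps : (p : ZMod N) * s = 0) (hodd : Odd p)

namespace LiftData

/-- `lam a b c = X a * hT b * Y c`, the lift of `1 + s (a e + b h + c f)` -/
noncomputable def lam (a b c : ZMod N) : D := L.X s a * L.hT s hs b * L.Y s c

theorem π_lam (a b c : ZMod N) : L.π (L.lam s hs a b c) = kM s hs a b c := by
  rw [lam, map_mul, map_mul, L.π_X s hs, π_hT, L.π_Y s hs, kM_mul, kM_mul]
  congr 1 <;> ring

theorem lam_X (a : ZMod N) : L.lam s hs a 0 0 = L.X s a := by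
  rw [lam, hT_zero, Y_zero, mul_one, mul_one]

theorem lam_H (b : ZMod N) : L.lam s hs 0 b 0 = L.hT s hs b := by
  rw [lam, X_zero, Y_zero, mul_one, one_mul]

theorem lam_Y (c : ZMod N) : L.lam s hs 0 0 c = L.Y s c := by
  rw [lam, X_zero, hT_zero, one_mul, one_mul]

theorem lam_zero : L.lam s hs 0 0 0 = 1 := by
  rw [lam_X, X_zero]

include hps hodd in
theorem lam_mul (a b c a' b' c' : ZMod N) :
    L.lam s hs a b c * L.lam s hs a' b' c' = L.lam s hs (a + a') (b + b') (c + c') := by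
  unfold lam
  rw [mul6 (L.X_Y_comm s hs hps hodd a' c).symm (L.X_hT_comm s hs a' b).symm
    (L.hT_Y_comm s hs b' c).symm, ← X_add, ← hT_add, ← Y_add]

include hps hodd in
theorem lam_inv (a b c : ZMod N) :
    (L.lam s hs a b c)⁻¹ = L.lam s hs (-a) (-b) (-c) := by
  rw [inv_eq_iff_mul_eq_one, L.lam_mul s hs hps hodd]
  simp [lam_zero]

include hps hodd in
theorem u1_conj_lam (a b c : ZMod N) :
    L.u 1 * L.lam s hs a b c * (L.u 1)⁻¹ = L.lam s hs (a - 2 * b - c) (b + c) c := by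
  have h1 : L.u 1 * L.lam s hs a b c * (L.u 1)⁻¹ =
      (L.u 1 * L.X s a * (L.u 1)⁻¹) * (L.u 1 * L.hT s hs b * (L.u 1)⁻¹) *
        (L.u 1 * L.Y s c * (L.u 1)⁻¹) := by
    unfold lam; group
  have hX : L.u 1 * L.X s a * (L.u 1)⁻¹ = L.X s a := by
    have : Commute (L.u 1) (L.X s a) := L.toLiftCore.u_comm _ _
    rw [this.eq]; group
  have hH : L.u 1 * L.hT s hs b * (L.u 1)⁻¹ = L.hT s hs b * L.X s (-2 * b) := by
    rw [L.u_conj_hT s hs 1 b]
    congr 2; ring
  have hY : L.u 1 * L.Y s c * (L.u 1)⁻¹ = L.Y s c * L.hT s hs c * L.X s (-c) := by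
    rw [L.u1_conj_Y s hs c, L.zeta_eq_one s hs hps hodd c, mul_one]
  rw [h1, hX, hH, hY, ← L.lam_X s hs a, ← L.lam_H s hs b, ← L.lam_Y s hs c, ← L.lam_H s hs c,
    ← L.lam_X s hs (-2 * b), ← L.lam_X s hs (-c),
    L.lam_mul s hs hps hodd, L.lam_mul s hs hps hodd, L.lam_mul s hs hps hodd,
    L.lam_mul s hs hps hodd, L.lam_mul s hs hps hodd]
  congr 1 <;> ring

include hps hodd in
theorem w_conj_lam (a b c : ZMod N) :
    L.w * L.lam s hs a b c * L.w⁻¹ = L.lam s hs (-c) (-b) (-a) := by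
  have h1 : L.w * L.lam s hs a b c * L.w⁻¹ =
      (L.w * L.X s a * L.w⁻¹) * (L.w * L.hT s hs b * L.w⁻¹) * (L.w * L.Y s c * L.w⁻¹) := by
    unfold lam; group
  rw [h1, L.w_conj_X, L.w_conj_hT, L.w_conj_Y, ← L.lam_X s hs, ← L.lam_H s hs, ← L.lam_Y s hs,
    L.lam_mul s hs hps hodd, L.lam_mul s hs hps hodd]
  congr 1 <;> ring

/-- the complement `V'` of the kernel in `π⁻¹(K)` -/
noncomputable def V' : Subgroup D where
  carrier := {x | ∃ a b c, x = L.lam s hs a b c}
  mul_mem' := by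
    rintro _ _ ⟨a, b, c, rfl⟩ ⟨a', b', c', rfl⟩
    exact ⟨_, _, _, L.lam_mul s hs hps hodd a b c a' b' c'⟩
  one_mem' := ⟨0, 0, 0, (L.lam_zero s hs).symm⟩
  inv_mem' := by
    rintro _ ⟨a, b, c, rfl⟩
    exact ⟨_, _, _, L.lam_inv s hs hps hodd a b c⟩

theorem mem_V' {x : D} : x ∈ L.V' s hs hps hodd ↔ ∃ a b c, x = L.lam s hs a b c := Iff.rfl

theorem lam_mem_V' (a b c : ZMod N) : L.lam s hs a b c ∈ L.V' s hs hps hodd := ⟨a, b, c, rfl⟩

theorem V'_inj {x : D} (hx : x ∈ L.V' s hs hps hodd) (h : L.π x = 1) : x = 1 := by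
  obtain ⟨a, b, c, rfl⟩ := hx
  rw [π_lam, kM_eq_one_iff] at h
  obtain ⟨h1, h2, h3⟩ := h
  have hX : L.X s a = 1 := by rw [X, h1, L.toLiftCore.u_zero]
  have hY : L.Y s c = 1 := by rw [Y, h3, L.toLiftCore.v_zero]
  have hH : L.hT s hs b = 1 := by
    apply L.B'_inj _ (L.hT_mem s hs b)
    rw [π_hT, kM_eq_one_iff]
    exact ⟨by simp, h2, by simp⟩
  rw [lam, hX, hY, hH]; simp

end LiftData

end Step1c

section Step1d

variable {N p : ℕ} {D : Type*} [Group D]

theorem LiftCore.u_natCast (C : LiftCore N p D) (n : ℕ) : C.u (n : ZMod N) = C.u 1 ^ n := by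
  induction n with
  | zero => simp [C.u_zero]
  | succ k ih => rw [Nat.cast_succ, C.u_add, ih, pow_succ]

theorem LiftCore.u_eq_pow [NeZero N] (C : LiftCore N p D) (t : ZMod N) :
    C.u t = C.u 1 ^ t.val := by
  rw [← C.u_natCast, ZMod.natCast_zmod_val]

variable (L : LiftData N p D)
variable (s : ZMod N) (hs : s * s = 0)
variable (hps : (p : ZMod N) * s = 0) (hodd : Odd p)

namespace LiftData

/-- the elements normalising `V'` in both directions -/
noncomputable def nrm : Subgroup D where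
  carrier := {g | ∀ x ∈ L.V' s hs hps hodd,
    g * x * g⁻¹ ∈ L.V' s hs hps hodd ∧ g⁻¹ * x * g ∈ L.V' s hs hps hodd}
  mul_mem' := by
    intro g h hg hh x hx
    constructor
    · have := (hg _ (hh x hx).1).1
      have e : g * h * x * (g * h)⁻¹ = g * (h * x * h⁻¹) * g⁻¹ := by group
      rw [e]; exact this
    · have := (hh _ (hg x hx).2).2
      have e : (g * h)⁻¹ * x * (g * h) = h⁻¹ * (g⁻¹ * x * g) * h := by group
      rw [e]; exact this
  one_mem' := by
    intro x hx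
    simp [hx]
  inv_mem' := by
    intro g hg x hx
    have := hg x hx
    rw [inv_inv]
    exact ⟨this.2, this.1⟩

theorem u1_mem_nrm : L.u 1 ∈ L.nrm s hs hps hodd := by
  rintro _ ⟨a, b, c, rfl⟩
  constructor
  · rw [L.u1_conj_lam s hs hps hodd]
    exact L.lam_mem_V' s hs hps hodd _ _ _
  · have h := L.u1_conj_lam s hs hps hodd (a + 2 * b - c) (b - c) c
    have e : L.lam s hs (a + 2 * b - c - 2 * (b - c) - c) (b - c + c) c = L.lam s hs a b c := by
      congr 1 <;> ring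
    rw [e] at h
    rw [← h]
    have e2 : (L.u 1)⁻¹ * (L.u 1 * L.lam s hs (a + 2 * b - c) (b - c) c * (L.u 1)⁻¹) * L.u 1 =
        L.lam s hs (a + 2 * b - c) (b - c) c := by group
    rw [e2]
    exact L.lam_mem_V' s hs hps hodd _ _ _

theorem w_mem_nrm : L.w ∈ L.nrm s hs hps hodd := by
  rintro _ ⟨a, b, c, rfl⟩
  constructor
  · rw [L.w_conj_lam s hs hps hodd]
    exact L.lam_mem_V' s hs hps hodd _ _ _
  · have h := L.w_conj_lam s hs hps hodd (-c) (-b) (-a)
    simp only [neg_neg] at h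
    rw [← h]
    have e2 : L.w⁻¹ * (L.w * L.lam s hs (-c) (-b) (-a) * L.w⁻¹) * L.w =
        L.lam s hs (-c) (-b) (-a) := by group
    rw [e2]
    exact L.lam_mem_V' s hs hps hodd _ _ _

theorem nrm_eq_top [NeZero N] : L.nrm s hs hps hodd = ⊤ := by
  rw [eq_top_iff, ← L.gen, Subgroup.closure_le]
  rintro g (⟨t, rfl⟩ | ⟨t, rfl⟩)
  · rw [L.toLiftCore.u_eq_pow]
    exact (L.nrm s hs hps hodd).pow_mem (L.u1_mem_nrm s hs hps hodd) _
  · have h := L.toLiftCore.w_conj_u (-t)
    rw [neg_neg] at h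
    rw [SetLike.mem_coe, ← h]
    refine (L.nrm s hs hps hodd).mul_mem ((L.nrm s hs hps hodd).mul_mem
      (L.w_mem_nrm s hs hps hodd) ?_) ((L.nrm s hs hps hodd).inv_mem (L.w_mem_nrm s hs hps hodd))
    rw [L.toLiftCore.u_eq_pow]
    exact (L.nrm s hs hps hodd).pow_mem (L.u1_mem_nrm s hs hps hodd) _

theorem V'_normal [NeZero N] : (L.V' s hs hps hodd).Normal := by
  constructor
  intro x hx g
  have hg : g ∈ L.nrm s hs hps hodd := by rw [L.nrm_eq_top s hs hps hodd]; trivial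
  exact (hg x hx).1

end LiftData

end Step1d

section RedGen

variable {R S : Type*} [CommRing R] [CommRing S] (f : R →+* S)

/-- the map `SL₂(R) → SL₂(S)` induced by `f` -/
def redF : SL2 R →* SL2 S := Matrix.SpecialLinearGroup.map f

theorem redF_apply (g : SL2 R) (i j : Fin 2) : (redF f g).1 i j = f (g.1 i j) := rfl

theorem redF_eU (t : R) : redF f (eU t) = eU (f t) := by
  apply sl2_ext <;> simp only [redF_apply, eU_val, Matrix.of_apply, Matrix.cons_val',
    Matrix.cons_val_one, Matrix.cons_val_zero, Matrix.cons_val_fin_one, map_one, map_zero]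

theorem redF_eL (t : R) : redF f (eL t) = eL (f t) := by
  apply sl2_ext <;> simp only [redF_apply, eL_val, Matrix.of_apply, Matrix.cons_val',
    Matrix.cons_val_one, Matrix.cons_val_zero, Matrix.cons_val_fin_one, map_one, map_zero]

variable (s : R) (hs : s * s = 0) (hfs : f s = 0)

include hfs in
theorem redF_kM (a b c : R) : redF f (kM s hs a b c) = 1 := by
  apply sl2_ext <;> simp only [redF_apply, kM_val, Matrix.of_apply, Matrix.cons_val',
    Matrix.cons_val_one, Matrix.cons_val_zero, Matrix.cons_val_fin_one, map_one,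
    map_add, map_sub, map_mul, hfs, zero_mul, add_zero, sub_zero,
    Matrix.SpecialLinearGroup.coe_one, Matrix.one_apply_eq, ne_eq, zero_ne_one, one_ne_zero,
    not_false_eq_true, Matrix.one_apply_ne]

variable (hker : ∀ x, f x = 0 → ∃ y, x = s * y)

include hker in
theorem exists_kM_of_redF_eq_one (g : SL2 R) (hg : redF f g = 1) :
    ∃ a b c, g = kM s hs a b c := by
  have h00 : f (g.1 0 0 - 1) = 0 := by
    have := congrArg (fun x : SL2 S => x.1 0 0) hg
    simp only [redF_apply] at this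
    rw [map_sub, this]; simp
  have h01 : f (g.1 0 1) = 0 := by
    have := congrArg (fun x : SL2 S => x.1 0 1) hg
    simpa only [redF_apply, Matrix.SpecialLinearGroup.coe_one, ne_eq, zero_ne_one,
      not_false_eq_true, Matrix.one_apply_ne] using this
  have h10 : f (g.1 1 0) = 0 := by
    have := congrArg (fun x : SL2 S => x.1 1 0) hg
    simpa only [redF_apply, Matrix.SpecialLinearGroup.coe_one, ne_eq, one_ne_zero,
      not_false_eq_true, Matrix.one_apply_ne] using this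
  have h11 : f (g.1 1 1 - 1) = 0 := by
    have := congrArg (fun x : SL2 S => x.1 1 1) hg
    simp only [redF_apply] at this
    rw [map_sub, this]; simp
  obtain ⟨b, hb⟩ := hker _ h00
  obtain ⟨a, ha⟩ := hker _ h01
  obtain ⟨c, hc⟩ := hker _ h10
  obtain ⟨b', hb'⟩ := hker _ h11
  have hdet := g.2
  rw [Matrix.det_fin_two] at hdet
  have e00 : g.1 0 0 = 1 + s * b := by rw [← hb]; ring
  have e11 : g.1 1 1 = 1 + s * b' := by rw [← hb']; ring
  rw [e00, e11, ha, hc] at hdet
  have hbb : s * b' = -(s * b) := by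
    linear_combination hdet + (a * c - b * b') * hs
  refine ⟨a, b, c, ?_⟩
  apply sl2_ext
  · rw [e00]; simp
  · rw [ha]; simp
  · rw [hc]; simp
  · rw [e11, hbb]; simp [sub_eq_add_neg]

variable (σ : S → R) (hσ : ∀ t, f (σ t) = t) (hσ0 : σ 0 = 0)

include hs hfs hker hσ hσ0 in
/-- lifting along the reduction, keeping zero off-diagonal entries -/
theorem exists_lift_redF (g' : SL2 S) :
    ∃ g : SL2 R, redF f g = g' ∧ (g'.1 1 0 = 0 → g.1 1 0 = 0) ∧
      (g'.1 0 1 = 0 → g.1 0 1 = 0) := by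
  set a : R := σ (g'.1 0 0) with ha
  set b : R := σ (g'.1 0 1) with hb
  set c : R := σ (g'.1 1 0) with hc
  set d : R := σ (g'.1 1 1) with hd
  have hdet' := g'.2
  rw [Matrix.det_fin_two] at hdet'
  have h1 : f (a * d - b * c - 1) = 0 := by
    rw [map_sub, map_sub, map_mul, map_mul, ha, hb, hc, hd, hσ, hσ, hσ, hσ, hdet',
      map_one, sub_self]
  obtain ⟨y, hy⟩ := hker _ h1
  refine ⟨⟨!![a * (1 - s * y), b; c * (1 - s * y), d], ?_⟩, ?_, ?_, ?_⟩
  · rw [Matrix.det_fin_two_of]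
    have : a * d - b * c = 1 + s * y := by rw [← hy]; ring
    linear_combination (1 - s * y) * this - (y * y) * hs
  · apply sl2_ext
    · show f (a * (1 - s * y)) = _
      rw [map_mul, map_sub, map_one, map_mul, hfs, zero_mul, sub_zero, mul_one, ha, hσ]
    · show f b = _
      rw [hb, hσ]
    · show f (c * (1 - s * y)) = _
      rw [map_mul, map_sub, map_one, map_mul, hfs, zero_mul, sub_zero, mul_one, hc, hσ]
    · show f d = _
      rw [hd, hσ]
  · intro h
    simp only [Matrix.of_apply, Matrix.cons_val', Matrix.cons_val_one, Matrix.cons_val_zero,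
      Matrix.cons_val_fin_one]
    rw [hc, h, hσ0, zero_mul]
  · intro h
    simp only [Matrix.of_apply, Matrix.cons_val', Matrix.cons_val_one, Matrix.cons_val_zero,
      Matrix.cons_val_fin_one]
    rw [hb, h, hσ0]

end RedGen

section RedZMod

variable {N M : ℕ} (hM : M ∣ N)

theorem cast_M : ZMod.castHom hM (ZMod M) (M : ZMod N) = 0 := by
  rw [map_natCast]; exact ZMod.natCast_self M

theorem exists_eq_mul_of_cast_eq_zero [NeZero N] (x : ZMod N)
    (hx : ZMod.castHom hM (ZMod M) x = 0) : ∃ y : ZMod N, x = (M : ZMod N) * y := by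
  have h1 : x = ((x.val : ℕ) : ZMod N) := (ZMod.natCast_zmod_val x).symm
  rw [h1, map_natCast, ZMod.natCast_eq_zero_iff] at hx
  obtain ⟨k, hk⟩ := hx
  refine ⟨(k : ZMod N), ?_⟩
  rw [h1, hk]; push_cast; rfl

theorem cast_val_lift [NeZero M] (t : ZMod M) :
    ZMod.castHom hM (ZMod M) (((t.val : ℕ) : ZMod N)) = t := by
  rw [map_natCast, ZMod.natCast_zmod_val]

end RedZMod


section Quot

variable {N M p : ℕ} {D : Type*} [Group D] (C : LiftCore N p D) (hM : M ∣ N)
variable [NeZero N] [NeZero M]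
variable (hs : (M : ZMod N) * (M : ZMod N) = 0)
variable (V : Subgroup D) [V.Normal]
variable (hV1 : ∀ x ∈ V, redF (ZMod.castHom hM (ZMod M)) (C.π x) = 1)
variable (hV2 : ∀ g, redF (ZMod.castHom hM (ZMod M)) g = 1 → ∃ x ∈ V, C.π x = g)
variable (hVu : ∀ k, C.u ((M : ZMod N) * k) ∈ V) (hVv : ∀ k, C.v ((M : ZMod N) * k) ∈ V)

namespace LiftCore

/-- the induced map `D ⧸ V → SL₂(ℤ/M)` -/
def quotπ : D ⧸ V →* SL2 (ZMod M) :=
  QuotientGroup.lift V ((redF (ZMod.castHom hM (ZMod M))).comp C.π)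
    (fun x hx => MonoidHom.mem_ker.mpr (hV1 x hx))

theorem quotπ_mk (x : D) :
    C.quotπ hM V hV1 (QuotientGroup.mk x) = redF (ZMod.castHom hM (ZMod M)) (C.π x) := rfl

include hVu in
theorem mk_u_congr {x y : ZMod N}
    (h : ZMod.castHom hM (ZMod M) x = ZMod.castHom hM (ZMod M) y) :
    (QuotientGroup.mk (C.u x) : D ⧸ V) = QuotientGroup.mk (C.u y) := by
  have h0 : ZMod.castHom hM (ZMod M) (y - x) = 0 := by rw [map_sub, h, sub_self]
  obtain ⟨k, hk⟩ := exists_eq_mul_of_cast_eq_zero hM _ h0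
  rw [QuotientGroup.eq]
  have : (C.u x)⁻¹ * C.u y = C.u ((M : ZMod N) * k) := by
    rw [← hk, ← C.u_neg, ← C.u_add]; congr 1; ring
  rw [this]; exact hVu k

include hVv in
theorem mk_v_congr {x y : ZMod N}
    (h : ZMod.castHom hM (ZMod M) x = ZMod.castHom hM (ZMod M) y) :
    (QuotientGroup.mk (C.v x) : D ⧸ V) = QuotientGroup.mk (C.v y) := by
  have h0 : ZMod.castHom hM (ZMod M) (y - x) = 0 := by rw [map_sub, h, sub_self]
  obtain ⟨k, hk⟩ := exists_eq_mul_of_cast_eq_zero hM _ h0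
  rw [QuotientGroup.eq]
  have : (C.v x)⁻¹ * C.v y = C.v ((M : ZMod N) * k) := by
    rw [← hk, ← C.v_neg, ← C.v_add]; congr 1; ring
  rw [this]; exact hVv k

/-- the induced `u` -/
def quotU (t : ZMod M) : D ⧸ V := QuotientGroup.mk (C.u ((t.val : ℕ) : ZMod N))

/-- the induced `v` -/
def quotV (t : ZMod M) : D ⧸ V := QuotientGroup.mk (C.v ((t.val : ℕ) : ZMod N))

include hVu in
theorem quotU_cast (x : ZMod N) :
    C.quotU V (ZMod.castHom hM (ZMod M) x) = QuotientGroup.mk (C.u x) := by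
  unfold quotU
  apply C.mk_u_congr hM V hVu
  rw [cast_val_lift]

include hVv in
theorem quotV_cast (x : ZMod N) :
    C.quotV V (ZMod.castHom hM (ZMod M) x) = QuotientGroup.mk (C.v x) := by
  unfold quotV
  apply C.mk_v_congr hM V hVv
  rw [cast_val_lift]

include hV2 in
theorem exists_ker_rep (z' : D ⧸ V) (hz' : C.quotπ hM V hV1 z' = 1) :
    ∃ z : D, C.π z = 1 ∧ QuotientGroup.mk z = z' := by
  obtain ⟨d, rfl⟩ := QuotientGroup.mk_surjective z'
  rw [quotπ_mk] at hz'
  obtain ⟨x, hxV, hx⟩ := hV2 _ hz'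
  refine ⟨d * x⁻¹, by rw [map_mul, map_inv, hx, mul_inv_cancel], ?_⟩
  rw [QuotientGroup.eq]
  have : (d * x⁻¹)⁻¹ * d = x := by group
  rw [this]; exact hxV

/-- **The quotient core.** -/
noncomputable def quot : LiftCore M p (D ⧸ V) where
  π := C.quotπ hM V hV1
  π_surj := by
    intro g'
    obtain ⟨g, hg, -, -⟩ := exists_lift_redF (ZMod.castHom hM (ZMod M)) (M : ZMod N) hs
      (cast_M hM) (exists_eq_mul_of_cast_eq_zero hM) (fun t => ((t.val : ℕ) : ZMod N))
      (cast_val_lift hM) (by simp) g'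
    obtain ⟨x, hx⟩ := C.π_surj g
    exact ⟨QuotientGroup.mk x, by rw [quotπ_mk, hx, hg]⟩
  central := by
    intro z' hz' y'
    obtain ⟨z, hz, rfl⟩ := C.exists_ker_rep hM V hV1 hV2 z' hz'
    obtain ⟨y, rfl⟩ := QuotientGroup.mk_surjective y'
    rw [← QuotientGroup.mk_mul, ← QuotientGroup.mk_mul, C.central z hz y]
  ker_pow := by
    intro z' hz'
    obtain ⟨z, hz, rfl⟩ := C.exists_ker_rep hM V hV1 hV2 z' hz'
    rw [← QuotientGroup.mk_pow, C.ker_pow z hz, QuotientGroup.mk_one]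
  u := C.quotU V
  v := C.quotV V
  u_add := by
    intro a b
    have h1 := C.quotU_cast hM V hVu (((a.val : ℕ) : ZMod N) + ((b.val : ℕ) : ZMod N))
    rw [map_add, cast_val_lift, cast_val_lift] at h1
    rw [h1, C.u_add, QuotientGroup.mk_mul]; rfl
  v_add := by
    intro a b
    have h1 := C.quotV_cast hM V hVv (((a.val : ℕ) : ZMod N) + ((b.val : ℕ) : ZMod N))
    rw [map_add, cast_val_lift, cast_val_lift] at h1
    rw [h1, C.v_add, QuotientGroup.mk_mul]; rfl
  π_u := by
    intro t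
    unfold quotU
    rw [quotπ_mk, C.π_u, redF_eU, cast_val_lift]
  π_v := by
    intro t
    unfold quotV
    rw [quotπ_mk, C.π_v, redF_eL, cast_val_lift]
  gen := by
    rw [eq_top_iff]
    rintro x' -
    obtain ⟨x, rfl⟩ := QuotientGroup.mk_surjective x'
    have hx : x ∈ Subgroup.closure (Set.range C.u ∪ Set.range C.v) := by rw [C.gen]; trivial
    induction hx using Subgroup.closure_induction with
    | mem y hy =>
      apply Subgroup.subset_closure
      rcases hy with ⟨t, rfl⟩ | ⟨t, rfl⟩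
      · left; exact ⟨_, C.quotU_cast hM V hVu t⟩
      · right; exact ⟨_, C.quotV_cast hM V hVv t⟩
    | one => exact Subgroup.one_mem _
    | mul a b _ _ ha hb => rw [QuotientGroup.mk_mul]; exact Subgroup.mul_mem _ ha hb
    | inv a _ ha => rw [QuotientGroup.mk_inv]; exact Subgroup.inv_mem _ ha
  w_conj := by
    intro t
    have h1 : C.quotU V (1 : ZMod M) = QuotientGroup.mk (C.u 1) := by
      have := C.quotU_cast hM V hVu 1
      rwa [map_one] at this
    have h2 : C.quotV V (-1 : ZMod M) = QuotientGroup.mk (C.v (-1)) := by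
      have := C.quotV_cast hM V hVv (-1)
      rwa [map_neg, map_one] at this
    have h3 : C.quotV V (-t) = QuotientGroup.mk (C.v (-((t.val : ℕ) : ZMod N))) := by
      have := C.quotV_cast hM V hVv (-((t.val : ℕ) : ZMod N))
      rwa [map_neg, cast_val_lift] at this
    rw [h1, h2, h3]
    unfold quotU
    rw [← QuotientGroup.mk_mul, ← QuotientGroup.mk_mul, ← QuotientGroup.mk_mul,
      ← QuotientGroup.mk_inv, ← QuotientGroup.mk_mul, C.w_conj]
  w_pow := by
    have h1 : C.quotU V (1 : ZMod M) = QuotientGroup.mk (C.u 1) := by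
      have := C.quotU_cast hM V hVu 1
      rwa [map_one] at this
    have h2 : C.quotV V (-1 : ZMod M) = QuotientGroup.mk (C.v (-1)) := by
      have := C.quotV_cast hM V hVv (-1)
      rwa [map_neg, map_one] at this
    rw [h1, h2, ← QuotientGroup.mk_mul, ← QuotientGroup.mk_mul, ← QuotientGroup.mk_pow, C.w_pow,
      QuotientGroup.mk_one]


theorem quot_w :
    (C.quot hM hs V hV1 hV2 hVu hVv).w = QuotientGroup.mk C.w := by
  have h1 : C.quotU V (1 : ZMod M) = QuotientGroup.mk (C.u 1) := by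
    have := C.quotU_cast hM V hVu 1
    rwa [map_one] at this
  have h2 : C.quotV V (-1 : ZMod M) = QuotientGroup.mk (C.v (-1)) := by
    have := C.quotV_cast hM V hVv (-1)
    rwa [map_neg, map_one] at this
  change C.quotU V 1 * C.quotV V (-1) * C.quotU V 1 = _
  rw [h1, h2, ← QuotientGroup.mk_mul, ← QuotientGroup.mk_mul]
  rfl

theorem quot_π_mk (x : D) :
    (C.quot hM hs V hV1 hV2 hVu hVv).π (QuotientGroup.mk x) =
      redF (ZMod.castHom hM (ZMod M)) (C.π x) := rfl

theorem quot_u (t : ZMod M) :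
    (C.quot hM hs V hV1 hV2 hVu hVv).u t = QuotientGroup.mk (C.u ((t.val : ℕ) : ZMod N)) := rfl

end LiftCore

end Quot


section Descend

variable {N p : ℕ} {D : Type*} [Group D] (L : LiftData N p D)

theorem sq_cast_eq_zero (hN : p ^ 2 ∣ N) : ((N / p : ℕ) : ZMod N) * ((N / p : ℕ) : ZMod N) = 0 := by
  rw [← Nat.cast_mul, ZMod.natCast_eq_zero_iff]
  obtain ⟨k, rfl⟩ := hN
  rcases Nat.eq_zero_or_pos p with hp0 | hp0
  · subst hp0; simp
  · have h1 : p ^ 2 * k / p = p * k := by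
      rw [pow_two, mul_assoc, Nat.mul_div_cancel_left _ hp0]
    rw [h1]
    exact ⟨k, by ring⟩

theorem p_mul_cast_eq_zero (hN : p ^ 2 ∣ N) : (p : ZMod N) * ((N / p : ℕ) : ZMod N) = 0 := by
  rw [← Nat.cast_mul, ZMod.natCast_eq_zero_iff]
  have hpN : p ∣ N := dvd_trans (dvd_pow_self p two_ne_zero) hN
  rw [Nat.mul_div_cancel' hpN]

variable [NeZero N] (hN : p ^ 2 ∣ N) (hodd : Odd p)

theorem div_dvd (hN : p ^ 2 ∣ N) : N / p ∣ N :=
  Nat.div_dvd_of_dvd (dvd_trans (dvd_pow_self p two_ne_zero) hN)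

theorem neZero_div (hN : p ^ 2 ∣ N) : NeZero (N / p) := by
  constructor
  intro h
  have h1 := div_dvd (N := N) hN
  rw [h] at h1
  exact NeZero.ne N (zero_dvd_iff.mp h1)

namespace LiftData

/-- abbreviation: the subgroup `V'` for `s = N / p` -/
noncomputable abbrev Vp : Subgroup D :=
  L.V' ((N / p : ℕ) : ZMod N) (sq_cast_eq_zero hN) (p_mul_cast_eq_zero hN) hodd

instance Vp_normal : (L.Vp hN hodd).Normal :=
  L.V'_normal _ _ _ _

theorem Vp_hV1 : ∀ x ∈ L.Vp hN hodd,
    redF (ZMod.castHom (div_dvd hN) (ZMod (N / p))) (L.π x) = 1 := by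
  rintro _ ⟨a, b, c, rfl⟩
  rw [π_lam]
  exact redF_kM _ _ _ (cast_M _) _ _ _

theorem Vp_hV2 : ∀ g, redF (ZMod.castHom (div_dvd hN) (ZMod (N / p))) g = 1 →
    ∃ x ∈ L.Vp hN hodd, L.π x = g := by
  intro g hg
  obtain ⟨a, b, c, rfl⟩ := exists_kM_of_redF_eq_one _ _ (sq_cast_eq_zero hN)
    (exists_eq_mul_of_cast_eq_zero (div_dvd hN)) g hg
  exact ⟨_, L.lam_mem_V' _ _ _ _ a b c, L.π_lam _ _ a b c⟩

theorem Vp_hVu : ∀ k, L.u (((N / p : ℕ) : ZMod N) * k) ∈ L.Vp hN hodd := by
  intro k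
  have := L.lam_mem_V' _ (sq_cast_eq_zero hN) (p_mul_cast_eq_zero hN) hodd k 0 0
  rwa [lam_X] at this

theorem Vp_hVv : ∀ k, L.v (((N / p : ℕ) : ZMod N) * k) ∈ L.Vp hN hodd := by
  intro k
  have := L.lam_mem_V' _ (sq_cast_eq_zero hN) (p_mul_cast_eq_zero hN) hodd 0 0 k
  rwa [lam_Y] at this

/-- the descended core -/
noncomputable def descCore : LiftCore (N / p) p (D ⧸ L.Vp hN hodd) :=
  haveI := neZero_div (N := N) hN
  L.toLiftCore.quot (div_dvd hN) (sq_cast_eq_zero hN) (L.Vp hN hodd) (L.Vp_hV1 hN hodd)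
    (L.Vp_hV2 hN hodd) (L.Vp_hVu hN hodd) (L.Vp_hVv hN hodd)

theorem descCore_π_mk (x : D) : (L.descCore hN hodd).π (QuotientGroup.mk x) =
    redF (ZMod.castHom (div_dvd hN) (ZMod (N / p))) (L.π x) := rfl

theorem descCore_w : (L.descCore hN hodd).w = QuotientGroup.mk L.w := by
  haveI := neZero_div (N := N) hN
  exact LiftCore.quot_w _ _ _ _ _ _ _ _


theorem upper_det {x : D} (hx : x ∈ L.B') : (L.π x).1 0 0 * (L.π x).1 1 1 = 1 := by
  have h := (L.π x).2
  rw [Matrix.det_fin_two, L.B'_upper x hx] at h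
  simpa using h

/-- **Step 1 (descent).** The data descend to `D ⧸ V'` over `ℤ/(N/p)`. -/
noncomputable def descend : LiftData (N / p) p (D ⧸ L.Vp hN hodd) where
  toLiftCore := L.descCore hN hodd
  B' := L.B'.map (QuotientGroup.mk' (L.Vp hN hodd))
  B'_inj := by
    rintro _ ⟨x, hx, rfl⟩ hπ
    rw [QuotientGroup.mk'_apply, descCore_π_mk] at hπ
    obtain ⟨a, b, c, habc⟩ := exists_kM_of_redF_eq_one _ _ (sq_cast_eq_zero hN)
      (exists_eq_mul_of_cast_eq_zero (div_dvd hN)) _ hπ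
    have hc : ((N / p : ℕ) : ZMod N) * c = 0 := by
      have := L.B'_upper x hx
      rw [habc] at this
      simpa using this
    have hx' : x = L.lam _ (sq_cast_eq_zero hN) a b 0 := by
      apply L.B'_ext hx
      · rw [lam, Y_zero, mul_one]
        exact L.B'.mul_mem (L.X_mem _ _) (L.hT_mem _ _ _)
      · rw [habc, π_lam]
        exact kM_congr _ _ rfl rfl (by rw [hc, mul_zero])
    rw [QuotientGroup.mk'_apply, QuotientGroup.eq_one_iff, hx']
    exact L.lam_mem_V' _ _ _ _ _ _ _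
  B'_surj := by
    haveI := neZero_div (N := N) hN
    intro g' hg'
    obtain ⟨g, hg, h10, -⟩ := exists_lift_redF (ZMod.castHom (div_dvd hN) (ZMod (N / p)))
      ((N / p : ℕ) : ZMod N) (sq_cast_eq_zero hN) (cast_M _)
      (exists_eq_mul_of_cast_eq_zero (div_dvd hN)) (fun t => ((t.val : ℕ) : ZMod N))
      (cast_val_lift (div_dvd hN)) (by simp) g'
    obtain ⟨x, hx, hπx⟩ := L.B'_surj g (h10 hg')
    exact ⟨QuotientGroup.mk x, ⟨x, hx, rfl⟩, by rw [descCore_π_mk, hπx, hg]⟩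
  B'_upper := by
    rintro _ ⟨x, hx, rfl⟩
    rw [QuotientGroup.mk'_apply, descCore_π_mk, redF_apply, L.B'_upper x hx, map_zero]
  u_mem := by
    intro t
    exact ⟨_, L.u_mem _, rfl⟩
  B'_w := by
    rintro _ ⟨x, hx, rfl⟩ h01
    rw [QuotientGroup.mk'_apply] at h01 ⊢
    rw [descCore_π_mk, redF_apply] at h01
    obtain ⟨y, hy⟩ := exists_eq_mul_of_cast_eq_zero (div_dvd hN) _ h01
    change (L.descCore hN hodd).w * QuotientGroup.mk x * ((L.descCore hN hodd).w)⁻¹ ∈ _
    rw [descCore_w]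
    set s : ZMod N := ((N / p : ℕ) : ZMod N) with hsdef
    set d := (L.π x).1 1 1 with hd
    -- the diagonal representative
    set x₀ : D := x * L.X s (-(y * d)) with hx₀
    have hx₀B : x₀ ∈ L.B' := L.B'.mul_mem hx (L.X_mem _ _)
    have hx₀01 : (L.π x₀).1 0 1 = 0 := by
      have hdet := L.upper_det hx
      rw [hx₀, map_mul, X, L.π_u, Matrix.SpecialLinearGroup.coe_mul, Matrix.mul_apply,
        Fin.sum_univ_two, hy]
      simp only [eU_val, Matrix.of_apply, Matrix.cons_val', Matrix.cons_val_one,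
        Matrix.cons_val_zero, Matrix.cons_val_fin_one]
      linear_combination (-(s * y)) * hdet
    have hw := L.B'_w x₀ hx₀B hx₀01
    refine ⟨L.w * x₀ * L.w⁻¹, hw, ?_⟩
    rw [QuotientGroup.mk'_apply, ← QuotientGroup.mk_mul, ← QuotientGroup.mk_inv,
      ← QuotientGroup.mk_mul, QuotientGroup.eq]
    have e : (L.w * x₀ * L.w⁻¹)⁻¹ * (L.w * x * L.w⁻¹) =
        L.w * (L.X s (-(y * d)))⁻¹ * L.w⁻¹ := by
      rw [hx₀]; group
    rw [e, ← X_neg, L.w_conj_X]
    have := L.lam_mem_V' s (sq_cast_eq_zero hN) (p_mul_cast_eq_zero hN) hodd 0 0 (- - -(y * d))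
    rwa [lam_Y] at this

theorem descend_π_mk (x : D) : (L.descend hN hodd).π (QuotientGroup.mk x) =
    redF (ZMod.castHom (div_dvd hN) (ZMod (N / p))) (L.π x) := rfl

end LiftData

end Descend

section Induction

universe u

/-- What the base case (`p² ∤ N`) must provide. -/
def BaseStatement (p : ℕ) : Prop :=
  ∀ (N : ℕ) [NeZero N] (D : Type u) [Group D] (L : LiftData N p D),
    ¬ p ^ 2 ∣ N → ∀ z, L.π z = 1 → z = 1

/-- **(F), abstract form.** Given the base case, the kernel of every `LiftData` is trivial. -/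
theorem ker_trivial_of_base {p : ℕ} (hp : p.Prime) (hp2 : p ≠ 2) (base : BaseStatement.{u} p) :
    ∀ (N : ℕ) [NeZero N] (D : Type u) [Group D] (L : LiftData N p D),
      ∀ z, L.π z = 1 → z = 1 := by
  intro N
  induction N using Nat.strong_induction_on with
  | _ N ih =>
    intro _ D _ L z hz
    by_cases hN : p ^ 2 ∣ N
    · have hodd : Odd p := hp.odd_of_ne_two hp2
      haveI := neZero_div (N := N) hN
      have hlt : N / p < N := Nat.div_lt_self (NeZero.pos N) hp.one_lt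
      have h1 := ih (N / p) hlt (D ⧸ L.Vp hN hodd) (L.descend hN hodd) (QuotientGroup.mk z)
        (by rw [LiftData.descend_π_mk, hz, map_one])
      rw [QuotientGroup.eq_one_iff] at h1
      exact L.V'_inj _ _ _ _ h1 hz
    · exact base N D L hN z hz

end Induction


end Fermat.Agent.S41.CSP.Descent
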