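/-
S41 / [IH2] (F), Step 0 (board #1976): from a homomorphism `φ` on the preimage of the upper
triangular group (injective on the kernel, killing the `u t`) to a `w`-stable complement `B'`,
i.e. to a `LiftData`.  Mathlib only.
-/
import Fermat.Agent.S41.CSP.LiftData

set_option autoImplicit false

namespace Fermat.Agent.S41.CSP.Descent

open Matrix

namespace OfHom

variable {N p : ℕ} {D : Type*} [Group D] (C : LiftCore N p D)

/-- the lift of the Weyl element -/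
def ww : D := C.u 1 * C.v (-1) * C.u 1

theorem π_ww : C.π (ww C) = wW := by
  simp only [ww, map_mul, C.π_u, C.π_v, wW_eq]

/-- the preimage of the upper triangular group -/
def Gt : Subgroup D where
  carrier := {x | (C.π x).1 1 0 = 0}
  mul_mem' := by
    intro x y hx hy
    change (C.π x).1 1 0 = 0 at hx
    change (C.π y).1 1 0 = 0 at hy
    change (C.π (x * y)).1 1 0 = 0
    rw [map_mul, Matrix.SpecialLinearGroup.coe_mul, Matrix.mul_apply, Fin.sum_univ_two, hx, hy]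
    simp
  one_mem' := by simp
  inv_mem' := by
    intro x hx
    change (C.π x).1 1 0 = 0 at hx
    change (C.π x⁻¹).1 1 0 = 0
    rw [map_inv, Matrix.SpecialLinearGroup.coe_inv, Matrix.adjugate_fin_two]
    simp [hx]

theorem mem_Gt {x : D} : x ∈ Gt C ↔ (C.π x).1 1 0 = 0 := Iff.rfl

theorem u_mem_Gt (t : ZMod N) : C.u t ∈ Gt C := by
  rw [mem_Gt, C.π_u]; simp

theorem ker_mem_Gt {z : D} (hz : C.π z = 1) : z ∈ Gt C := by
  rw [mem_Gt, hz]; simp

/-- the diagonal part `x · u(-b d)` of an element over `[[a,b],[0,d]]` -/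
def tx (x : D) : D := x * C.u (-((C.π x).1 0 1 * (C.π x).1 1 1))

theorem π_tx_00 (x : D) : (C.π (tx C x)).1 0 0 = (C.π x).1 0 0 := by
  rw [tx, map_mul, C.π_u, Matrix.SpecialLinearGroup.coe_mul, Matrix.mul_apply, Fin.sum_univ_two]
  simp

theorem π_tx_10 {x : D} (hx : x ∈ Gt C) : (C.π (tx C x)).1 1 0 = 0 := by
  rw [mem_Gt] at hx
  rw [tx, map_mul, C.π_u, Matrix.SpecialLinearGroup.coe_mul, Matrix.mul_apply, Fin.sum_univ_two]
  simp [hx]

theorem π_tx_11 {x : D} (hx : x ∈ Gt C) : (C.π (tx C x)).1 1 1 = (C.π x).1 1 1 := by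
  rw [mem_Gt] at hx
  rw [tx, map_mul, C.π_u, Matrix.SpecialLinearGroup.coe_mul, Matrix.mul_apply, Fin.sum_univ_two]
  simp [hx]

theorem det_upper {x : D} (hx : x ∈ Gt C) : (C.π x).1 0 0 * (C.π x).1 1 1 = 1 := by
  rw [mem_Gt] at hx
  have h := (C.π x).2
  rw [Matrix.det_fin_two, hx] at h
  simpa using h

theorem π_tx_01 {x : D} (hx : x ∈ Gt C) : (C.π (tx C x)).1 0 1 = 0 := by
  have hd := det_upper C hx
  rw [tx, map_mul, C.π_u, Matrix.SpecialLinearGroup.coe_mul, Matrix.mul_apply, Fin.sum_univ_two]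
  simp only [eU_val, Matrix.of_apply, Matrix.cons_val', Matrix.cons_val_one, Matrix.cons_val_zero,
    Matrix.cons_val_fin_one]
  linear_combination (-(C.π x).1 0 1) * hd

theorem tx_mem_Gt {x : D} (hx : x ∈ Gt C) : tx C x ∈ Gt C := π_tx_10 C hx

theorem tx_of_diag {x : D} (h01 : (C.π x).1 0 1 = 0) : tx C x = x := by
  have h0 : C.u 0 = 1 := by
    have h := C.u_add 0 0
    simp only [add_zero] at h
    exact (mul_eq_left.mp h.symm)
  rw [tx, h01, zero_mul, neg_zero, h0, mul_one]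

section Hom

variable (φ : D → ZMod p)
  (φ_mul : ∀ x y, (C.π x).1 1 0 = 0 → (C.π y).1 1 0 = 0 → φ (x * y) = φ x + φ y)
  (φ_u : ∀ t, φ (C.u t) = 0) (φ_inj : ∀ z, C.π z = 1 → φ z = 0 → z = 1)

include φ_mul in
theorem φ_one : φ 1 = 0 := by
  have h := φ_mul 1 1 (by simp) (by simp)
  rw [mul_one] at h
  exact left_eq_add.mp h

include φ_mul in
theorem φ_inv {x : D} (hx : x ∈ Gt C) : φ x⁻¹ = -φ x := by
  have h := φ_mul x x⁻¹ hx ((Gt C).inv_mem hx)
  rw [mul_inv_cancel, φ_one C φ φ_mul] at h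
  exact eq_neg_of_add_eq_zero_right h.symm

include φ_mul in
theorem φ_conj {g x : D} (hg : g ∈ Gt C) (hx : x ∈ Gt C) : φ (g * x * g⁻¹) = φ x := by
  rw [φ_mul _ _ ((Gt C).mul_mem hg hx) ((Gt C).inv_mem hg), φ_mul _ _ hg hx, φ_inv C φ φ_mul hg]
  ring

include φ_mul φ_u in
theorem φ_tx {x : D} (hx : x ∈ Gt C) : φ (tx C x) = φ x := by
  rw [tx, φ_mul _ _ hx (u_mem_Gt C _), φ_u, add_zero]

include φ_mul φ_u φ_inj in
theorem tx_mul {x y : D} (hx : x ∈ Gt C) (hy : y ∈ Gt C) :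
    tx C (x * y) = tx C x * tx C y := by
  have hxy : x * y ∈ Gt C := (Gt C).mul_mem hx hy
  have hπ : C.π ((tx C x * tx C y)⁻¹ * tx C (x * y)) = 1 := by
    rw [map_mul, map_inv, inv_mul_eq_one]
    have hx' := hx
    have hy' := hy
    rw [mem_Gt] at hx' hy'
    apply sl2_ext
    · rw [π_tx_00, map_mul, map_mul, Matrix.SpecialLinearGroup.coe_mul,
        Matrix.SpecialLinearGroup.coe_mul, Matrix.mul_apply, Matrix.mul_apply, Fin.sum_univ_two,
        Fin.sum_univ_two, π_tx_00, π_tx_00, π_tx_10 C hy, hy']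
      simp
    · rw [π_tx_01 C hxy, map_mul, Matrix.SpecialLinearGroup.coe_mul, Matrix.mul_apply,
        Fin.sum_univ_two, π_tx_01 C hx, π_tx_01 C hy]
      simp
    · rw [π_tx_10 C hxy, map_mul, Matrix.SpecialLinearGroup.coe_mul, Matrix.mul_apply,
        Fin.sum_univ_two, π_tx_10 C hx, π_tx_10 C hy]
      simp
    · rw [π_tx_11 C hxy, map_mul, map_mul, Matrix.SpecialLinearGroup.coe_mul,
        Matrix.SpecialLinearGroup.coe_mul, Matrix.mul_apply, Matrix.mul_apply, Fin.sum_univ_two,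
        Fin.sum_univ_two, π_tx_11 C hx, π_tx_11 C hy, π_tx_10 C hx, hx']
      simp
  have hz := ker_mem_Gt C hπ
  have h1 : tx C (x * y) = (tx C x * tx C y) * ((tx C x * tx C y)⁻¹ * tx C (x * y)) := by group
  have h2 : φ (tx C (x * y)) = φ (tx C x * tx C y) + φ ((tx C x * tx C y)⁻¹ * tx C (x * y)) := by
    conv_lhs => rw [h1]
    exact φ_mul _ _ ((Gt C).mul_mem (tx_mem_Gt C hx) (tx_mem_Gt C hy)) hz
  rw [φ_tx C φ φ_mul φ_u hxy, φ_mul _ _ (tx_mem_Gt C hx) (tx_mem_Gt C hy),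
    φ_tx C φ φ_mul φ_u hx, φ_tx C φ φ_mul φ_u hy, φ_mul _ _ hx hy] at h2
  have h3 : φ ((tx C x * tx C y)⁻¹ * tx C (x * y)) = 0 := left_eq_add.mp h2
  have h4 := φ_inj _ hπ h3
  rw [inv_mul_eq_one] at h4
  exact h4.symm

end Hom

section Build

variable (φ : D → ZMod p)
  (φ_mul : ∀ x y, (C.π x).1 1 0 = 0 → (C.π y).1 1 0 = 0 → φ (x * y) = φ x + φ y)
  (φ_u : ∀ t, φ (C.u t) = 0) (φ_inj : ∀ z, C.π z = 1 → φ z = 0 → z = 1)

/-- entries of a `w`-conjugate -/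
theorem wW_inv_conj_entries {R : Type*} [CommRing R] (g : SL2 R) :
    (wW⁻¹ * g * wW).1 1 0 = -g.1 0 1 ∧ (wW⁻¹ * g * wW).1 0 1 = -g.1 1 0 := by
  constructor <;>
  · rw [Matrix.SpecialLinearGroup.coe_mul, Matrix.SpecialLinearGroup.coe_mul,
      Matrix.SpecialLinearGroup.coe_inv, Matrix.adjugate_fin_two]
    simp [Matrix.mul_apply, Fin.sum_univ_two, Matrix.vecMul, dotProduct]

theorem wW_conj_entries {R : Type*} [CommRing R] (g : SL2 R) :
    (wW * g * wW⁻¹).1 1 0 = -g.1 0 1 ∧ (wW * g * wW⁻¹).1 0 1 = -g.1 1 0 := by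
  constructor <;>
  · rw [Matrix.SpecialLinearGroup.coe_mul, Matrix.SpecialLinearGroup.coe_mul,
      Matrix.SpecialLinearGroup.coe_inv, Matrix.adjugate_fin_two]
    simp [Matrix.mul_apply, Fin.sum_univ_two, Matrix.vecMul, dotProduct]

theorem winv_conj_mem_Gt {x : D} (h01 : (C.π x).1 0 1 = 0) : (ww C)⁻¹ * x * ww C ∈ Gt C := by
  rw [mem_Gt, map_mul, map_mul, map_inv, π_ww, (wW_inv_conj_entries _).1, h01, neg_zero]

theorem winv_conj_diag {x : D} (hx : x ∈ Gt C) : (C.π ((ww C)⁻¹ * x * ww C)).1 0 1 = 0 := by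
  rw [mem_Gt] at hx
  rw [map_mul, map_mul, map_inv, π_ww, (wW_inv_conj_entries _).2, hx, neg_zero]

theorem w_conj_mem_Gt {x : D} (h01 : (C.π x).1 0 1 = 0) : ww C * x * (ww C)⁻¹ ∈ Gt C := by
  rw [mem_Gt, map_mul, map_mul, map_inv, π_ww, (wW_conj_entries _).1, h01, neg_zero]

theorem w_conj_diag {x : D} (hx : x ∈ Gt C) : (C.π (ww C * x * (ww C)⁻¹)).1 0 1 = 0 := by
  rw [mem_Gt] at hx
  rw [map_mul, map_mul, map_inv, π_ww, (wW_conj_entries _).2, hx, neg_zero]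

theorem ww_sq_mem_Gt : ww C * ww C ∈ Gt C := by
  rw [mem_Gt, map_mul, π_ww]
  simp [Matrix.mul_apply, Fin.sum_univ_two]

/-- `Φ x = φ x + φ (w⁻¹ t_x w)` -/
def Phi (x : D) : ZMod p := φ x + φ ((ww C)⁻¹ * tx C x * ww C)

include φ_mul φ_u φ_inj in
theorem Phi_mul {x y : D} (hx : x ∈ Gt C) (hy : y ∈ Gt C) :
    Phi C φ (x * y) = Phi C φ x + Phi C φ y := by
  unfold Phi
  rw [tx_mul C φ φ_mul φ_u φ_inj hx hy, φ_mul _ _ hx hy]
  have e : (ww C)⁻¹ * (tx C x * tx C y) * ww C =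
      ((ww C)⁻¹ * tx C x * ww C) * ((ww C)⁻¹ * tx C y * ww C) := by group
  rw [e, φ_mul _ _ (winv_conj_mem_Gt C (π_tx_01 C hx)) (winv_conj_mem_Gt C (π_tx_01 C hy))]
  ring

theorem Phi_ker {z : D} (hz : C.π z = 1) : Phi C φ z = φ z + φ z := by
  unfold Phi
  have h1 : tx C z = z := tx_of_diag C (by rw [hz]; simp)
  have h2 : (ww C)⁻¹ * z * ww C = z := by
    rw [mul_assoc, (C.central z hz (ww C)), ← mul_assoc, inv_mul_cancel, one_mul]
  rw [h1, h2]

include φ_mul in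
theorem Phi_one : Phi C φ 1 = 0 := by
  rw [Phi_ker C φ (map_one _), φ_one C φ φ_mul, add_zero]

/-- the normalised complement -/
def Bp : Subgroup D where
  carrier := {x | x ∈ Gt C ∧ Phi C φ x = 0}
  mul_mem' := by
    rintro x y ⟨hx, hx0⟩ ⟨hy, hy0⟩
    exact ⟨(Gt C).mul_mem hx hy, by rw [Phi_mul C φ φ_mul φ_u φ_inj hx hy, hx0, hy0, add_zero]⟩
  one_mem' := ⟨(Gt C).one_mem, Phi_one C φ φ_mul⟩
  inv_mem' := by
    rintro x ⟨hx, hx0⟩
    refine ⟨(Gt C).inv_mem hx, ?_⟩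
    have h := Phi_mul C φ φ_mul φ_u φ_inj hx ((Gt C).inv_mem hx)
    rw [mul_inv_cancel, Phi_one C φ φ_mul, hx0, zero_add] at h
    exact h.symm

theorem mem_Bp {x : D} : x ∈ Bp C φ φ_mul φ_u φ_inj ↔ x ∈ Gt C ∧ Phi C φ x = 0 := Iff.rfl

include φ_mul in
theorem φ_pow_ker {z : D} (hz : C.π z = 1) (k : ℕ) : φ (z ^ k) = k * φ z := by
  induction k with
  | zero => simp [φ_one C φ φ_mul]
  | succ n ih =>
    have hzn : C.π (z ^ n) = 1 := by rw [map_pow, hz, one_pow]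
    rw [pow_succ, φ_mul _ _ (ker_mem_Gt C hzn) (ker_mem_Gt C hz), ih]
    push_cast; ring

end Build

section Final

variable (φ : D → ZMod p)
  (φ_mul : ∀ x y, (C.π x).1 1 0 = 0 → (C.π y).1 1 0 = 0 → φ (x * y) = φ x + φ y)
  (φ_u : ∀ t, φ (C.u t) = 0) (φ_inj : ∀ z, C.π z = 1 → φ z = 0 → z = 1)

theorem two_ne_zero_zmod (hp : p.Prime) (hp2 : p ≠ 2) : (2 : ZMod p) ≠ 0 := by
  intro h
  have h' : ((2 : ℕ) : ZMod p) = 0 := by exact_mod_cast h
  rw [ZMod.natCast_eq_zero_iff] at h'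
  exact hp2 ((Nat.prime_dvd_prime_iff_eq hp Nat.prime_two).mp h')

include φ_mul φ_u φ_inj in
/-- **Step 0.** A homomorphism `φ` on the preimage of the upper triangular group which is
injective and non-zero on the kernel and kills the `u t` yields a `LiftData`. -/
theorem exists_liftData (hp : p.Prime) (hp2 : p ≠ 2) (hne : ∃ z, C.π z = 1 ∧ φ z ≠ 0) :
    ∃ L : LiftData N p D, L.toLiftCore = C := by
  haveI := Fact.mk hp
  have h2 : (2 : ZMod p) ≠ 0 := two_ne_zero_zmod hp hp2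
  obtain ⟨z₀, hz₀, hc⟩ := hne
  have hu0 : C.u 0 = 1 := by
    have h := C.u_add 0 0
    simp only [add_zero] at h
    exact (mul_eq_left.mp h.symm)
  refine ⟨{ toLiftCore := C
            B' := Bp C φ φ_mul φ_u φ_inj
            B'_inj := ?_
            B'_surj := ?_
            B'_upper := ?_
            u_mem := ?_
            B'_w := ?_ }, rfl⟩
  · -- injectivity
    rintro x ⟨-, hx0⟩ hπ
    rw [Phi_ker C φ hπ, ← two_mul] at hx0
    exact φ_inj x hπ ((mul_eq_zero.mp hx0).resolve_left h2)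
  · -- surjectivity onto the upper triangular group
    intro g hg
    obtain ⟨x₀, hx₀⟩ := C.π_surj g
    have hx₀G : x₀ ∈ Gt C := by rw [mem_Gt, hx₀]; exact hg
    set k : ℕ := ((-Phi C φ x₀) / (2 * φ z₀)).val with hk
    have hkc : (k : ZMod p) = (-Phi C φ x₀) / (2 * φ z₀) := by
      rw [hk, ZMod.natCast_zmod_val]
    have hzk : C.π (z₀ ^ k) = 1 := by rw [map_pow, hz₀, one_pow]
    refine ⟨x₀ * z₀ ^ k, ⟨(Gt C).mul_mem hx₀G (ker_mem_Gt C hzk), ?_⟩, ?_⟩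
    · rw [Phi_mul C φ φ_mul φ_u φ_inj hx₀G (ker_mem_Gt C hzk), Phi_ker C φ hzk,
        φ_pow_ker C φ φ_mul hz₀, hkc]
      field_simp
      ring
    · rw [map_mul, hzk, mul_one, hx₀]
  · rintro x ⟨hx, -⟩
    exact hx
  · intro t
    refine ⟨u_mem_Gt C t, ?_⟩
    have h1 : tx C (C.u t) = 1 := by
      rw [tx, C.π_u]
      simp only [eU_val, Matrix.of_apply, Matrix.cons_val', Matrix.cons_val_one,
        Matrix.cons_val_zero, Matrix.cons_val_fin_one, mul_one]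
      rw [← C.u_add, add_neg_cancel, hu0]
    unfold Phi
    rw [h1, φ_u, mul_one, inv_mul_cancel, φ_one C φ φ_mul, add_zero]
  · rintro x ⟨hx, hx0⟩ h01
    change ww C * x * (ww C)⁻¹ ∈ Bp C φ φ_mul φ_u φ_inj
    refine ⟨w_conj_mem_Gt C h01, ?_⟩
    unfold Phi at hx0 ⊢
    rw [tx_of_diag C h01] at hx0
    rw [tx_of_diag C (w_conj_diag C hx)]
    have e1 : (ww C)⁻¹ * (ww C * x * (ww C)⁻¹) * ww C = x := by group
    have e2 : ww C * x * (ww C)⁻¹ =
        (ww C * ww C) * ((ww C)⁻¹ * x * ww C) * (ww C * ww C)⁻¹ := by group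
    rw [e1, e2, φ_conj C φ φ_mul (ww_sq_mem_Gt C) (winv_conj_mem_Gt C h01), add_comm]
    exact hx0

include φ_mul φ_u φ_inj in
/-- The kernel is trivial as soon as it is for every `LiftData` extending `C`. -/
theorem ker_trivial_of_hom (hp : p.Prime) (hp2 : p ≠ 2)
    (H : ∀ L : LiftData N p D, L.toLiftCore = C → ∀ z, L.π z = 1 → z = 1) :
    ∀ z, C.π z = 1 → z = 1 := by
  intro z hz
  by_cases hne : ∃ z, C.π z = 1 ∧ φ z ≠ 0
  · obtain ⟨L, hL⟩ := exists_liftData C φ φ_mul φ_u φ_inj hp hp2 hne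
    apply H L hL z
    rw [hL]; exact hz
  · push Not at hne
    exact φ_inj z hz (hne z hz)

end Final

end OfHom

end Fermat.Agent.S41.CSP.Descent
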