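/-
S41 / [IH2] (F), BASE: elementary facts on `SL₂(ℤ/n)`:
elementary generation, reduction maps, the Chinese remainder theorem for reductions,
and the torsion ideals `{t | a * t = 0}` of `ZMod N`.
-/
import Mathlib
import Fermat.Agent.M2.P1Action
import Fermat.Agent.S41.CSP.LiftData

set_option autoImplicit false

namespace Fermat.Agent.S41.CSP.SL2ZMod

open Matrix MatrixGroups
open Fermat.Agent.S41.CSP.Descent

/-! ### Generalities on `SL₂(R)` -/

section General

variable {R : Type*} [CommRing R]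

theorem sl2_det (x : SL2 R) : x.1 0 0 * x.1 1 1 - x.1 0 1 * x.1 1 0 = 1 := by
  rw [← Matrix.det_fin_two]; exact x.2

theorem inv_mul_val (G x : SL2 R) :
    (G⁻¹ * x).1 = !![G.1 1 1 * x.1 0 0 - G.1 0 1 * x.1 1 0, G.1 1 1 * x.1 0 1 - G.1 0 1 * x.1 1 1;
      -G.1 1 0 * x.1 0 0 + G.1 0 0 * x.1 1 0, -G.1 1 0 * x.1 0 1 + G.1 0 0 * x.1 1 1] := by
  rw [Matrix.SpecialLinearGroup.coe_mul, Matrix.SpecialLinearGroup.coe_inv,
    Matrix.adjugate_fin_two]
  ext i j
  fin_cases i <;> fin_cases j <;> simp [Matrix.mul_apply, Fin.sum_univ_two] <;> ring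

/-- A matrix of `SL₂` with first column `(1, 0)` is upper elementary. -/
theorem eq_eU_of_col (y : SL2 R) (h00 : y.1 0 0 = 1) (h10 : y.1 1 0 = 0) :
    y = eU (y.1 0 1) := by
  have h11 : y.1 1 1 = 1 := by
    have := sl2_det y
    rw [h00, h10] at this
    linear_combination this
  apply sl2_ext <;> simp [h00, h10, h11]

/-- Two matrices of `SL₂` with the same first column differ by an upper elementary matrix. -/
theorem exists_eU_of_col_eq (G x : SL2 R) (h00 : G.1 0 0 = x.1 0 0)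
    (h10 : G.1 1 0 = x.1 1 0) : ∃ t, x = G * eU t := by
  refine ⟨(G⁻¹ * x).1 0 1, ?_⟩
  rw [← eq_eU_of_col (G⁻¹ * x)]
  · group
  · rw [inv_mul_val]
    simp only [Matrix.of_apply, Matrix.cons_val_zero]
    rw [← h00, ← h10]; linear_combination sl2_det G
  · rw [inv_mul_val]
    simp only [Matrix.of_apply, Matrix.cons_val_zero, Matrix.cons_val_one]
    rw [← h00, ← h10]; ring

/-- The subgroup generated by the elementary matrices. -/
def Elem (R : Type*) [CommRing R] : Subgroup (SL2 R) :=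
  Subgroup.closure (Set.range (eU : R → SL2 R) ∪ Set.range (eL : R → SL2 R))

theorem eU_mem_Elem (t : R) : eU t ∈ Elem R :=
  Subgroup.subset_closure (Or.inl ⟨t, rfl⟩)

theorem eL_mem_Elem (t : R) : eL t ∈ Elem R :=
  Subgroup.subset_closure (Or.inr ⟨t, rfl⟩)

/-- `eU s` and `eL t` commute when `s * t = 0`. -/
theorem eU_mul_eL_comm {s t : R} (h : s * t = 0) : eU s * eL t = eL t * eU s := by
  have h' : t * s = 0 := by rw [mul_comm]; exact h
  apply sl2_ext <;> simp [Matrix.mul_apply, Fin.sum_univ_two, h, h']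

/-- Functoriality of elementary matrices. -/
theorem map_eU {S : Type*} [CommRing S] (f : R →+* S) (t : R) :
    Matrix.SpecialLinearGroup.map f (eU t) = eU (f t) := by
  apply sl2_ext <;> simp [Matrix.SpecialLinearGroup.map_apply_coe, RingHom.mapMatrix_apply]

theorem map_eL {S : Type*} [CommRing S] (f : R →+* S) (t : R) :
    Matrix.SpecialLinearGroup.map f (eL t) = eL (f t) := by
  apply sl2_ext <;> simp [Matrix.SpecialLinearGroup.map_apply_coe, RingHom.mapMatrix_apply]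

end General

/-! ### Elementary generation of `SL₂(ℤ/n)` -/

/-- reduction mod `n` of integral matrices -/
abbrev redInt (n : ℕ) : SL(2, ℤ) →* SL2 (ZMod n) := Fermat.Agent.M2.P1.red n

theorem redInt_val (n : ℕ) (g : SL(2, ℤ)) (i j : Fin 2) :
    (redInt n g).1 i j = ((g.1 i j : ℤ) : ZMod n) := rfl

theorem redInt_S (n : ℕ) : redInt n ModularGroup.S = eU (-1) * eL 1 * eU (-1) := by
  apply sl2_ext <;> rw [redInt_val] <;>
    simp [ModularGroup.S, Matrix.mul_apply, Fin.sum_univ_two]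

theorem redInt_T (n : ℕ) : redInt n ModularGroup.T = eU 1 := by
  apply sl2_ext <;> rw [redInt_val] <;> simp [ModularGroup.T]

theorem redInt_mem_Elem (n : ℕ) (g : SL(2, ℤ)) : redInt n g ∈ Elem (ZMod n) := by
  have hg : g ∈ Subgroup.closure ({ModularGroup.S, ModularGroup.T} : Set SL(2, ℤ)) := by
    rw [SpecialLinearGroup.SL2Z_generators]; trivial
  induction hg using Subgroup.closure_induction with
  | mem x hx =>
    rcases hx with rfl | rfl
    · rw [redInt_S]
      exact mul_mem (mul_mem (eU_mem_Elem _) (eL_mem_Elem _)) (eU_mem_Elem _)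
    · rw [redInt_T]; exact eU_mem_Elem _
  | one => rw [map_one]; exact one_mem _
  | mul x y _ _ hx hy => rw [map_mul]; exact mul_mem hx hy
  | inv x _ hx => rw [map_inv]; exact inv_mem hx

/-- `SL₂(ℤ/n)` is generated by elementary matrices. -/
theorem Elem_zmod_eq_top (n : ℕ) : Elem (ZMod n) = ⊤ := by
  rw [eq_top_iff]
  rintro x -
  have hdet := sl2_det x
  obtain ⟨g, hg0, hg1⟩ := Fermat.Agent.M2.P1.exists_SL_col n (x.1 0 0) (x.1 1 0)
    ⟨x.1 1 1, -x.1 0 1, by linear_combination hdet⟩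
  obtain ⟨t, ht⟩ := exists_eU_of_col_eq (redInt n g) x hg0 hg1
  rw [ht]
  exact mul_mem (redInt_mem_Elem n g) (eU_mem_Elem t)

/-! ### Reduction maps between the groups `SL₂(ℤ/N)` -/

section Reduction

variable {N : ℕ}

/-- reduction `SL₂(ℤ/N) → SL₂(ℤ/d)` for `d ∣ N` -/
def redZ {d : ℕ} (h : d ∣ N) : SL2 (ZMod N) →* SL2 (ZMod d) :=
  Matrix.SpecialLinearGroup.map (ZMod.castHom h (ZMod d))

theorem redZ_val {d : ℕ} (h : d ∣ N) (x : SL2 (ZMod N)) (i j : Fin 2) :
    (redZ h x).1 i j = ZMod.castHom h (ZMod d) (x.1 i j) := rfl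

theorem redZ_eU {d : ℕ} (h : d ∣ N) (t : ZMod N) :
    redZ h (eU t) = eU (ZMod.castHom h (ZMod d) t) := map_eU _ _

theorem redZ_eL {d : ℕ} (h : d ∣ N) (t : ZMod N) :
    redZ h (eL t) = eL (ZMod.castHom h (ZMod d) t) := map_eL _ _

theorem redZ_surjective {d : ℕ} (h : d ∣ N) : Function.Surjective (redZ h) := by
  rw [← MonoidHom.range_eq_top, eq_top_iff, ← Elem_zmod_eq_top d, Elem, Subgroup.closure_le]
  rintro _ (⟨s, rfl⟩ | ⟨s, rfl⟩)
  · obtain ⟨t, rfl⟩ := ZMod.ringHom_surjective (ZMod.castHom h (ZMod d)) s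
    exact ⟨eU t, redZ_eU h t⟩
  · obtain ⟨t, rfl⟩ := ZMod.ringHom_surjective (ZMod.castHom h (ZMod d)) s
    exact ⟨eL t, redZ_eL h t⟩

/-- Chinese remainder theorem, injectivity, for elements. -/
theorem eq_zero_of_castHom_eq_zero {a b : ℕ} (ha : a ∣ N) (hb : b ∣ N) (hab : N ∣ a * b)
    (hcop : a.Coprime b) (t : ZMod N) (h1 : ZMod.castHom ha (ZMod a) t = 0)
    (h2 : ZMod.castHom hb (ZMod b) t = 0) : t = 0 := by
  obtain ⟨k, rfl⟩ := ZMod.intCast_surjective t
  rw [map_intCast, ZMod.intCast_zmod_eq_zero_iff_dvd] at h1 h2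
  rw [ZMod.intCast_zmod_eq_zero_iff_dvd]
  have hc : IsCoprime (a : ℤ) (b : ℤ) := Nat.isCoprime_iff_coprime.mpr hcop
  have h3 : ((a : ℤ) * (b : ℤ)) ∣ k := hc.mul_dvd h1 h2
  have h4 : (N : ℤ) ∣ (a : ℤ) * (b : ℤ) := by exact_mod_cast hab
  exact h4.trans h3

/-- Chinese remainder theorem, injectivity, for `SL₂`. -/
theorem eq_one_of_redZ_eq_one {a b : ℕ} (ha : a ∣ N) (hb : b ∣ N) (hab : N ∣ a * b)
    (hcop : a.Coprime b) (x : SL2 (ZMod N)) (h1 : redZ ha x = 1) (h2 : redZ hb x = 1) :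
    x = 1 := by
  have key : ∀ i j, x.1 i j = (1 : SL2 (ZMod N)).1 i j := by
    intro i j
    rw [← sub_eq_zero]
    apply eq_zero_of_castHom_eq_zero ha hb hab hcop
    · rw [map_sub, ← redZ_val ha x, ← redZ_val ha 1, h1, map_one, sub_self]
    · rw [map_sub, ← redZ_val hb x, ← redZ_val hb 1, h2, map_one, sub_self]
  exact sl2_ext (key 0 0) (key 0 1) (key 1 0) (key 1 1)

theorem redZ_redZ {d e : ℕ} (hd : d ∣ N) (he : e ∣ d) (x : SL2 (ZMod N)) :
    redZ he (redZ hd x) = redZ (he.trans hd) x := by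
  have key : ∀ t : ZMod N, ZMod.castHom he (ZMod e) (ZMod.castHom hd (ZMod d) t) =
      ZMod.castHom (he.trans hd) (ZMod e) t := by
    intro t
    have : (ZMod.castHom he (ZMod e)).comp (ZMod.castHom hd (ZMod d)) =
        ZMod.castHom (he.trans hd) (ZMod e) := Subsingleton.elim _ _
    exact RingHom.congr_fun this t
  apply sl2_ext <;> simp only [redZ_val, key]

/-- Reductions modulo coprime `q`, `b` both trivial ⇒ reduction modulo `q * b` trivial. -/
theorem redZ_mul_eq_one {q b : ℕ} (hq : q ∣ N) (hb : b ∣ N) (hqb : q * b ∣ N)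
    (hcop : q.Coprime b) (x : SL2 (ZMod N)) (h1 : redZ hq x = 1) (h2 : redZ hb x = 1) :
    redZ hqb x = 1 := by
  apply eq_one_of_redZ_eq_one (N := q * b) (Dvd.intro b rfl) (Dvd.intro_left q rfl) dvd_rfl hcop
  · rw [redZ_redZ]; exact h1
  · rw [redZ_redZ]; exact h2

end Reduction

/-! ### The torsion ideals of `ZMod N` -/

section Torsion

variable (N : ℕ)

/-- The elements of `ℤ/N` killed by `a`. -/
def Tor (a : ℕ) : Set (ZMod N) := {t | (a : ZMod N) * t = 0}

variable {N}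

theorem mem_Tor {a : ℕ} {t : ZMod N} : t ∈ Tor N a ↔ (a : ZMod N) * t = 0 := Iff.rfl

theorem zero_mem_Tor (a : ℕ) : (0 : ZMod N) ∈ Tor N a := by simp [mem_Tor]

theorem add_mem_Tor {a : ℕ} {s t : ZMod N} (hs : s ∈ Tor N a) (ht : t ∈ Tor N a) :
    s + t ∈ Tor N a := by
  rw [mem_Tor] at *; rw [mul_add, hs, ht, add_zero]

theorem neg_mem_Tor {a : ℕ} {t : ZMod N} (ht : t ∈ Tor N a) : -t ∈ Tor N a := by
  rw [mem_Tor] at *; rw [mul_neg, ht, neg_zero]

theorem mul_mem_Tor {a : ℕ} (c : ZMod N) {t : ZMod N} (ht : t ∈ Tor N a) : c * t ∈ Tor N a := by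
  rw [mem_Tor] at *; rw [mul_left_comm, ht, mul_zero]

theorem Tor_mono {a a' : ℕ} (h : a ∣ a') : Tor N a ⊆ Tor N a' := by
  rintro t ht
  obtain ⟨c, rfl⟩ := h
  rw [mem_Tor] at *
  rw [Nat.cast_mul, mul_right_comm, ht, zero_mul]

theorem mem_Tor_self (t : ZMod N) : t ∈ Tor N N := by
  rw [mem_Tor, ZMod.natCast_self, zero_mul]

theorem nsmul_eq_zero_of_mem_Tor {a : ℕ} {t : ZMod N} (ht : t ∈ Tor N a) : a • t = 0 := by
  rw [nsmul_eq_mul]; exact ht

/-- Elements of coprime torsion multiply to zero. -/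
theorem mul_eq_zero_of_mem_Tor {a a' : ℕ} (hcop : a.Coprime a') {t t' : ZMod N}
    (ht : t ∈ Tor N a) (ht' : t' ∈ Tor N a') : t * t' = 0 := by
  obtain ⟨x, y, hxy⟩ : IsCoprime (a : ℤ) (a' : ℤ) := Nat.isCoprime_iff_coprime.mpr hcop
  have h1 : ((x : ZMod N) * (a : ZMod N) + (y : ZMod N) * (a' : ZMod N)) = 1 := by
    have := congrArg (Int.cast : ℤ → ZMod N) hxy
    push_cast at this
    exact this
  rw [mem_Tor] at ht ht'
  calc t * t' = ((x : ZMod N) * (a : ZMod N) + (y : ZMod N) * (a' : ZMod N)) * (t * t') := by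
        rw [h1, one_mul]
    _ = (x : ZMod N) * ((a : ZMod N) * t) * t' + (y : ZMod N) * t * ((a' : ZMod N) * t') := by ring
    _ = 0 := by rw [ht, ht']; ring

/-- Elements of `a`-torsion vanish modulo `b` when `a` and `b` are coprime. -/
theorem castHom_eq_zero_of_mem_Tor {a b : ℕ} (hb : b ∣ N) (hcop : a.Coprime b) {t : ZMod N}
    (ht : t ∈ Tor N a) : ZMod.castHom hb (ZMod b) t = 0 := by
  have h1 : (a : ZMod b) * ZMod.castHom hb (ZMod b) t = 0 := by
    have := congrArg (ZMod.castHom hb (ZMod b)) ht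
    rwa [map_mul, map_natCast, map_zero] at this
  have hu : IsUnit (a : ZMod b) := (ZMod.isUnit_iff_coprime a b).mpr hcop
  exact (hu.mul_right_eq_zero).mp h1

/-- Chinese remainder theorem, existence: every class mod `a` lifts to an `a`-torsion element. -/
theorem exists_mem_Tor_castHom_eq {a b : ℕ} (hab : a * b = N) (hcop : a.Coprime b)
    (s : ZMod a) : ∃ t ∈ Tor N a, ZMod.castHom (Dvd.intro b hab) (ZMod a) t = s := by
  set f := ZMod.castHom (Dvd.intro b hab) (ZMod a) with hf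
  obtain ⟨s', hs'⟩ := ZMod.ringHom_surjective f s
  obtain ⟨c, hc⟩ := ZMod.ringHom_surjective f ((b : ZMod a)⁻¹)
  refine ⟨(b : ZMod N) * c * s', ?_, ?_⟩
  · rw [mem_Tor, ← mul_assoc, ← mul_assoc, ← Nat.cast_mul, hab, ZMod.natCast_self, zero_mul,
      zero_mul]
  · rw [map_mul, map_mul, map_natCast, hc, hs', ZMod.coe_mul_inv_eq_one b hcop.symm, one_mul]

end Torsion

/-! ### The congruence kernels are generated by their elementary matrices -/

section Kernel

variable {N : ℕ}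

/-- The subgroup of `SL₂(ℤ/N)` generated by the elementary matrices with `a`-torsion entry. -/
def ElemTor (N a : ℕ) : Subgroup (SL2 (ZMod N)) :=
  Subgroup.closure (eU '' Tor N a ∪ eL '' Tor N a)

theorem ElemTor_le_ker {a b : ℕ} (hb : b ∣ N) (hcop : a.Coprime b) :
    ElemTor N a ≤ (redZ hb).ker := by
  rw [ElemTor, Subgroup.closure_le]
  rintro _ (⟨t, ht, rfl⟩ | ⟨t, ht, rfl⟩)
  · change redZ hb (eU t) = 1
    rw [redZ_eU, castHom_eq_zero_of_mem_Tor hb hcop ht, eU_zero]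
  · change redZ hb (eL t) = 1
    rw [redZ_eL, castHom_eq_zero_of_mem_Tor hb hcop ht, eL_zero]

theorem map_ElemTor_eq_top {a b : ℕ} (hab : a * b = N) (hcop : a.Coprime b) :
    (ElemTor N a).map (redZ (Dvd.intro b hab)) = ⊤ := by
  rw [eq_top_iff, ← Elem_zmod_eq_top a, Elem, Subgroup.closure_le]
  rintro _ (⟨s, rfl⟩ | ⟨s, rfl⟩)
  · obtain ⟨t, ht, rfl⟩ := exists_mem_Tor_castHom_eq hab hcop s
    exact ⟨eU t, Subgroup.subset_closure (Or.inl ⟨t, ht, rfl⟩), redZ_eU _ t⟩
  · obtain ⟨t, ht, rfl⟩ := exists_mem_Tor_castHom_eq hab hcop s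
    exact ⟨eL t, Subgroup.subset_closure (Or.inr ⟨t, ht, rfl⟩), redZ_eL _ t⟩

/-- For `N = a * b` with `a`, `b` coprime, the kernel of reduction mod `b` is generated by the
elementary matrices with `a`-torsion entries. -/
theorem mem_ElemTor_of_redZ_eq_one {a b : ℕ} (hab : a * b = N) (hcop : a.Coprime b)
    (x : SL2 (ZMod N)) (hx : redZ (Dvd.intro_left a hab) x = 1) : x ∈ ElemTor N a := by
  have hx' : redZ (Dvd.intro b hab) x ∈ (ElemTor N a).map (redZ (Dvd.intro b hab)) := by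
    rw [map_ElemTor_eq_top hab hcop]; trivial
  obtain ⟨y, hy, hyx⟩ := hx'
  have hyb : redZ (Dvd.intro_left a hab) y = 1 :=
    ElemTor_le_ker (Dvd.intro_left a hab) hcop hy
  have : x * y⁻¹ = 1 := by
    apply eq_one_of_redZ_eq_one (Dvd.intro b hab) (Dvd.intro_left a hab) (hab ▸ dvd_rfl) hcop
    · rw [map_mul, map_inv, hyx, mul_inv_cancel]
    · rw [map_mul, map_inv, hx, hyb, inv_one, mul_one]
  rw [mul_inv_eq_one] at this
  rw [this]; exact hy

end Kernel

end Fermat.Agent.S41.CSP.SL2ZMod
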