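/-
S41 / [IH2] (F), BASE: abstract group theory (Mathlib only).

* `commute_of_central_commutator` : elements of coprime orders with central commutator commute.
* `eq_one_of_transfer` : the transfer argument: a central element of order dividing `p` lying in the
  commutator subgroup is trivial as soon as some subgroup `H` of index prime to `p` has
  `commutator H` avoiding the powers of `z`.
* `mem_commutator_of_pow_eq_one` : if a group is generated by elements killed by `a`, every element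
  killed by a number coprime to `a` is a product of commutators.
-/
import Mathlib

set_option autoImplicit false

namespace Fermat.Agent.S41.CSP.TransferLemmas

open scoped commutatorElement

variable {G : Type*} [Group G]

/-! ### Central commutators -/

theorem pow_mul_of_central {x y c : G} (hc : x * y = c * (y * x)) (hcx : c * x = x * c) (n : ℕ) :
    x ^ n * y = c ^ n * (y * x ^ n) := by
  induction n with
  | zero => simp
  | succ n ih =>
    have hcn : c ^ n * x = x * c ^ n := (Commute.pow_left (show Commute c x from hcx) n).eq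
    calc x ^ (n + 1) * y = x * (x ^ n * y) := by rw [pow_succ', mul_assoc]
      _ = x * (c ^ n * (y * x ^ n)) := by rw [ih]
      _ = c ^ n * (x * y) * x ^ n := by rw [← mul_assoc x, ← hcn]; group
      _ = c ^ n * (c * (y * x)) * x ^ n := by rw [hc]
      _ = c ^ (n + 1) * (y * x ^ (n + 1)) := by rw [pow_succ, pow_succ']; group

theorem mul_pow_of_central {x y c : G} (hc : x * y = c * (y * x)) (hcy : c * y = y * c) (n : ℕ) :
    x * y ^ n = c ^ n * (y ^ n * x) := by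
  induction n with
  | zero => simp
  | succ n ih =>
    have hcn : c ^ n * y = y * c ^ n := (Commute.pow_left (show Commute c y from hcy) n).eq
    have hcn' : c * y ^ n = y ^ n * c := (Commute.pow_right (show Commute c y from hcy) n).eq
    calc x * y ^ (n + 1) = (x * y ^ n) * y := by rw [pow_succ, mul_assoc]
      _ = c ^ n * (y ^ n * x) * y := by rw [ih]
      _ = c ^ n * y ^ n * (x * y) := by group
      _ = c ^ n * y ^ n * (c * (y * x)) := by rw [hc]
      _ = c ^ n * (y ^ n * c) * (y * x) := by group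
      _ = c ^ n * (c * y ^ n) * (y * x) := by rw [hcn']
      _ = c ^ (n + 1) * (y ^ (n + 1) * x) := by rw [pow_succ, pow_succ]; group

/-- Two elements of coprime orders whose commutator commutes with both of them commute. -/
theorem commute_of_central_commutator {x y : G} {a b : ℕ} (hx : x ^ a = 1) (hy : y ^ b = 1)
    (hab : a.Coprime b) (hcx : ⁅x, y⁆ * x = x * ⁅x, y⁆) (hcy : ⁅x, y⁆ * y = y * ⁅x, y⁆) :
    x * y = y * x := by
  have hc : x * y = ⁅x, y⁆ * (y * x) := by rw [commutatorElement_def]; group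
  have h1 : ⁅x, y⁆ ^ a = 1 := by
    have := pow_mul_of_central hc hcx a
    rw [hx, one_mul, mul_one] at this
    exact (mul_eq_right.mp this.symm)
  have h2 : ⁅x, y⁆ ^ b = 1 := by
    have := mul_pow_of_central hc hcy b
    rw [hy, one_mul, mul_one] at this
    exact (mul_eq_right.mp this.symm)
  have h3 : ⁅x, y⁆ = 1 := by
    have hd : orderOf ⁅x, y⁆ ∣ Nat.gcd a b :=
      Nat.dvd_gcd (orderOf_dvd_of_pow_eq_one h1) (orderOf_dvd_of_pow_eq_one h2)
    rw [hab.gcd_eq_one, Nat.dvd_one, orderOf_eq_one_iff] at hd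
    exact hd
  rw [hc, h3, one_mul]

/-- If the generators of two subgroups commute pairwise, so do the subgroups. -/
theorem commute_of_closure {S T : Set G} (h : ∀ s ∈ S, ∀ t ∈ T, s * t = t * s) {x y : G}
    (hx : x ∈ Subgroup.closure S) (hy : y ∈ Subgroup.closure T) : x * y = y * x := by
  have h1 : Subgroup.closure T ≤ Subgroup.centralizer S := by
    rw [Subgroup.closure_le]
    intro t ht
    rw [SetLike.mem_coe, Subgroup.mem_centralizer_iff]
    intro s hs
    exact h s hs t ht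
  have h2 : Subgroup.closure S ≤ Subgroup.centralizer {y} := by
    rw [Subgroup.closure_le]
    intro s hs
    rw [SetLike.mem_coe, Subgroup.mem_centralizer_iff]
    rintro _ rfl
    have := (Subgroup.mem_centralizer_iff.mp (h1 hy)) s hs
    exact this.symm
  have := (Subgroup.mem_centralizer_iff.mp (h2 hx)) y rfl
  exact this.symm

/-! ### The transfer argument -/

/-- **Transfer argument.** A central element `z` with `z ^ p = 1` which is a product of
commutators is trivial, provided some subgroup `H` of index prime to `p` has the property that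
`z ^ H.index`, if it lies in the commutator subgroup of `H`, is trivial. -/
theorem eq_one_of_transfer (H : Subgroup G) [H.FiniteIndex] {p : ℕ} (hp : p.Prime)
    (hidx : ¬ p ∣ H.index) (z : G) (hzc : ∀ x, z * x = x * z) (hzp : z ^ p = 1)
    (hzcomm : z ∈ commutator G)
    (hzK : ∀ hmem : z ^ H.index ∈ H, (⟨z ^ H.index, hmem⟩ : H) ∈ commutator H →
      z ^ H.index = 1) : z = 1 := by
  have key : ∀ (k : ℕ) (g₀ : G), g₀⁻¹ * z ^ k * g₀ ∈ H → g₀⁻¹ * z ^ k * g₀ = z ^ k := by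
    intro k g₀ _
    have : z ^ k * g₀ = g₀ * z ^ k :=
      (Commute.pow_left (show Commute z g₀ from hzc g₀) k).eq
    rw [mul_assoc, this, inv_mul_cancel_left]
  have h1 : MonoidHom.transfer (Abelianization.of : H →* Abelianization H) z = 1 :=
    Abelianization.commutator_subset_ker _ hzcomm
  rw [MonoidHom.transfer_eq_pow _ z key] at h1
  have hmem : z ^ H.index ∈ H := MonoidHom.transfer_eq_pow_aux z key
  have h2 : (⟨z ^ H.index, hmem⟩ : H) ∈ commutator H := by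
    rw [← Abelianization.ker_of, MonoidHom.mem_ker]; exact h1
  have h3 : z ^ H.index = 1 := hzK hmem h2
  have hd : orderOf z ∣ Nat.gcd p H.index :=
    Nat.dvd_gcd (orderOf_dvd_of_pow_eq_one hzp) (orderOf_dvd_of_pow_eq_one h3)
  rw [(Nat.Prime.coprime_iff_not_dvd hp).mpr hidx |>.gcd_eq_one, Nat.dvd_one,
    orderOf_eq_one_iff] at hd
  exact hd

/-! ### Abelianisations generated by torsion -/

/-- If `G` is generated by elements killed by `a`, and `z ^ b = 1` with `a`, `b` coprime, then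
`z` lies in the commutator subgroup. -/
theorem mem_commutator_of_pow_eq_one {S : Set G} (hS : Subgroup.closure S = ⊤) {a b : ℕ}
    (ha : ∀ s ∈ S, s ^ a = 1) (hab : a.Coprime b) {z : G} (hz : z ^ b = 1) :
    z ∈ commutator G := by
  have hall : ∀ y : Abelianization G, y ^ a = 1 := by
    have htop : (Subgroup.closure S).map (Abelianization.of : G →* Abelianization G) = ⊤ := by
      rw [hS, ← MonoidHom.range_eq_map, MonoidHom.range_eq_top]
      exact QuotientGroup.mk_surjective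
    rw [MonoidHom.map_closure] at htop
    intro y
    have hy : y ∈ Subgroup.closure ((Abelianization.of : G →* Abelianization G) '' S) := by
      rw [htop]; trivial
    have hle : Subgroup.closure ((Abelianization.of : G →* Abelianization G) '' S) ≤
        (powMonoidHom a : Abelianization G →* Abelianization G).ker := by
      rw [Subgroup.closure_le]
      rintro _ ⟨s, hs, rfl⟩
      rw [SetLike.mem_coe, MonoidHom.mem_ker, powMonoidHom_apply, ← map_pow, ha s hs, map_one]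
    exact hle hy
  have h1 : (Abelianization.of z) ^ a = 1 := hall _
  have h2 : (Abelianization.of z) ^ b = 1 := by rw [← map_pow, hz, map_one]
  have hd : orderOf (Abelianization.of z) ∣ Nat.gcd a b :=
    Nat.dvd_gcd (orderOf_dvd_of_pow_eq_one h1) (orderOf_dvd_of_pow_eq_one h2)
  rw [hab.gcd_eq_one, Nat.dvd_one, orderOf_eq_one_iff] at hd
  rw [← Abelianization.ker_of, MonoidHom.mem_ker]
  exact hd

/-- **Transfer argument relative to a subgroup `A`.** `f` maps `A` onto a group `Q` having a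
subgroup `Cq` of index prime to `p`; `K` contains all commutators of elements of
`A ∩ f ⁻¹ Cq`. Then an element `z` of `⁅A, A⁆`, central in `A`, with `z ^ p = 1`, none of whose
nontrivial powers lies in `K`, is trivial. -/
theorem eq_one_of_transfer_subgroup {Q : Type*} [Group Q] (A : Subgroup G) (f : G →* Q)
    (hf : ∀ q, ∃ x ∈ A, f x = q) (Cq : Subgroup Q) [Cq.FiniteIndex] {p : ℕ} (hp : p.Prime)
    (hidx : ¬ p ∣ Cq.index) (K : Subgroup G)
    (hK : ∀ h₁ ∈ A, ∀ h₂ ∈ A, f h₁ ∈ Cq → f h₂ ∈ Cq → ⁅h₁, h₂⁆ ∈ K)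
    (z : G) (hz : z ∈ ⁅A, A⁆) (hzc : ∀ x ∈ A, z * x = x * z) (hzp : z ^ p = 1)
    (hzK : ∀ k : ℕ, z ^ k ∈ K → z ^ k = 1) : z = 1 := by
  set fA : A →* Q := f.comp A.subtype with hfA
  have hfAs : Function.Surjective fA := by
    intro q
    obtain ⟨x, hx, hxq⟩ := hf q
    exact ⟨⟨x, hx⟩, hxq⟩
  set H : Subgroup A := Cq.comap fA with hH
  have hHidx : H.index = Cq.index := Subgroup.index_comap_of_surjective Cq hfAs
  have : H.FiniteIndex := ⟨by rw [hHidx]; exact Subgroup.FiniteIndex.index_ne_zero⟩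
  rw [← A.map_subtype_commutator] at hz
  obtain ⟨z', hz'comm, rfl⟩ := hz
  have hz'1 : z' = 1 := by
    refine eq_one_of_transfer H hp (by rwa [hHidx]) z' ?_ ?_ hz'comm ?_
    · intro x
      exact Subtype.ext (hzc x x.2)
    · exact Subtype.ext hzp
    · intro hmem hcomm
      have h1 : z' ^ H.index ∈ ⁅H, H⁆ := by
        rw [← H.map_subtype_commutator]
        exact ⟨⟨z' ^ H.index, hmem⟩, hcomm, rfl⟩
      have h2 : A.subtype (z' ^ H.index) ∈ (⁅H, H⁆).map A.subtype := ⟨_, h1, rfl⟩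
      rw [Subgroup.map_commutator] at h2
      have h3 : ⁅H.map A.subtype, H.map A.subtype⁆ ≤ K := by
        rw [Subgroup.commutator_le]
        rintro _ ⟨h₁, hh₁, rfl⟩ _ ⟨h₂, hh₂, rfl⟩
        exact hK _ h₁.2 _ h₂.2 hh₁ hh₂
      have h4 := hzK H.index (by simpa using h3 h2)
      exact Subtype.ext (by simpa using h4)
  rw [hz'1]; rfl

/-- A variant of `mem_commutator_of_pow_eq_one` inside a subgroup generated by a set. -/
theorem mem_commutator_closure_of_pow_eq_one {S : Set G} {a b : ℕ}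
    (ha : ∀ s ∈ S, s ^ a = 1) (hab : a.Coprime b) {z : G} (hzS : z ∈ Subgroup.closure S)
    (hz : z ^ b = 1) : z ∈ ⁅Subgroup.closure S, Subgroup.closure S⁆ := by
  set A := Subgroup.closure S with hA
  have hS' : Subgroup.closure ((↑) ⁻¹' S : Set A) = ⊤ := Subgroup.closure_closure_coe_preimage
  have h1 : (⟨z, hzS⟩ : A) ∈ commutator A := by
    refine mem_commutator_of_pow_eq_one hS' (a := a) (b := b) ?_ hab (Subtype.ext hz)
    intro s hs
    exact Subtype.ext (ha s hs)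
  rw [← A.map_subtype_commutator]
  exact ⟨⟨z, hzS⟩, h1, rfl⟩

/-- `⁅c₁ * d₁, c₂ * d₂⁆ = ⁅d₁, d₂⁆` when the `c`'s commute with each other and with the `d`'s. -/
theorem commutator_mul_mul {c₁ c₂ d₁ d₂ : G} (hcc : c₁ * c₂ = c₂ * c₁)
    (h11 : c₁ * d₁ = d₁ * c₁) (h12 : c₁ * d₂ = d₂ * c₁) (h21 : c₂ * d₁ = d₁ * c₂)
    (h22 : c₂ * d₂ = d₂ * c₂) : ⁅c₁ * d₁, c₂ * d₂⁆ = ⁅d₁, d₂⁆ := by
  have hcc' : Commute c₁ c₂ := hcc
  have k11 : Commute c₁ d₁ := h11
  have k12 : Commute c₁ d₂ := h12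
  have k21 : Commute c₂ d₁ := h21
  have k22 : Commute c₂ d₂ := h22
  rw [commutatorElement_def, commutatorElement_def, mul_inv_rev, mul_inv_rev]
  -- move everything to the normal form `c₁ c₂ c₁⁻¹ c₂⁻¹ d₁ d₂ d₁⁻¹ d₂⁻¹`
  have e1 : c₁ * d₁ * (c₂ * d₂) * (d₁⁻¹ * c₁⁻¹) * (d₂⁻¹ * c₂⁻¹) =
      (c₁ * c₂ * c₁⁻¹ * c₂⁻¹) * (d₁ * d₂ * d₁⁻¹ * d₂⁻¹) := by
    have a1 : d₁ * c₂ = c₂ * d₁ := k21.eq.symm
    have a2 : d₁⁻¹ * c₁⁻¹ = c₁⁻¹ * d₁⁻¹ := (k11.inv_inv).eq.symm
    have a3 : d₂⁻¹ * c₂⁻¹ = c₂⁻¹ * d₂⁻¹ := (k22.inv_inv).eq.symm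
    have a4 : d₂ * c₁⁻¹ = c₁⁻¹ * d₂ := (k12.inv_left).eq.symm
    have a5 : d₁ * c₁⁻¹ = c₁⁻¹ * d₁ := (k11.inv_left).eq.symm
    have a6 : d₁⁻¹ * c₂⁻¹ = c₂⁻¹ * d₁⁻¹ := (k21.inv_inv).eq.symm
    have a7 : d₂ * c₂⁻¹ = c₂⁻¹ * d₂ := (k22.inv_left).eq.symm
    have a8 : d₁ * c₂⁻¹ = c₂⁻¹ * d₁ := (k21.inv_left).eq.symm
    calc c₁ * d₁ * (c₂ * d₂) * (d₁⁻¹ * c₁⁻¹) * (d₂⁻¹ * c₂⁻¹)
        = c₁ * (d₁ * c₂) * d₂ * (d₁⁻¹ * c₁⁻¹) * (d₂⁻¹ * c₂⁻¹) := by group
      _ = c₁ * (c₂ * d₁) * d₂ * (c₁⁻¹ * d₁⁻¹) * (c₂⁻¹ * d₂⁻¹) := by rw [a1, a2, a3]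
      _ = c₁ * c₂ * d₁ * (d₂ * c₁⁻¹) * d₁⁻¹ * c₂⁻¹ * d₂⁻¹ := by group
      _ = c₁ * c₂ * d₁ * (c₁⁻¹ * d₂) * d₁⁻¹ * c₂⁻¹ * d₂⁻¹ := by rw [a4]
      _ = c₁ * c₂ * (d₁ * c₁⁻¹) * d₂ * (d₁⁻¹ * c₂⁻¹) * d₂⁻¹ := by group
      _ = c₁ * c₂ * (c₁⁻¹ * d₁) * d₂ * (c₂⁻¹ * d₁⁻¹) * d₂⁻¹ := by rw [a5, a6]
      _ = c₁ * c₂ * c₁⁻¹ * d₁ * (d₂ * c₂⁻¹) * d₁⁻¹ * d₂⁻¹ := by group
      _ = c₁ * c₂ * c₁⁻¹ * d₁ * (c₂⁻¹ * d₂) * d₁⁻¹ * d₂⁻¹ := by rw [a7]
      _ = c₁ * c₂ * c₁⁻¹ * (d₁ * c₂⁻¹) * d₂ * d₁⁻¹ * d₂⁻¹ := by group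
      _ = c₁ * c₂ * c₁⁻¹ * (c₂⁻¹ * d₁) * d₂ * d₁⁻¹ * d₂⁻¹ := by rw [a8]
      _ = (c₁ * c₂ * c₁⁻¹ * c₂⁻¹) * (d₁ * d₂ * d₁⁻¹ * d₂⁻¹) := by group
  rw [e1]
  have : c₁ * c₂ * c₁⁻¹ * c₂⁻¹ = 1 := by rw [hcc]; group
  rw [this, one_mul]

end Fermat.Agent.S41.CSP.TransferLemmas
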