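/-
S41 / [IH2] (F), BASE (board #1992): for a `LiftCore N p D` with `p` an odd prime and `p² ∤ N`
the kernel of `π : D → SL₂(ℤ/N)` is trivial.

Strategy (one prime at a time, transfer into an abelianisation):
for `a ∣ N` put `Dsub a := ⟨u t, v t : a * t = 0⟩`.  For coprime `a`, `a'` the subgroups `Dsub a`,
`Dsub a'` commute elementwise.  Induction over unitary divisors `a ∥ N` prime to `p` shows
`ker π ∩ Dsub a = 1`; a last transfer step at `p` and the abelianisation of `D` finish.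
-/
import Mathlib
import Fermat.Agent.S41.CSP.LiftData
import Fermat.Agent.S41.CSP.SL2ZMod
import Fermat.Agent.S41.CSP.TransferLemmas

set_option autoImplicit false

namespace Fermat.Agent.S41.CSP.TransferBase

open Fermat.Agent.S41.CSP.Descent Fermat.Agent.S41.CSP.SL2ZMod
open Fermat.Agent.S41.CSP.TransferLemmas
open scoped commutatorElement

variable {N p : ℕ} {D : Type*} [Group D] (C : LiftCore N p D)

/-! ### Basic identities in a `LiftCore` -/

theorem u_zero : C.u 0 = 1 := by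
  have := C.u_add 0 0
  rw [add_zero] at this
  exact (mul_eq_left.mp this.symm)

theorem v_zero : C.v 0 = 1 := by
  have := C.v_add 0 0
  rw [add_zero] at this
  exact (mul_eq_left.mp this.symm)

theorem u_nsmul (n : ℕ) (t : ZMod N) : C.u (n • t) = C.u t ^ n := by
  induction n with
  | zero => simp [u_zero]
  | succ n ih => rw [succ_nsmul, C.u_add, ih, pow_succ]

theorem v_nsmul (n : ℕ) (t : ZMod N) : C.v (n • t) = C.v t ^ n := by
  induction n with
  | zero => simp [v_zero]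
  | succ n ih => rw [succ_nsmul, C.v_add, ih, pow_succ]

theorem u_neg (t : ZMod N) : C.u (-t) = (C.u t)⁻¹ := by
  rw [eq_inv_iff_mul_eq_one, ← C.u_add, neg_add_cancel, u_zero]

theorem v_neg (t : ZMod N) : C.v (-t) = (C.v t)⁻¹ := by
  rw [eq_inv_iff_mul_eq_one, ← C.v_add, neg_add_cancel, v_zero]

theorem u_comm (s t : ZMod N) : C.u s * C.u t = C.u t * C.u s := by
  rw [← C.u_add, ← C.u_add, add_comm]

theorem v_comm (s t : ZMod N) : C.v s * C.v t = C.v t * C.v s := by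
  rw [← C.v_add, ← C.v_add, add_comm]

theorem u_pow_eq_one {a : ℕ} {t : ZMod N} (ht : t ∈ Tor N a) : C.u t ^ a = 1 := by
  rw [← u_nsmul, nsmul_eq_zero_of_mem_Tor ht, u_zero]

theorem v_pow_eq_one {a : ℕ} {t : ZMod N} (ht : t ∈ Tor N a) : C.v t ^ a = 1 := by
  rw [← v_nsmul, nsmul_eq_zero_of_mem_Tor ht, v_zero]

/-! ### The primary subgroups -/

/-- The subgroup generated by the `u t`, `v t` with `a * t = 0`. -/
def Dsub (a : ℕ) : Subgroup D := Subgroup.closure (C.u '' Tor N a ∪ C.v '' Tor N a)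

theorem u_mem_Dsub {a : ℕ} {t : ZMod N} (ht : t ∈ Tor N a) : C.u t ∈ Dsub C a :=
  Subgroup.subset_closure (Or.inl ⟨t, ht, rfl⟩)

theorem v_mem_Dsub {a : ℕ} {t : ZMod N} (ht : t ∈ Tor N a) : C.v t ∈ Dsub C a :=
  Subgroup.subset_closure (Or.inr ⟨t, ht, rfl⟩)

theorem Dsub_mono {a a' : ℕ} (h : a ∣ a') : Dsub C a ≤ Dsub C a' :=
  Subgroup.closure_mono (Set.union_subset_union (Set.image_mono (Tor_mono h))
    (Set.image_mono (Tor_mono h)))

theorem Dsub_self : Dsub C N = ⊤ := by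
  rw [eq_top_iff, ← C.gen, Dsub]
  apply Subgroup.closure_mono
  rintro _ (⟨t, rfl⟩ | ⟨t, rfl⟩)
  · exact Or.inl ⟨t, mem_Tor_self t, rfl⟩
  · exact Or.inr ⟨t, mem_Tor_self t, rfl⟩

theorem map_π_Dsub (a : ℕ) : (Dsub C a).map C.π = ElemTor N a := by
  have h1 : C.π '' (C.u '' Tor N a ∪ C.v '' Tor N a) = eU '' Tor N a ∪ eL '' Tor N a := by
    rw [Set.image_union, Set.image_image, Set.image_image]
    congr 1
    · exact Set.image_congr fun t _ => C.π_u t
    · exact Set.image_congr fun t _ => C.π_v t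
  unfold Dsub
  rw [MonoidHom.map_closure C.π, h1]
  rfl

theorem π_mem_ElemTor {a : ℕ} {x : D} (hx : x ∈ Dsub C a) : C.π x ∈ ElemTor N a := by
  rw [← map_π_Dsub C]; exact ⟨x, hx, rfl⟩

theorem exists_mem_Dsub_of_mem_ElemTor {a : ℕ} {y : SL2 (ZMod N)} (hy : y ∈ ElemTor N a) :
    ∃ x ∈ Dsub C a, C.π x = y := by
  rw [← map_π_Dsub C] at hy
  exact hy

/-- the generators of `Dsub a` are killed by `a` -/
theorem gen_pow_eq_one {a : ℕ} : ∀ s ∈ (C.u '' Tor N a ∪ C.v '' Tor N a), s ^ a = 1 := by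
  rintro _ (⟨t, ht, rfl⟩ | ⟨t, ht, rfl⟩)
  · exact u_pow_eq_one C ht
  · exact v_pow_eq_one C ht

/-! ### Cross commutation -/

theorem u_v_comm {a a' : ℕ} (hcop : a.Coprime a') {t t' : ZMod N} (ht : t ∈ Tor N a)
    (ht' : t' ∈ Tor N a') : C.u t * C.v t' = C.v t' * C.u t := by
  have hπ : C.π ⁅C.u t, C.v t'⁆ = 1 := by
    rw [map_commutatorElement, C.π_u, C.π_v, commutatorElement_eq_one_iff_mul_comm]
    exact eU_mul_eL_comm (mul_eq_zero_of_mem_Tor hcop ht ht')
  exact commute_of_central_commutator (u_pow_eq_one C ht) (v_pow_eq_one C ht') hcop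
    (C.central _ hπ _) (C.central _ hπ _)

theorem commute_Dsub {a a' : ℕ} (hcop : a.Coprime a') {x y : D} (hx : x ∈ Dsub C a)
    (hy : y ∈ Dsub C a') : x * y = y * x := by
  refine commute_of_closure ?_ hx hy
  rintro _ (⟨t, ht, rfl⟩ | ⟨t, ht, rfl⟩) _ (⟨t', ht', rfl⟩ | ⟨t', ht', rfl⟩)
  · exact u_comm C t t'
  · exact u_v_comm C hcop ht ht'
  · exact (u_v_comm C hcop.symm ht' ht).symm
  · exact v_comm C t t'

theorem Dsub_one : Dsub C 1 = ⊥ := by
  unfold Dsub
  rw [Subgroup.closure_eq_bot_iff]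
  rintro _ (⟨t, ht, rfl⟩ | ⟨t, ht, rfl⟩)
  · have : t = 0 := by simpa [mem_Tor] using ht
    rw [this, u_zero]; rfl
  · have : t = 0 := by simpa [mem_Tor] using ht
    rw [this, v_zero]; rfl

/-! ### The transfer step -/

section Step

variable {q a' b : ℕ}

/-- the composite `D → SL₂(ℤ/N) → SL₂(ℤ/q)` -/
def toQ (hq : q ∣ N) : D →* SL2 (ZMod q) := (redZ hq).comp C.π

theorem toQ_apply (hq : q ∣ N) (x : D) : toQ C hq x = redZ hq (C.π x) := rfl

theorem exists_mem_Dsub_toQ_eq {c : ℕ} (hN : q * c = N) (hcop : q.Coprime c)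
    (y : SL2 (ZMod q)) : ∃ x ∈ Dsub C q, toQ C (Dvd.intro c hN) x = y := by
  have : y ∈ (ElemTor N q).map (redZ (Dvd.intro c hN)) := by
    rw [map_ElemTor_eq_top hN hcop]; trivial
  obtain ⟨e, he, rfl⟩ := this
  obtain ⟨x, hx, rfl⟩ := exists_mem_Dsub_of_mem_ElemTor C he
  exact ⟨x, hx, rfl⟩

theorem exists_decomp (hN : q * a' * b = N) (hqa : q.Coprime a') (hqb : q.Coprime b)
    (hab : a'.Coprime b) (hq : q ∣ N) {y : D} (hy : y ∈ Dsub C (q * a'))
    (hyq : toQ C hq y = 1) : ∃ z d, C.π z = 1 ∧ d ∈ Dsub C a' ∧ y = z * d := by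
  have hb : b ∣ N := ⟨q * a', by rw [← hN, mul_comm]⟩
  have hyb : redZ hb (C.π y) = 1 :=
    ElemTor_le_ker hb (Nat.Coprime.mul_left hqb hab) (π_mem_ElemTor C hy)
  have hN' : a' * (q * b) = N := by rw [← hN]; ring
  have hyqb : redZ (Dvd.intro_left a' hN') (C.π y) = 1 :=
    redZ_mul_eq_one hq hb _ hqb _ hyq hyb
  have hmem : C.π y ∈ ElemTor N a' :=
    mem_ElemTor_of_redZ_eq_one hN' (Nat.Coprime.mul_right hqa.symm hab) _ hyqb
  obtain ⟨d, hd, hdy⟩ := exists_mem_Dsub_of_mem_ElemTor C hmem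
  refine ⟨y * d⁻¹, d, ?_, hd, by group⟩
  rw [map_mul, map_inv, hdy, mul_inv_cancel]

theorem commutator_mem_Dsub (hN : q * a' * b = N) (hqa : q.Coprime a') (hqb : q.Coprime b)
    (hab : a'.Coprime b) (hq : q ∣ N) {gt : D} (hgt : gt ∈ Dsub C q) {h₁ h₂ : D}
    (hh₁ : h₁ ∈ Dsub C (q * a')) (hh₂ : h₂ ∈ Dsub C (q * a'))
    (hk₁ : toQ C hq h₁ ∈ Subgroup.zpowers (toQ C hq gt))
    (hk₂ : toQ C hq h₂ ∈ Subgroup.zpowers (toQ C hq gt)) : ⁅h₁, h₂⁆ ∈ Dsub C a' := by
  have hgt' : gt ∈ Dsub C (q * a') := Dsub_mono C (Dvd.intro a' rfl) hgt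
  -- decomposition of an element of `H`
  have dec : ∀ h ∈ Dsub C (q * a'), toQ C hq h ∈ Subgroup.zpowers (toQ C hq gt) →
      ∃ (k : ℤ) (z d : D), C.π z = 1 ∧ d ∈ Dsub C a' ∧ h = (z * gt ^ k) * d := by
    intro h hh hk
    obtain ⟨k, hk⟩ := Subgroup.mem_zpowers_iff.mp hk
    have hy : h * (gt ^ k)⁻¹ ∈ Dsub C (q * a') :=
      mul_mem hh (inv_mem (zpow_mem hgt' k))
    have hyq : toQ C hq (h * (gt ^ k)⁻¹) = 1 := by
      rw [map_mul, map_inv, map_zpow, hk, mul_inv_cancel]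
    obtain ⟨z, d, hz, hd, hzd⟩ := exists_decomp C hN hqa hqb hab hq hy hyq
    refine ⟨k, z, d, hz, hd, ?_⟩
    have hcomm : d * gt ^ k = gt ^ k * d :=
      (commute_Dsub C hqa (zpow_mem hgt k) hd).symm
    calc h = (h * (gt ^ k)⁻¹) * gt ^ k := by group
      _ = z * d * gt ^ k := by rw [hzd]
      _ = z * (d * gt ^ k) := by group
      _ = z * (gt ^ k * d) := by rw [hcomm]
      _ = (z * gt ^ k) * d := by group
  obtain ⟨k₁, z₁, d₁, hz₁, hd₁, rfl⟩ := dec h₁ hh₁ hk₁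
  obtain ⟨k₂, z₂, d₂, hz₂, hd₂, rfl⟩ := dec h₂ hh₂ hk₂
  have cz₁ := C.central z₁ hz₁
  have cz₂ := C.central z₂ hz₂
  have hgg : gt ^ k₁ * gt ^ k₂ = gt ^ k₂ * gt ^ k₁ := by
    rw [← zpow_add, ← zpow_add, add_comm]
  have hcd : ∀ (k : ℤ) (d : D), d ∈ Dsub C a' → gt ^ k * d = d * gt ^ k :=
    fun k d hd => commute_Dsub C hqa (zpow_mem hgt k) hd
  rw [commutator_mul_mul]
  · exact Subgroup.commutator_le_self _ (Subgroup.commutator_mem_commutator hd₁ hd₂)
  · calc z₁ * gt ^ k₁ * (z₂ * gt ^ k₂) = z₁ * (gt ^ k₁ * z₂) * gt ^ k₂ := by group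
      _ = z₁ * (z₂ * gt ^ k₁) * gt ^ k₂ := by rw [← cz₂]
      _ = (z₁ * z₂) * (gt ^ k₁ * gt ^ k₂) := by group
      _ = (z₂ * z₁) * (gt ^ k₂ * gt ^ k₁) := by rw [cz₁ z₂, hgg]
      _ = z₂ * (z₁ * gt ^ k₂) * gt ^ k₁ := by group
      _ = z₂ * (gt ^ k₂ * z₁) * gt ^ k₁ := by rw [← cz₁]
      _ = z₂ * gt ^ k₂ * (z₁ * gt ^ k₁) := by group
  · rw [mul_assoc, hcd k₁ d₁ hd₁, ← mul_assoc, cz₁ d₁, mul_assoc]
  · rw [mul_assoc, hcd k₁ d₂ hd₂, ← mul_assoc, cz₁ d₂, mul_assoc]
  · rw [mul_assoc, hcd k₂ d₁ hd₁, ← mul_assoc, cz₂ d₁, mul_assoc]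
  · rw [mul_assoc, hcd k₂ d₂ hd₂, ← mul_assoc, cz₂ d₂, mul_assoc]

/-- **The transfer step**: if `ker π` meets `Dsub a'` trivially, it meets
`⁅Dsub (q * a'), Dsub (q * a')⁆` trivially. -/
theorem step (hN : q * a' * b = N) (hqa : q.Coprime a') (hqb : q.Coprime b)
    (hab : a'.Coprime b) [NeZero q] (hp : p.Prime) (g : SL2 (ZMod q))
    (hg : ¬ p ∣ (Subgroup.zpowers g).index)
    (IH : ∀ z ∈ Dsub C a', C.π z = 1 → z = 1)
    (z : D) (hz : z ∈ ⁅Dsub C (q * a'), Dsub C (q * a')⁆) (hπ : C.π z = 1) : z = 1 := by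
  have hN2 : q * (a' * b) = N := by rw [← hN, mul_assoc]
  have hq : q ∣ N := Dvd.intro _ hN2
  obtain ⟨gt, hgt, hgtg⟩ := exists_mem_Dsub_toQ_eq C hN2 (Nat.Coprime.mul_right hqa hqb) g
  refine eq_one_of_transfer_subgroup (Dsub C (q * a')) (toQ C hq) ?_ (Subgroup.zpowers g) hp hg
    (Dsub C a') ?_ z hz (fun x _ => C.central z hπ x) (C.ker_pow z hπ) ?_
  · intro y
    obtain ⟨x, hx, hxy⟩ := exists_mem_Dsub_toQ_eq C hN2 (Nat.Coprime.mul_right hqa hqb) y
    exact ⟨x, Dsub_mono C (Dvd.intro a' rfl) hx, hxy⟩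
  · intro h₁ hh₁ h₂ hh₂ hk₁ hk₂
    rw [← hgtg] at hk₁ hk₂
    exact commutator_mem_Dsub C hN hqa hqb hab hq hgt hh₁ hh₂ hk₁ hk₂
  · intro k hk
    exact IH _ hk (by rw [map_pow, hπ, one_pow])

end Step

/-! ### The prime-to-`p` part -/

/-- The leaf hypothesis: cyclic subgroups of index prime to `p` in `SL₂(ℤ/r^f)`, `r ≠ p`. -/
def CyclicLeaf (p : ℕ) : Prop :=
  ∀ r f : ℕ, r.Prime → r ≠ p → 0 < f →
    ∃ g : SL2 (ZMod (r ^ f)), ¬ p ∣ (Subgroup.zpowers g).index

/-- `ker π` meets the prime-to-`p` primary subgroups trivially. -/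
theorem ker_inf_Dsub_eq_bot [NeZero N] (hp : p.Prime) (hleaf : CyclicLeaf p) :
    ∀ a b : ℕ, a * b = N → a.Coprime b → ¬ p ∣ a → ∀ z ∈ Dsub C a, C.π z = 1 → z = 1 := by
  intro a
  induction a using Nat.strong_induction_on with
  | _ a ih =>
    intro b hab hcop hpa z hz hπ
    have hN0 : N ≠ 0 := NeZero.ne N
    have ha0 : a ≠ 0 := by rintro rfl; rw [zero_mul] at hab; exact hN0 hab.symm
    by_cases ha1 : a = 1
    · subst ha1
      rw [Dsub_one, Subgroup.mem_bot] at hz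
      exact hz
    -- split off the smallest prime
    set r := a.minFac with hr
    have hrp : r.Prime := Nat.minFac_prime ha1
    have hra : r ∣ a := Nat.minFac_dvd a
    set f := a.factorization r with hf
    have hfpos : 0 < f := hrp.factorization_pos_of_dvd ha0 hra
    set q := r ^ f with hq
    set a' := a / r ^ f with ha'
    have hqa' : q * a' = a := Nat.ordProj_mul_ordCompl_eq_self a r
    have hqa'cop : q.Coprime a' := Nat.Coprime.pow_left _ (Nat.coprime_ordCompl hrp ha0)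
    have ha'pos : 0 < a' := Nat.ordCompl_pos r ha0
    have hq2 : 2 ≤ q := by
      calc 2 ≤ r := hrp.two_le
        _ = r ^ 1 := (pow_one r).symm
        _ ≤ r ^ f := Nat.pow_le_pow_right hrp.pos hfpos
    have ha'lt : a' < a := by
      calc a' = 1 * a' := (one_mul _).symm
        _ < q * a' := Nat.mul_lt_mul_of_pos_right (by omega) ha'pos
        _ = a := hqa'
    have hqdvd : q ∣ a := Dvd.intro _ hqa'
    have ha'dvd : a' ∣ a := Dvd.intro_left _ hqa'
    have hqb : q.Coprime b := Nat.Coprime.coprime_dvd_left hqdvd hcop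
    have ha'b : a'.Coprime b := Nat.Coprime.coprime_dvd_left ha'dvd hcop
    have hrnep : r ≠ p := by
      rintro rfl; exact hpa hra
    have hpa' : ¬ p ∣ a' := fun h => hpa (h.trans ha'dvd)
    have hN' : q * a' * b = N := by rw [hqa', hab]
    have hq0 : q ≠ 0 := by omega
    have : NeZero q := ⟨hq0⟩
    obtain ⟨g, hg⟩ := hleaf r f hrp hrnep hfpos
    -- induction hypothesis for `a'`
    have IH : ∀ z ∈ Dsub C a', C.π z = 1 → z = 1 :=
      ih a' ha'lt (q * b) (by rw [← hN']; ring) (Nat.Coprime.mul_right hqa'cop.symm ha'b) hpa'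
    -- `z` is a product of commutators in `Dsub a`
    have hzc : z ∈ ⁅Dsub C a, Dsub C a⁆ := by
      have hcop' : a.Coprime p := (Nat.Coprime.symm ((Nat.Prime.coprime_iff_not_dvd hp).mpr hpa))
      exact mem_commutator_closure_of_pow_eq_one (gen_pow_eq_one C) hcop' hz (C.ker_pow z hπ)
    rw [← hqa'] at hzc
    exact step C hN' hqa'cop hqb ha'b hp g hg IH z hzc hπ

/-! ### The abelianisation of `D` -/

section Ab

/-- The class of `v t` in the abelianisation is that of `u (-t)`. -/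
theorem ab_v (t : ZMod N) :
    (Abelianization.of (C.v t) : Abelianization D) = Abelianization.of (C.u (-t)) := by
  have h := C.w_conj (-t)
  rw [neg_neg] at h
  rw [← h, map_mul, map_mul, map_inv, mul_inv_cancel_comm]

theorem ab_u [NeZero N] (t : ZMod N) :
    (Abelianization.of (C.u t) : Abelianization D) = Abelianization.of (C.u 1) ^ t.val := by
  rw [← map_pow, ← u_nsmul, nsmul_eq_mul, mul_one, ZMod.natCast_zmod_val]

theorem ab_w_pow :
    (Abelianization.of (C.u 1) : Abelianization D) ^ 12 = 1 := by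
  have h1 : (Abelianization.of (C.u 1 * C.v (-1) * C.u 1) : Abelianization D) =
      Abelianization.of (C.u 1) ^ 3 := by
    rw [map_mul, map_mul, ab_v, neg_neg]
    exact (pow_three' _).symm
  have h2 : (Abelianization.of (C.u 1 * C.v (-1) * C.u 1) : Abelianization D) ^ 4 = 1 := by
    rw [← map_pow, C.w_pow, map_one]
  rw [h1, ← pow_mul] at h2
  exact h2

theorem ab_mem_zpowers [NeZero N] (y : Abelianization D) :
    y ∈ Subgroup.zpowers (Abelianization.of (C.u 1) : Abelianization D) := by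
  obtain ⟨d, rfl⟩ := QuotientGroup.mk_surjective y
  change (Abelianization.of d : Abelianization D) ∈ _
  have hd : d ∈ Subgroup.closure (Set.range C.u ∪ Set.range C.v) := by rw [C.gen]; trivial
  have hle : (Subgroup.closure (Set.range C.u ∪ Set.range C.v)).map
      (Abelianization.of : D →* Abelianization D) ≤
      Subgroup.zpowers (Abelianization.of (C.u 1) : Abelianization D) := by
    rw [MonoidHom.map_closure (Abelianization.of : D →* Abelianization D), Subgroup.closure_le]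
    rintro _ ⟨_, (⟨t, rfl⟩ | ⟨t, rfl⟩), rfl⟩
    · rw [SetLike.mem_coe, ab_u C t]
      exact Subgroup.npow_mem_zpowers _ _
    · rw [SetLike.mem_coe, ab_v, ab_u C (-t)]
      exact Subgroup.npow_mem_zpowers _ _
  exact hle ⟨d, hd, rfl⟩

end Ab

/-! ### The character of `SL₂(𝔽₃)` of order three -/

/-- The function `g ↦ -(a + d) (b - c + b² c)` on `SL₂(𝔽₃)`; it is the homomorphism onto `ℤ/3`
with `eU 1 ↦ 1`. -/
def chi3Fun (g : SL2 (ZMod 3)) : ZMod 3 :=
  -(g.1 0 0 + g.1 1 1) * (g.1 0 1 - g.1 1 0 + g.1 0 1 * g.1 0 1 * g.1 1 0)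

set_option maxRecDepth 100000 in
theorem chi3Fun_mul : ∀ x y : SL2 (ZMod 3), chi3Fun (x * y) = chi3Fun x + chi3Fun y := by
  decide

theorem chi3Fun_eU_one : chi3Fun (eU 1) = 1 := by decide

/-- The character `SL₂(𝔽₃) → ℤ/3`. -/
def chi3 : SL2 (ZMod 3) →* Multiplicative (ZMod 3) :=
  MonoidHom.mk' (fun g => Multiplicative.ofAdd (chi3Fun g)) fun x y => by
    rw [chi3Fun_mul, ofAdd_add]

theorem chi3_eU_one : chi3 (eU 1) = Multiplicative.ofAdd (1 : ZMod 3) := by
  change Multiplicative.ofAdd (chi3Fun (eU 1)) = _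
  rw [chi3Fun_eU_one]

/-! ### The base statement -/

/-- **BASE.** For a `LiftCore N p D` with `p` an odd prime and `p² ∤ N` the kernel of `π` is
trivial; stated relative to the two cyclic-subgroup leaves. -/
theorem ker_eq_bot_of_leaves [NeZero N] (hp : p.Prime) (hp2 : p ≠ 2) (hleaf : CyclicLeaf p)
    (hleaf' : ¬ p ∣ (Subgroup.zpowers (eU 1 : SL2 (ZMod p))).index) (hN : ¬ p ^ 2 ∣ N)
    (z : D) (hz : C.π z = 1) : z = 1 := by
  by_cases hpN : p ∣ N
  swap
  · exact ker_inf_Dsub_eq_bot C hp hleaf N 1 (mul_one N) (Nat.coprime_one_right N) hpN z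
      (by rw [Dsub_self]; trivial) hz
  -- now `p ∥ N`
  obtain ⟨a', ha'⟩ := hpN
  have hpa' : ¬ p ∣ a' := by
    rintro ⟨c, rfl⟩
    exact hN ⟨c, by rw [ha']; ring⟩
  have hcop : p.Coprime a' := (Nat.Prime.coprime_iff_not_dvd hp).mpr hpa'
  have : NeZero p := ⟨hp.ne_zero⟩
  have IH : ∀ z ∈ Dsub C a', C.π z = 1 → z = 1 :=
    ker_inf_Dsub_eq_bot C hp hleaf a' p (by rw [ha', mul_comm]) hcop.symm hpa'
  have hN' : p * a' * 1 = N := by rw [mul_one, ha']
  -- `ker π` meets the commutator subgroup trivially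
  have hcomm : ∀ z ∈ commutator D, C.π z = 1 → z = 1 := by
    intro z hzc hzπ
    refine step C hN' hcop (Nat.coprime_one_right p) (Nat.coprime_one_right a') hp (eU 1)
      hleaf' IH z ?_ hzπ
    rw [← ha', Dsub_self]
    exact hzc
  -- `z` lies in the commutator subgroup
  apply hcomm z _ hz
  rw [← Abelianization.ker_of, MonoidHom.mem_ker]
  set y : Abelianization D := Abelianization.of z with hy
  set x : Abelianization D := Abelianization.of (C.u 1) with hx
  have hyp : y ^ p = 1 := by rw [hy, ← map_pow, C.ker_pow z hz, map_one]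
  obtain ⟨k, hk⟩ := Subgroup.mem_zpowers_iff.mp (ab_mem_zpowers C y)
  have hx12 : x ^ 12 = 1 := ab_w_pow C
  by_cases hp3 : p = 3
  · subst hp3
    -- the character of order three
    have h3N : 3 ∣ N := Dvd.intro _ ha'.symm
    set ψ : D →* Multiplicative (ZMod 3) := chi3.comp ((redZ h3N).comp C.π) with hψ
    have hψx : Abelianization.lift ψ x = Multiplicative.ofAdd (1 : ZMod 3) := by
      rw [hx, Abelianization.lift_apply_of, hψ, MonoidHom.comp_apply, MonoidHom.comp_apply,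
        C.π_u, redZ_eU, map_one, chi3_eU_one]
    have hψy : Abelianization.lift ψ y = 1 := by
      rw [hy, Abelianization.lift_apply_of, hψ, MonoidHom.comp_apply, MonoidHom.comp_apply, hz,
        map_one, map_one]
    have hk3 : (3 : ℤ) ∣ k := by
      rw [← hk, map_zpow, hψx, ← ofAdd_zsmul, zsmul_one] at hψy
      have : ((k : ℤ) : ZMod 3) = 0 := by
        have := congrArg Multiplicative.toAdd hψy
        simpa using this
      exact (ZMod.intCast_zmod_eq_zero_iff_dvd k 3).mp this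
    obtain ⟨m, rfl⟩ := hk3
    have hy4 : y ^ 4 = 1 := by
      rw [← hk, ← zpow_natCast, ← zpow_mul, show (3 * m * ((4 : ℕ) : ℤ)) = ((12 : ℕ) : ℤ) * m by
        push_cast; ring, zpow_mul, zpow_natCast, hx12, one_zpow]
    calc y = y ^ 4 * (y ^ 3)⁻¹ := by group
      _ = 1 := by rw [hy4, hyp, inv_one, mul_one]
  · have hy12 : y ^ 12 = 1 := by
      rw [← hk, ← zpow_natCast, ← zpow_mul, mul_comm, zpow_mul, zpow_natCast, hx12, one_zpow]
    have hcop12 : p.Coprime 12 := by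
      rw [Nat.Prime.coprime_iff_not_dvd hp]
      intro h12
      have h12' : p ∣ 2 * 2 * 3 := h12
      rcases (Nat.Prime.dvd_mul hp).mp h12' with h | h
      · rcases (Nat.Prime.dvd_mul hp).mp h with h | h
        · exact hp2 ((Nat.prime_dvd_prime_iff_eq hp Nat.prime_two).mp h)
        · exact hp2 ((Nat.prime_dvd_prime_iff_eq hp Nat.prime_two).mp h)
      · exact hp3 ((Nat.prime_dvd_prime_iff_eq hp Nat.prime_three).mp h)
    have hd : orderOf y ∣ Nat.gcd p 12 :=
      Nat.dvd_gcd (orderOf_dvd_of_pow_eq_one hyp) (orderOf_dvd_of_pow_eq_one hy12)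
    rw [hcop12.gcd_eq_one, Nat.dvd_one, orderOf_eq_one_iff] at hd
    exact hd

end Fermat.Agent.S41.CSP.TransferBase
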