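/-
S41 / [IH2] (F): the base case `BaseStatement p` of `Descent.lean` (route (R1)) and the resulting
unconditional statement: for an odd prime `p` the kernel of every `LiftData N p D` is trivial.

`TransferBase.ker_eq_bot_of_leaves` (helper6) + `CyclicSylow` (helper18) + `Descent` (helper17).
-/
import Fermat.Agent.S41.CSP.Descent
import Fermat.Agent.S41.CSP.OfHom
import Fermat.Agent.S41.CSP.TransferBase
import Fermat.Agent.S41.CSP.CyclicSylow

set_option autoImplicit false

namespace Fermat.Agent.S41.CSP.Base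

open Fermat.Agent.S41.CSP.Descent

universe u

/-- The cyclic-subgroup leaf, from `CyclicSylow.lean`. -/
theorem cyclicLeaf {p : ℕ} (hp : p.Prime) (hp2 : p ≠ 2) : TransferBase.CyclicLeaf p :=
  fun _ _ hr hrp hf => CyclicSylow.exists_zpowers_index_not_dvd hr hp hp2 (Ne.symm hrp) hf

/-- **BASE for `LiftCore`.** For an odd prime `p` with `p² ∤ N` the kernel of `π` is trivial. -/
theorem ker_trivial_of_liftCore {N p : ℕ} [NeZero N] {D : Type*} [Group D] (C : LiftCore N p D)
    (hp : p.Prime) (hp2 : p ≠ 2) (hN : ¬ p ^ 2 ∣ N) (z : D) (hz : C.π z = 1) : z = 1 :=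
  TransferBase.ker_eq_bot_of_leaves C hp hp2 (cyclicLeaf hp hp2)
    (CyclicSylow.eU_one_zpowers_index_not_dvd hp) hN z hz

/-- The base statement required by `Descent.ker_trivial_of_base`. -/
theorem baseStatement {p : ℕ} (hp : p.Prime) (hp2 : p ≠ 2) : BaseStatement.{u} p :=
  fun _ _ _ _ L hN z hz => ker_trivial_of_liftCore L.toLiftCore hp hp2 hN z hz

/-- **(F), route (R1), unconditional.** For an odd prime `p`, every `LiftData N p D` has trivial
kernel. -/
theorem ker_trivial_of_liftData {N p : ℕ} [NeZero N] {D : Type u} [Group D] (hp : p.Prime)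
    (hp2 : p ≠ 2) (L : LiftData N p D) : ∀ z, L.π z = 1 → z = 1 :=
  ker_trivial_of_base hp hp2 (baseStatement hp hp2) N D L

/-- **(F), final form for the glue.** A `LiftCore N p D` (`p` odd) together with a function
`φ : D → ZMod p` which is additive on the preimage of the upper triangular group, kills the `u t`
and is injective on `ker π`, has trivial kernel. -/
theorem ker_trivial_of_hom {N p : ℕ} [NeZero N] {D : Type u} [Group D] (C : LiftCore N p D)
    (φ : D → ZMod p)
    (φ_mul : ∀ x y, (C.π x).1 1 0 = 0 → (C.π y).1 1 0 = 0 → φ (x * y) = φ x + φ y)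
    (φ_u : ∀ t, φ (C.u t) = 0) (φ_inj : ∀ z, C.π z = 1 → φ z = 0 → z = 1)
    (hp : p.Prime) (hp2 : p ≠ 2) : ∀ z, C.π z = 1 → z = 1 :=
  OfHom.ker_trivial_of_hom C φ φ_mul φ_u φ_inj hp hp2
    fun L _ => ker_trivial_of_liftData hp hp2 L

end Fermat.Agent.S41.CSP.Base
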