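/-
S41 / [IH2]-core.  The elementary number theory (Dirichlet + Fermat's little theorem only).

* `exists_modulus_pow` (for step (B)) : for `a` prime to `M` and a prime `r` there are
  `a' ≡ a (M)` and `k` with `r ∤ k` and `a' ∣ (q^k)² - 1`;
* `Deep q m` and `exists_deep_dvd` (for step (D)) ;
* `exists_deep_multiple` (for step (E)).
-/
import Mathlib

set_option autoImplicit false

namespace Fermat.Agent.S41.CSP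

/-- Dirichlet's theorem, in the shape used here. -/
lemma exists_prime_gt_dvd_sub (B : ℕ) {n : ℕ} (hn : n ≠ 0) {c : ℤ} (hc : IsCoprime c (n : ℤ)) :
    ∃ ℓ : ℕ, B < ℓ ∧ ℓ.Prime ∧ (n : ℤ) ∣ (ℓ : ℤ) - c := by
  obtain ⟨p, hp, hpp, hmod⟩ := Nat.forall_exists_prime_gt_and_zmodEq B hn hc
  exact ⟨p, hp, hpp, hmod.symm.dvd⟩

lemma isCoprime_of_prime_gt {ℓ n : ℕ} (hℓ : ℓ.Prime) (hn : 0 < n) (h : n < ℓ) :
    IsCoprime (ℓ : ℤ) (n : ℤ) := by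
  rw [Nat.isCoprime_iff_coprime, Nat.Prime.coprime_iff_not_dvd hℓ]
  intro hd
  exact absurd (Nat.le_of_dvd hn hd) (not_le.2 h)

/-- For an odd prime `ℓ` not dividing `q`, `ℓ ∣ (q²)^((ℓ-1)/2) - 1`. -/
lemma prime_dvd_sq_pow_half_sub_one {ℓ q : ℕ} (hℓ : ℓ.Prime) (h2 : 2 < ℓ) (hq : 0 < q)
    (hqℓ : q < ℓ) : (ℓ : ℤ) ∣ ((q : ℤ) ^ 2) ^ ((ℓ - 1) / 2) - 1 := by
  have hodd : ℓ % 2 = 1 := by
    rcases hℓ.eq_two_or_odd with h | h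
    · omega
    · exact h
  have h1 : 2 * ((ℓ - 1) / 2) = ℓ - 1 := by omega
  rw [← pow_mul, h1]
  exact Int.prime_dvd_pow_sub_one hℓ (isCoprime_of_prime_gt hℓ hq hqℓ).symm

lemma half_dvd_pred {ℓ : ℕ} (hodd : ℓ % 2 = 1) : (ℓ - 1) / 2 ∣ ℓ - 1 :=
  ⟨2, by omega⟩

/-- **(NT-B)** -/
theorem exists_modulus_pow (q : ℕ) (hq : 0 < q) (M : ℤ) (hM : M ≠ 0) (a : ℤ)
    (ha : IsCoprime a M) (r : ℕ) (hr : r.Prime) :
    ∃ (a' : ℤ) (k : ℕ), M ∣ a' - a ∧ ¬ r ∣ k ∧ a' ∣ ((q : ℤ) ^ k) ^ 2 - 1 := by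
  set N : ℕ := M.natAbs with hN
  have hN0 : N ≠ 0 := Int.natAbs_ne_zero.2 hM
  have hNM : (N : ℤ) ∣ M := Int.natAbs_dvd.2 dvd_rfl
  have hMN : M ∣ (N : ℤ) := Int.dvd_natAbs.2 dvd_rfl
  set Mt : ℕ := 4 * r * N with hMt
  have hMt0 : Mt ≠ 0 := by
    rw [hMt]; exact Nat.mul_ne_zero (Nat.mul_ne_zero (by norm_num) hr.ne_zero) hN0
  have hMtpos : 0 < Mt := Nat.pos_of_ne_zero hMt0
  have hNMt : (N : ℤ) ∣ (Mt : ℤ) := ⟨4 * r, by rw [hMt]; push_cast; ring⟩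
  have h4Mt : (4 : ℤ) ∣ (Mt : ℤ) := ⟨r * N, by rw [hMt]; push_cast; ring⟩
  have hrMt : (r : ℤ) ∣ (Mt : ℤ) := ⟨4 * N, by rw [hMt]; push_cast; ring⟩
  -- the auxiliary prime `P ≡ a (N)`
  have haN : IsCoprime a (N : ℤ) := ha.of_isCoprime_of_dvd_right hNM
  obtain ⟨P, hPgt, hPp, hPa⟩ := exists_prime_gt_dvd_sub (Mt + 4) hN0 haN
  have hPMt : IsCoprime (P : ℤ) (Mt : ℤ) := isCoprime_of_prime_gt hPp hMtpos (by omega)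
  -- a general construction, given `ε` and `ℓ₁`
  have build : ∀ (ε : ℤ) (ℓ₁ : ℕ), ε * ε = 1 → ℓ₁.Prime → Mt + q + 2 < ℓ₁ →
      ∃ (u : ℤ) (ℓ₂ : ℕ), ℓ₂.Prime ∧ ℓ₁ < ℓ₂ ∧ (Mt : ℤ) ∣ u * ℓ₁ - 1 ∧
        (Mt : ℤ) ∣ (ℓ₂ : ℤ) - ε * P * u := by
    intro ε ℓ₁ hε hℓ₁ hℓ₁gt
    have hco : IsCoprime (ℓ₁ : ℤ) (Mt : ℤ) := isCoprime_of_prime_gt hℓ₁ hMtpos (by omega)
    obtain ⟨u, v, huv⟩ := hco
    have hu : (Mt : ℤ) ∣ u * ℓ₁ - 1 := ⟨-v, by linear_combination huv⟩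
    have hεco : IsCoprime ε (Mt : ℤ) := ⟨ε, 0, by rw [zero_mul, add_zero, hε]⟩
    have huco : IsCoprime u (Mt : ℤ) := ⟨ℓ₁, v, by linear_combination huv⟩
    have hcco : IsCoprime (ε * P * u) (Mt : ℤ) := (hεco.mul_left hPMt).mul_left huco
    obtain ⟨ℓ₂, hℓ₂gt, hℓ₂p, hℓ₂c⟩ := exists_prime_gt_dvd_sub ℓ₁ hMt0 hcco
    exact ⟨u, ℓ₂, hℓ₂p, hℓ₂gt, hu, hℓ₂c⟩
  -- the conclusion, given the two primes with the right half-orders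
  have finish : ∀ (ε : ℤ) (ℓ₁ ℓ₂ : ℕ) (u : ℤ), ε * ε = 1 → ℓ₁.Prime → ℓ₂.Prime →
      Mt + q + 2 < ℓ₁ → ℓ₁ < ℓ₂ → (Mt : ℤ) ∣ u * ℓ₁ - 1 → (Mt : ℤ) ∣ (ℓ₂ : ℤ) - ε * P * u →
      ¬ r ∣ (ℓ₁ - 1) / 2 → ¬ r ∣ (ℓ₂ - 1) / 2 →
      ∃ (a' : ℤ) (k : ℕ), M ∣ a' - a ∧ ¬ r ∣ k ∧ a' ∣ ((q : ℤ) ^ k) ^ 2 - 1 := by
    intro ε ℓ₁ ℓ₂ u hε hℓ₁ hℓ₂ hgt h12 hu hc hr1 hr2
    refine ⟨ε * ℓ₁ * ℓ₂, ((ℓ₁ - 1) / 2) * ((ℓ₂ - 1) / 2), ?_, ?_, ?_⟩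
    · -- congruence
      have e : ε * ℓ₁ * ℓ₂ - a = ε * ℓ₁ * ((ℓ₂ : ℤ) - ε * P * u) + (ε * ε) * P * (u * ℓ₁ - 1)
          + (ε * ε - 1) * P + ((P : ℤ) - a) := by ring
      rw [e, hε, sub_self, zero_mul, add_zero]
      refine dvd_add (dvd_add ?_ ?_) ?_
      · exact (hMN.trans hNMt).trans (Dvd.dvd.mul_left hc _)
      · exact (hMN.trans hNMt).trans (Dvd.dvd.mul_left hu _)
      · exact hMN.trans hPa
    · intro h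
      rcases (Nat.Prime.dvd_mul hr).1 h with h | h
      · exact hr1 h
      · exact hr2 h
    · have hd1 : (ℓ₁ : ℤ) ∣ ((q : ℤ) ^ (((ℓ₁ - 1) / 2) * ((ℓ₂ - 1) / 2))) ^ 2 - 1 := by
        have h0 := prime_dvd_sq_pow_half_sub_one hℓ₁ (by omega) hq (by omega : q < ℓ₁)
        have h1 := sub_dvd_pow_sub_pow (((q : ℤ) ^ 2) ^ ((ℓ₁ - 1) / 2)) 1 ((ℓ₂ - 1) / 2)
        rw [one_pow] at h1
        have e : ((q : ℤ) ^ (((ℓ₁ - 1) / 2) * ((ℓ₂ - 1) / 2))) ^ 2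
            = (((q : ℤ) ^ 2) ^ ((ℓ₁ - 1) / 2)) ^ ((ℓ₂ - 1) / 2) := by
          rw [← pow_mul, ← pow_mul, ← pow_mul]; congr 1; ring
        rw [e]; exact h0.trans h1
      have hd2 : (ℓ₂ : ℤ) ∣ ((q : ℤ) ^ (((ℓ₁ - 1) / 2) * ((ℓ₂ - 1) / 2))) ^ 2 - 1 := by
        have h0 := prime_dvd_sq_pow_half_sub_one hℓ₂ (by omega) hq (by omega : q < ℓ₂)
        have h1 := sub_dvd_pow_sub_pow (((q : ℤ) ^ 2) ^ ((ℓ₂ - 1) / 2)) 1 ((ℓ₁ - 1) / 2)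
        rw [one_pow] at h1
        have e : ((q : ℤ) ^ (((ℓ₁ - 1) / 2) * ((ℓ₂ - 1) / 2))) ^ 2
            = (((q : ℤ) ^ 2) ^ ((ℓ₂ - 1) / 2)) ^ ((ℓ₁ - 1) / 2) := by
          rw [← pow_mul, ← pow_mul, ← pow_mul]; congr 1; ring
        rw [e]; exact h0.trans h1
      have hco : IsCoprime (ℓ₁ : ℤ) (ℓ₂ : ℤ) := by
        rw [Nat.isCoprime_iff_coprime, Nat.coprime_primes hℓ₁ hℓ₂]; omega
      have hd : (ℓ₁ : ℤ) * ℓ₂ ∣ ((q : ℤ) ^ (((ℓ₁ - 1) / 2) * ((ℓ₂ - 1) / 2))) ^ 2 - 1 :=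
        hco.mul_dvd hd1 hd2
      have hunit : IsUnit ε := IsUnit.of_mul_eq_one _ hε
      rw [mul_assoc]
      exact (hunit.mul_left_dvd).2 hd
  -- now the two cases
  rcases hr.eq_two_or_odd with hr2 | hrodd
  · -- `r = 2`
    subst hr2
    have hPodd : P % 2 = 1 := by
      rcases hPp.eq_two_or_odd with h | h
      · omega
      · exact h
    obtain ⟨ε, hε, hεP⟩ : ∃ ε : ℤ, ε * ε = 1 ∧ (4 : ℤ) ∣ ε * P - 1 := by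
      have : P % 4 = 1 ∨ P % 4 = 3 := by omega
      rcases this with h | h
      · exact ⟨1, by norm_num, by omega⟩
      · exact ⟨-1, by norm_num, by omega⟩
    have h3co : IsCoprime (3 : ℤ) ((4 : ℕ) : ℤ) := by norm_num
    obtain ⟨ℓ₁, hℓ₁gt, hℓ₁p, hℓ₁3⟩ := exists_prime_gt_dvd_sub (Mt + q + 2) (by norm_num) h3co
    obtain ⟨u, ℓ₂, hℓ₂p, h12, hu, hc⟩ := build ε ℓ₁ hε hℓ₁p hℓ₁gt
    have hℓ₂3 : (4 : ℤ) ∣ (ℓ₂ : ℤ) - 3 := by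
      have hu4 := h4Mt.trans hu
      have hc4 := h4Mt.trans hc
      push_cast at hℓ₁3
      -- `u ≡ 3 (4)`
      have hu3 : (4 : ℤ) ∣ u - 3 := by
        have e : 3 * (u - 3) = (u * ℓ₁ - 1) - u * ((ℓ₁ : ℤ) - 3) - 8 := by ring
        have h3 : (4 : ℤ) ∣ 3 * (u - 3) := by
          rw [e]
          exact dvd_sub (dvd_sub hu4 (Dvd.dvd.mul_left hℓ₁3 _)) ⟨2, by norm_num⟩
        exact (IsCoprime.dvd_of_dvd_mul_left (by norm_num : IsCoprime (4 : ℤ) 3) h3)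
      have e : (ℓ₂ : ℤ) - 3 = ((ℓ₂ : ℤ) - ε * P * u) + (ε * P - 1) * u + (u - 3) := by ring
      rw [e]
      exact dvd_add (dvd_add hc4 (Dvd.dvd.mul_right hεP _)) hu3
    refine finish ε ℓ₁ ℓ₂ u hε hℓ₁p hℓ₂p hℓ₁gt h12 hu hc ?_ ?_
    · push_cast at hℓ₁3; omega
    · omega
  · -- `r` odd
    obtain ⟨ε, hε, hεP⟩ : ∃ ε : ℤ, ε * ε = 1 ∧ ¬ (r : ℤ) ∣ ε * P - 2 := by
      by_cases h : (r : ℤ) ∣ (P : ℤ) - 2
      · refine ⟨-1, by norm_num, ?_⟩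
        intro h'
        have h4 : (r : ℤ) ∣ 4 := by
          have := dvd_add h h'
          have e : ((P : ℤ) - 2) + (-1 * P - 2) = -4 := by ring
          rw [e] at this
          exact (dvd_neg.1 this)
        have h4' : r ∣ 4 := by exact_mod_cast h4
        have : r ∣ 2 ^ 2 := by norm_num; exact h4'
        have := (Nat.prime_dvd_prime_iff_eq hr Nat.prime_two).1 (hr.dvd_of_dvd_pow this)
        omega
      · exact ⟨1, by norm_num, by simpa using h⟩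
    have h2co : IsCoprime (2 : ℤ) (r : ℤ) := by
      have : Nat.Coprime 2 r := by
        rw [Nat.coprime_primes Nat.prime_two hr]; omega
      exact_mod_cast (Nat.isCoprime_iff_coprime.2 this)
    obtain ⟨ℓ₁, hℓ₁gt, hℓ₁p, hℓ₁2⟩ := exists_prime_gt_dvd_sub (Mt + q + 2) hr.ne_zero h2co
    obtain ⟨u, ℓ₂, hℓ₂p, h12, hu, hc⟩ := build ε ℓ₁ hε hℓ₁p hℓ₁gt
    have hr1 : ¬ (r : ℤ) ∣ (ℓ₁ : ℤ) - 1 := by
      intro h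
      have := dvd_sub h hℓ₁2
      have e : ((ℓ₁ : ℤ) - 1) - ((ℓ₁ : ℤ) - 2) = 1 := by ring
      rw [e] at this
      have : r ∣ 1 := by exact_mod_cast this
      exact hr.one_lt.ne' (Nat.dvd_one.1 this)
    have hr2 : ¬ (r : ℤ) ∣ (ℓ₂ : ℤ) - 1 := by
      intro h
      apply hεP
      have hur := hrMt.trans hu
      have hcr := hrMt.trans hc
      have h2u : (r : ℤ) ∣ 2 * u - 1 := by
        have e : 2 * u - 1 = (u * ℓ₁ - 1) - u * ((ℓ₁ : ℤ) - 2) := by ring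
        rw [e]; exact dvd_sub hur (Dvd.dvd.mul_left hℓ₁2 _)
      have hc1 : (r : ℤ) ∣ ε * P * u - 1 := by
        have e : ε * P * u - 1 = ((ℓ₂ : ℤ) - 1) - ((ℓ₂ : ℤ) - ε * P * u) := by ring
        rw [e]; exact dvd_sub h hcr
      have e : ε * P - 2 = 2 * (ε * P * u - 1) - ε * P * (2 * u - 1) := by ring
      rw [e]; exact dvd_sub (Dvd.dvd.mul_left hc1 _) (Dvd.dvd.mul_left h2u _)
    have hodd : ∀ ℓ : ℕ, ℓ.Prime → 2 < ℓ → ¬ (r : ℤ) ∣ (ℓ : ℤ) - 1 → ¬ r ∣ (ℓ - 1) / 2 := by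
      intro ℓ hℓ h2 hnd hd
      apply hnd
      have hoddℓ : ℓ % 2 = 1 := by
        rcases hℓ.eq_two_or_odd with h | h
        · omega
        · exact h
      have : r ∣ ℓ - 1 := hd.trans (half_dvd_pred hoddℓ)
      have h1 : ((ℓ - 1 : ℕ) : ℤ) = (ℓ : ℤ) - 1 := by
        rw [Nat.cast_sub (by omega)]; simp
      rw [← h1]; exact_mod_cast this
    exact finish ε ℓ₁ ℓ₂ u hε hℓ₁p hℓ₂p hℓ₁gt h12 hu hc (hodd ℓ₁ hℓ₁p (by omega) hr1)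
      (hodd ℓ₂ hℓ₂p (by omega) hr2)

end Fermat.Agent.S41.CSP
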