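/-
S41 / [IH2]-core.  Number theory for step (D) and (E): deep levels.

`Deep q m` : `m` is the `m`-primary part of some `q^(2j) - 1`.
* `exists_deep_dvd` : for deep `m` one finds a prime `ℓ` in a prescribed class modulo `α`
  (`α` prime to `m`) with `(q^j₀)² - 1 = w₀ · m · ℓ` and `w₀` prime to `m`.
  (Dirichlet + Fermat's little theorem + a geometric sum; no lifting-the-exponent.)
* `exists_deep_multiple` : every `m` prime to `q` divides a deep `m'` with the same prime factors.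
-/
import Fermat.Agent.S41.CSP.NumberTheory

set_option autoImplicit false

namespace Fermat.Agent.S41.CSP

/-- `m` is *deep* (for `q`) if `q^(2j) = 1 + m c` with `c` prime to `m`, for some `j ≥ 1`. -/
def Deep (q m : ℕ) : Prop := ∃ j c : ℕ, 0 < j ∧ q ^ (2 * j) = 1 + m * c ∧ Nat.Coprime c m

/-- geometric sum congruence: `∑_{i<n} (1 + m c)^i ≡ n (mod m)`. -/
lemma geom_sum_one_add_mul (m c : ℤ) (n : ℕ) :
    ∃ g : ℤ, ∑ i ∈ Finset.range n, (1 + m * c) ^ i = n + m * g := by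
  induction n with
  | zero => exact ⟨0, by simp⟩
  | succ n ih =>
    obtain ⟨g, hg⟩ := ih
    obtain ⟨t, ht⟩ : ∃ t : ℤ, (1 + m * c) ^ n = 1 + m * t := by
      have : m ∣ (1 + m * c) ^ n - 1 := by
        have := sub_dvd_pow_sub_pow (1 + m * c) 1 n
        rw [one_pow] at this
        exact dvd_trans (Dvd.intro c (by ring)) this
      obtain ⟨t, ht⟩ := this
      exact ⟨t, by linear_combination ht⟩
    refine ⟨g + t, ?_⟩
    rw [Finset.sum_range_succ, hg, ht]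
    push_cast
    ring

/-- **(NT-D)** -/
theorem exists_deep_dvd (q m : ℕ) (hq : 0 < q) (hm : 0 < m) (hd : Deep q m)
    (α : ℤ) (hα : α ≠ 0) (hαm : IsCoprime α (m : ℤ)) (β : ℤ) (hβ : IsCoprime β α) :
    ∃ (ℓ j₀ : ℕ) (w₀ : ℤ), α ∣ (ℓ : ℤ) - β ∧ ((q : ℤ) ^ j₀) ^ 2 - 1 = w₀ * ((m : ℤ) * ℓ) ∧
      IsCoprime w₀ (m : ℤ) := by
  obtain ⟨j, c, hj, hjc, hcm⟩ := hd
  -- the auxiliary modulus `m₄`
  set m4 : ℕ := if 2 ∣ m then 4 * m else m with hm4
  have hm4pos : 0 < m4 := by rw [hm4]; split_ifs <;> omega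
  have hmm4 : (m : ℤ) ∣ (m4 : ℤ) := by
    rw [hm4]; split_ifs
    · exact ⟨4, by push_cast; ring⟩
    · exact dvd_rfl
  have hαm4 : IsCoprime α (m4 : ℤ) := by
    rw [hm4]; split_ifs with h2
    · push_cast
      have h2' : (2 : ℤ) ∣ (m : ℤ) := by exact_mod_cast h2
      have hα2 : IsCoprime α (2 : ℤ) := hαm.of_isCoprime_of_dvd_right h2'
      have : IsCoprime α ((2 : ℤ) * 2) := hα2.mul_right hα2
      have h4 : IsCoprime α (4 : ℤ) := by norm_num at this; exact this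
      exact h4.mul_right hαm
    · exact hαm
  -- CRT
  obtain ⟨u, v, huv⟩ := hαm4
  set cc : ℤ := β * (v * m4) - u * α with hcc
  have hc1 : α ∣ cc - β := ⟨-(β + 1) * u, by rw [hcc]; linear_combination β * huv⟩
  have hc2 : (m4 : ℤ) ∣ cc + 1 := ⟨(β + 1) * v, by rw [hcc]; linear_combination (-1 : ℤ) * huv⟩
  have hcα : IsCoprime cc α := by
    obtain ⟨z, hz⟩ := hc1
    have : cc = β + α * z := by linear_combination hz
    rw [this]; exact hβ.add_mul_left_left z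
  have hcm4 : IsCoprime cc (m4 : ℤ) := by
    obtain ⟨z, hz⟩ := hc2
    have : cc = -1 + (m4 : ℤ) * z := by linear_combination hz
    rw [this]
    exact (isCoprime_one_left.neg_left).add_mul_left_left z
  set n0 : ℕ := α.natAbs * m4 with hn0
  have hn0ne : n0 ≠ 0 := Nat.mul_ne_zero (Int.natAbs_ne_zero.2 hα) hm4pos.ne'
  have hcn0 : IsCoprime cc (n0 : ℤ) := by
    rw [hn0, Nat.cast_mul]
    exact (hcα.of_isCoprime_of_dvd_right (Int.natAbs_dvd.2 dvd_rfl)).mul_right hcm4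
  obtain ⟨ℓ, hℓgt, hℓp, hℓc⟩ := exists_prime_gt_dvd_sub (q + m + 2) hn0ne hcn0
  have hαn0 : α ∣ (n0 : ℤ) := by
    rw [hn0, Nat.cast_mul]; exact Dvd.dvd.mul_right (Int.dvd_natAbs.2 dvd_rfl) _
  have hm4n0 : (m4 : ℤ) ∣ (n0 : ℤ) := by
    rw [hn0, Nat.cast_mul]; exact Dvd.intro_left _ rfl
  have hℓβ : α ∣ (ℓ : ℤ) - β := by
    have e : (ℓ : ℤ) - β = ((ℓ : ℤ) - cc) + (cc - β) := by ring
    rw [e]; exact dvd_add (hαn0.trans hℓc) hc1
  have hℓ1 : (m4 : ℤ) ∣ (ℓ : ℤ) + 1 := by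
    have e : (ℓ : ℤ) + 1 = ((ℓ : ℤ) - cc) + (cc + 1) := by ring
    rw [e]; exact dvd_add (hm4n0.trans hℓc) hc2
  have hℓodd : ℓ % 2 = 1 := by
    rcases hℓp.eq_two_or_odd with h | h
    · omega
    · exact h
  set n : ℕ := (ℓ - 1) / 2 with hn
  have h2n : 2 * n = ℓ - 1 := by omega
  -- `n` is prime to `m`
  have hnm : Nat.Coprime n m := by
    apply Nat.coprime_of_dvd
    intro r hr hrn hrm
    have hrm' : (r : ℤ) ∣ (m : ℤ) := by exact_mod_cast hrm
    have hr1 : (r : ℤ) ∣ (ℓ : ℤ) + 1 := (hrm'.trans hmm4).trans hℓ1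
    have hr2 : (r : ℤ) ∣ (ℓ : ℤ) - 1 := by
      have : r ∣ ℓ - 1 := by rw [← h2n]; exact Dvd.dvd.mul_left hrn 2
      have h1 : ((ℓ - 1 : ℕ) : ℤ) = (ℓ : ℤ) - 1 := by
        rw [Nat.cast_sub (by omega)]; simp
      rw [← h1]; exact_mod_cast this
    have h2 : (r : ℤ) ∣ 2 := by
      have := dvd_sub hr1 hr2
      have e : ((ℓ : ℤ) + 1) - ((ℓ : ℤ) - 1) = 2 := by ring
      rwa [e] at this
    have hr2' : r = 2 := by
      have : r ∣ 2 := by exact_mod_cast h2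
      exact (Nat.prime_dvd_prime_iff_eq hr Nat.prime_two).1 this
    subst hr2'
    have h4 : (4 : ℤ) ∣ (ℓ : ℤ) + 1 := by
      have : m4 = 4 * m := by rw [hm4, if_pos hrm]
      have h4m4 : (4 : ℤ) ∣ (m4 : ℤ) := ⟨m, by rw [this]; push_cast; ring⟩
      exact h4m4.trans hℓ1
    omega
  -- the power
  refine ⟨ℓ, j * n, ?_⟩
  have hX : ((q : ℤ) ^ (j * n)) ^ 2 = (1 + (m : ℤ) * c) ^ n := by
    have : ((q : ℤ) ^ (2 * j)) = 1 + (m : ℤ) * c := by exact_mod_cast hjc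
    rw [← this, ← pow_mul, ← pow_mul]; congr 1; ring
  obtain ⟨g, hg⟩ := geom_sum_one_add_mul (m : ℤ) (c : ℤ) n
  have hgeom : (1 + (m : ℤ) * c) ^ n - 1 = ((n : ℤ) + m * g) * ((m : ℤ) * c) := by
    have := geom_sum_mul (1 + (m : ℤ) * c) n
    rw [hg] at this
    rw [← this]; ring
  -- Fermat
  have hℓdvd : (ℓ : ℤ) ∣ ((q : ℤ) ^ (j * n)) ^ 2 - 1 := by
    have h0 : (ℓ : ℤ) ∣ (q : ℤ) ^ (ℓ - 1) - 1 :=
      Int.prime_dvd_pow_sub_one hℓp (isCoprime_of_prime_gt hℓp hq (by omega)).symm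
    have h1 := sub_dvd_pow_sub_pow ((q : ℤ) ^ (ℓ - 1)) 1 j
    rw [one_pow] at h1
    have e : ((q : ℤ) ^ (j * n)) ^ 2 = ((q : ℤ) ^ (ℓ - 1)) ^ j := by
      rw [← h2n, ← pow_mul, ← pow_mul]; congr 1; ring
    rw [e]; exact h0.trans h1
  have hGm : IsCoprime ((n : ℤ) + m * g) (m : ℤ) :=
    (Nat.isCoprime_iff_coprime.2 hnm).add_mul_left_left g
  have hcm' : IsCoprime (c : ℤ) (m : ℤ) := Nat.isCoprime_iff_coprime.2 hcm
  have hGc : IsCoprime (((n : ℤ) + m * g) * c) (m : ℤ) := hGm.mul_left hcm'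
  have hℓm : IsCoprime (ℓ : ℤ) (m : ℤ) := isCoprime_of_prime_gt hℓp hm (by omega)
  have hℓGc : (ℓ : ℤ) ∣ ((n : ℤ) + m * g) * c := by
    have : (ℓ : ℤ) ∣ (((n : ℤ) + m * g) * c) * m := by
      have e : (((n : ℤ) + m * g) * c) * m = ((q : ℤ) ^ (j * n)) ^ 2 - 1 := by
        rw [hX, hgeom]; ring
      rw [e]; exact hℓdvd
    exact hℓm.dvd_of_dvd_mul_right this
  obtain ⟨w₀, hw₀⟩ := hℓGc
  refine ⟨w₀, hℓβ, ?_, ?_⟩
  · rw [hX, hgeom]
    linear_combination (m : ℤ) * hw₀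
  · exact hGc.of_isCoprime_of_dvd_left ⟨ℓ, by rw [hw₀]; ring⟩

/-- primary decomposition of `T` with respect to `m`. -/
lemma exists_primary_decomp (m : ℕ) : ∀ T : ℕ, 0 < T →
    ∃ a c : ℕ, T = a * c ∧ (∀ r : ℕ, r.Prime → r ∣ a → r ∣ m) ∧ Nat.Coprime c m := by
  intro T
  induction T using Nat.strong_induction_on with
  | _ T ih =>
    intro hT
    by_cases hco : Nat.Coprime T m
    · exact ⟨1, T, by ring, fun r hr h1 => absurd (Nat.dvd_one.1 h1) hr.one_lt.ne', hco⟩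
    · set g := Nat.gcd T m with hg
      have hg1 : g ≠ 1 := hco
      have hg0 : 0 < g := Nat.gcd_pos_of_pos_left m hT
      have hgT : g ∣ T := Nat.gcd_dvd_left T m
      obtain ⟨T', hT'⟩ := hgT
      have hT'pos : 0 < T' := by
        rcases Nat.eq_zero_or_pos T' with h | h
        · rw [h, mul_zero] at hT'; omega
        · exact h
      have hlt : T' < T := by
        have hg2 : 2 ≤ g := by omega
        calc T' < 2 * T' := by omega
          _ ≤ g * T' := Nat.mul_le_mul_right _ hg2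
          _ = T := hT'.symm
      obtain ⟨a', c', h1, h2, h3⟩ := ih T' hlt hT'pos
      refine ⟨g * a', c', by rw [hT', h1]; ring, ?_, h3⟩
      intro r hr hra
      rcases (Nat.Prime.dvd_mul hr).1 hra with h | h
      · exact h.trans (Nat.gcd_dvd_right T m)
      · exact h2 r hr h

/-- **(NT-E)** every `m` prime to `q` divides a deep `m'` with the same prime factors. -/
theorem exists_deep_multiple (q m : ℕ) (hq : 1 < q) (hm : 0 < m) (hqm : Nat.Coprime q m) :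
    ∃ m' : ℕ, 0 < m' ∧ m ∣ m' ∧ (∀ r : ℕ, r.Prime → r ∣ m' → r ∣ m) ∧ Nat.Coprime q m' ∧
      Deep q m' := by
  set j := Nat.totient m with hj
  have hjpos : 0 < j := Nat.totient_pos.2 hm
  have hmod : q ^ (2 * j) ≡ 1 [MOD m] := by
    have h := Nat.ModEq.pow_totient hqm
    have h2 := h.pow 2
    rw [one_pow, ← pow_mul, mul_comm] at h2
    exact h2
  have hge : 1 < q ^ (2 * j) := Nat.one_lt_pow (by omega) hq
  have hdvd : m ∣ q ^ (2 * j) - 1 := (Nat.modEq_iff_dvd' hge.le).1 hmod.symm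
  obtain ⟨a, c, hT, hprimes, hcm⟩ := exists_primary_decomp m (q ^ (2 * j) - 1) (by omega)
  have hapos : 0 < a := by
    rcases Nat.eq_zero_or_pos a with h | h
    · rw [h, zero_mul] at hT; omega
    · exact h
  have hma : m ∣ a := by
    rw [hT] at hdvd
    exact (Nat.Coprime.dvd_of_dvd_mul_right hcm.symm hdvd)
  have hca : Nat.Coprime c a := by
    apply Nat.coprime_of_dvd
    intro r hr hrc hra
    have hrm := hprimes r hr hra
    have := Nat.dvd_gcd hrc hrm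
    rw [hcm] at this
    exact hr.one_lt.ne' (Nat.dvd_one.1 this)
  have hqa : Nat.Coprime q a := by
    apply Nat.coprime_of_dvd
    intro r hr hrq hra
    have hrm := hprimes r hr hra
    have := Nat.dvd_gcd hrq hrm
    rw [hqm] at this
    exact hr.one_lt.ne' (Nat.dvd_one.1 this)
  exact ⟨a, hapos, hma, hprimes, hqa, j, c, hjpos, by omega, hca⟩

end Fermat.Agent.S41.CSP
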