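/-
S41 / [IH2]-core.  Arithmetic of `A = ℤ[1/q]` (any model: `IsLocalization.Away (q : ℤ) A`).

* `qU q A : Aˣ` : the unit `q`;
* `exists_int_mul_pow` : every `x : A` is `n / q^k`;
* `intCast_inj'` : `ℤ → A` is injective;
* `exists_int_sub_dvd` : for `M` prime to `q` every `x : A` is congruent to an integer mod `M`;
* `int_dvd_of_dvd` : for `M` prime to `q`, `(M : A) ∣ (n : A) → M ∣ n`;
* `exists_unit_mul_int` : every nonzero `x : A` is a unit times an integer prime to `q`.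
-/
import Mathlib

set_option autoImplicit false

namespace Fermat.Agent.S41.CSP

/-- The unit `q` of `A = ℤ[1/q]`. -/
noncomputable def qU (q : ℕ) (A : Type*) [CommRing A] [Algebra ℤ A]
    [IsLocalization.Away (q : ℤ) A] : Aˣ :=
  (show IsUnit ((q : ℤ) : A) by
    have := IsLocalization.Away.algebraMap_isUnit (S := A) (q : ℤ)
    rwa [eq_intCast (algebraMap ℤ A)] at this).unit

@[simp] lemma qU_val (q : ℕ) (A : Type*) [CommRing A] [Algebra ℤ A]
    [IsLocalization.Away (q : ℤ) A] : ((qU q A : Aˣ) : A) = (q : A) := by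
  unfold qU
  rw [IsUnit.unit_spec]
  push_cast
  rfl

lemma exists_int_mul_pow (q : ℕ) {A : Type*} [CommRing A] [Algebra ℤ A]
    [IsLocalization.Away (q : ℤ) A] (x : A) :
    ∃ (n : ℤ) (k : ℕ), x * (q : A) ^ k = (n : A) := by
  obtain ⟨k, n, h⟩ := IsLocalization.Away.surj (q : ℤ) x
  rw [eq_intCast (algebraMap ℤ A), eq_intCast (algebraMap ℤ A)] at h
  exact ⟨n, k, by rw [← h]; push_cast; rfl⟩

lemma intCast_inj' (q : ℕ) (hq : q ≠ 0) {A : Type*} [CommRing A] [Algebra ℤ A]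
    [IsLocalization.Away (q : ℤ) A] {a b : ℤ} (h : (a : A) = (b : A)) : a = b := by
  have h' : algebraMap ℤ A a = algebraMap ℤ A b := by
    rw [eq_intCast (algebraMap ℤ A), eq_intCast (algebraMap ℤ A)]; exact h
  obtain ⟨n, hn⟩ := IsLocalization.Away.exists_of_eq (S := A) (q : ℤ) h'
  have hq0 : ((q : ℤ) ^ n) ≠ 0 := pow_ne_zero _ (by exact_mod_cast hq)
  exact mul_left_cancel₀ hq0 hn

/-- every element of `A` is congruent to an integer modulo `M` (prime to `q`). -/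
lemma exists_int_sub_dvd (q : ℕ) {A : Type*} [CommRing A] [Algebra ℤ A]
    [IsLocalization.Away (q : ℤ) A] {M : ℤ} (hM : IsCoprime M (q : ℤ)) (x : A) :
    ∃ n : ℤ, (M : A) ∣ x - (n : A) := by
  obtain ⟨n₀, k, hk⟩ := exists_int_mul_pow q x
  obtain ⟨g, h, hgh⟩ := (hM.pow_right : IsCoprime M ((q : ℤ) ^ k))
  refine ⟨h * n₀, x * g, ?_⟩
  have hgh' : (g : A) * (M : A) + (h : A) * (q : A) ^ k = 1 := by
    have := congrArg (fun z : ℤ => (z : A)) hgh
    push_cast at this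
    exact this
  push_cast
  rw [← hk]
  linear_combination (-x) * hgh'

/-- divisibility of integers can be tested in `A`, for moduli prime to `q`. -/
lemma int_dvd_of_dvd (q : ℕ) (hq : q ≠ 0) {A : Type*} [CommRing A] [Algebra ℤ A]
    [IsLocalization.Away (q : ℤ) A] {M : ℤ} (hM : IsCoprime M (q : ℤ)) {n : ℤ}
    (h : (M : A) ∣ (n : A)) : M ∣ n := by
  obtain ⟨y, hy⟩ := h
  obtain ⟨y₀, k, hk⟩ := exists_int_mul_pow q y
  have h1 : ((n * (q : ℤ) ^ k : ℤ) : A) = ((M * y₀ : ℤ) : A) := by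
    push_cast
    rw [hy, ← hk]; ring
  have h2 := intCast_inj' q hq h1
  have h3 : M ∣ n * (q : ℤ) ^ k := ⟨y₀, h2⟩
  exact (hM.pow_right : IsCoprime M ((q : ℤ) ^ k)).dvd_of_dvd_mul_right h3

/-- every nonzero element of `A` is a unit times an integer prime to `q`. -/
lemma exists_unit_mul_int (q : ℕ) (hq : q.Prime) {A : Type*} [CommRing A] [Algebra ℤ A]
    [IsLocalization.Away (q : ℤ) A] {x : A} (hx : x ≠ 0) :
    ∃ (v : Aˣ) (n : ℤ), n ≠ 0 ∧ IsCoprime n (q : ℤ) ∧ x = (v : A) * (n : A) := by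
  obtain ⟨n₁, k, hk⟩ := exists_int_mul_pow q x
  have hqk : (q : A) ^ k = (((qU q A) ^ k : Aˣ) : A) := by simp
  have hn₁ : n₁ ≠ 0 := by
    rintro rfl
    apply hx
    rw [hqk, Int.cast_zero] at hk
    exact (Units.mul_left_eq_zero _).1 hk
  have hfin : FiniteMultiplicity (q : ℤ) n₁ := by
    rw [Int.finiteMultiplicity_iff]
    exact ⟨by simpa using hq.ne_one, hn₁⟩
  obtain ⟨c, hc, hqc⟩ := hfin.exists_eq_pow_mul_and_not_dvd
  set e := multiplicity (q : ℤ) n₁
  have hc0 : c ≠ 0 := by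
    rintro rfl; apply hn₁; rw [hc, mul_zero]
  have hcq : IsCoprime c (q : ℤ) := by
    have hp : Prime (q : ℤ) := Nat.prime_iff_prime_int.1 hq
    exact ((hp.irreducible.coprime_iff_not_dvd).2 hqc).symm
  refine ⟨((qU q A) ^ k)⁻¹ * (qU q A) ^ e, c, hc0, hcq, ?_⟩
  have h1 : x = ((((qU q A) ^ k)⁻¹ : Aˣ) : A) * (n₁ : A) := by
    rw [← hk, hqk, mul_comm x, ← mul_assoc, Units.inv_mul, one_mul]
  rw [h1, hc]
  push_cast
  rw [qU_val]
  ring

end Fermat.Agent.S41.CSP
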