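/-
S41 / [IH2]-core.  Congruence-subgroup arithmetic for `SL₂(A)`.

Generic part (any commutative ring `A`, any ideal `I`):
* `e12 x`, `e21 y`, `hd u`, `wm` : elementary / diagonal / Weyl matrices;
* `Elem I` : the normal closure of `{e12 x | x ∈ I}`;
* `Gam I`  : the principal congruence subgroup (entrywise);
* `pr I`   : the projection `SL₂(A) → SL₂(A) ⧸ Elem I`;
* (R) `pr_eq_of_row` : the class of `x ∈ Gam I` depends only on the first row;
* (A) `pr_hd` : `hd u ∈ Elem I` for units `u ≡ 1 (I)`.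
-/
import Mathlib

set_option autoImplicit false

open Matrix

namespace Fermat.Agent.S41.CSP

/-- `SL₂(A)`. -/
abbrev SL2 (A : Type*) [CommRing A] := Matrix.SpecialLinearGroup (Fin 2) A

variable {A : Type*} [CommRing A]

/-! ### entries -/

lemma SL2.ext4 {x y : SL2 A} (h00 : x 0 0 = y 0 0) (h01 : x 0 1 = y 0 1)
    (h10 : x 1 0 = y 1 0) (h11 : x 1 1 = y 1 1) : x = y := by
  apply Matrix.SpecialLinearGroup.ext
  intro i j
  fin_cases i <;> fin_cases j <;> assumption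

lemma SL2.det_eq (x : SL2 A) : x 0 0 * x 1 1 - x 0 1 * x 1 0 = 1 := by
  have := x.2
  rw [Matrix.det_fin_two] at this
  exact this

@[simp] lemma SL2.mul_00 (x y : SL2 A) : (x * y) 0 0 = x 0 0 * y 0 0 + x 0 1 * y 1 0 := by
  simp [Matrix.SpecialLinearGroup.coe_mul, Matrix.mul_apply, Fin.sum_univ_two]
@[simp] lemma SL2.mul_01 (x y : SL2 A) : (x * y) 0 1 = x 0 0 * y 0 1 + x 0 1 * y 1 1 := by
  simp [Matrix.SpecialLinearGroup.coe_mul, Matrix.mul_apply, Fin.sum_univ_two]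
@[simp] lemma SL2.mul_10 (x y : SL2 A) : (x * y) 1 0 = x 1 0 * y 0 0 + x 1 1 * y 1 0 := by
  simp [Matrix.SpecialLinearGroup.coe_mul, Matrix.mul_apply, Fin.sum_univ_two]
@[simp] lemma SL2.mul_11 (x y : SL2 A) : (x * y) 1 1 = x 1 0 * y 0 1 + x 1 1 * y 1 1 := by
  simp [Matrix.SpecialLinearGroup.coe_mul, Matrix.mul_apply, Fin.sum_univ_two]

@[simp] lemma SL2.inv_00 (x : SL2 A) : (x⁻¹) 0 0 = x 1 1 := by
  rw [Matrix.SpecialLinearGroup.SL2_inv_expl]; rfl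
@[simp] lemma SL2.inv_01 (x : SL2 A) : (x⁻¹) 0 1 = - x 0 1 := by
  rw [Matrix.SpecialLinearGroup.SL2_inv_expl]; rfl
@[simp] lemma SL2.inv_10 (x : SL2 A) : (x⁻¹) 1 0 = - x 1 0 := by
  rw [Matrix.SpecialLinearGroup.SL2_inv_expl]; rfl
@[simp] lemma SL2.inv_11 (x : SL2 A) : (x⁻¹) 1 1 = x 0 0 := by
  rw [Matrix.SpecialLinearGroup.SL2_inv_expl]; rfl

@[simp] lemma SL2.one_00 : (1 : SL2 A) 0 0 = 1 := by simp
@[simp] lemma SL2.one_01 : (1 : SL2 A) 0 1 = 0 := by simp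
@[simp] lemma SL2.one_10 : (1 : SL2 A) 1 0 = 0 := by simp
@[simp] lemma SL2.one_11 : (1 : SL2 A) 1 1 = 1 := by simp

/-! ### special elements -/

/-- upper elementary matrix -/
def e12 (x : A) : SL2 A := ⟨!![1, x; 0, 1], by simp [Matrix.det_fin_two_of]⟩
/-- lower elementary matrix -/
def e21 (y : A) : SL2 A := ⟨!![1, 0; y, 1], by simp [Matrix.det_fin_two_of]⟩
/-- diagonal matrix `diag(u, u⁻¹)` -/
def hd (u : Aˣ) : SL2 A := ⟨!![(u : A), 0; 0, ((u⁻¹ : Aˣ) : A)], by simp [Matrix.det_fin_two_of]⟩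
/-- Weyl element -/
def wm : SL2 A := ⟨!![0, 1; -1, 0], by simp [Matrix.det_fin_two_of]⟩

@[simp] lemma e12_00 (x : A) : e12 x 0 0 = 1 := rfl
@[simp] lemma e12_01 (x : A) : e12 x 0 1 = x := rfl
@[simp] lemma e12_10 (x : A) : e12 x 1 0 = 0 := rfl
@[simp] lemma e12_11 (x : A) : e12 x 1 1 = 1 := rfl
@[simp] lemma e21_00 (x : A) : e21 x 0 0 = 1 := rfl
@[simp] lemma e21_01 (x : A) : e21 x 0 1 = 0 := rfl
@[simp] lemma e21_10 (x : A) : e21 x 1 0 = x := rfl
@[simp] lemma e21_11 (x : A) : e21 x 1 1 = 1 := rfl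
@[simp] lemma hd_00 (u : Aˣ) : hd u 0 0 = (u : A) := rfl
@[simp] lemma hd_01 (u : Aˣ) : hd u 0 1 = 0 := rfl
@[simp] lemma hd_10 (u : Aˣ) : hd u 1 0 = 0 := rfl
@[simp] lemma hd_11 (u : Aˣ) : hd u 1 1 = ((u⁻¹ : Aˣ) : A) := rfl
@[simp] lemma wm_00 : (wm : SL2 A) 0 0 = 0 := rfl
@[simp] lemma wm_01 : (wm : SL2 A) 0 1 = 1 := rfl
@[simp] lemma wm_10 : (wm : SL2 A) 1 0 = -1 := rfl
@[simp] lemma wm_11 : (wm : SL2 A) 1 1 = 0 := rfl

lemma e12_add (x y : A) : e12 (x + y) = e12 x * e12 y := by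
  apply SL2.ext4 <;> simp [add_comm]
lemma e21_add (x y : A) : e21 (x + y) = e21 x * e21 y := by
  apply SL2.ext4 <;> simp [add_comm]
@[simp] lemma e12_zero : e12 (0 : A) = 1 := by apply SL2.ext4 <;> simp
@[simp] lemma e21_zero : e21 (0 : A) = 1 := by apply SL2.ext4 <;> simp
lemma e12_neg (x : A) : e12 (-x) = (e12 x)⁻¹ := by apply SL2.ext4 <;> simp
lemma e21_neg (x : A) : e21 (-x) = (e21 x)⁻¹ := by apply SL2.ext4 <;> simp
lemma hd_mul (u v : Aˣ) : hd (u * v) = hd u * hd v := by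
  apply SL2.ext4 <;> simp [mul_comm]
@[simp] lemma hd_one : hd (1 : Aˣ) = 1 := by apply SL2.ext4 <;> simp
lemma hd_inv (u : Aˣ) : hd u⁻¹ = (hd u)⁻¹ := by apply SL2.ext4 <;> simp

/-- `e21 y = w · e12 (-y) · w⁻¹`. -/
lemma e21_eq_conj (y : A) : e21 y = wm * e12 (-y) * wm⁻¹ := by
  apply SL2.ext4 <;> simp

/-- `e12 y = w⁻¹ · e21 (-y) · w`. -/
lemma e12_eq_conj (y : A) : e12 y = wm⁻¹ * e21 (-y) * wm := by
  apply SL2.ext4 <;> simp

/-- `w(u) = e12 u · e21 (-u⁻¹) · e12 u = [[0,u],[-u⁻¹,0]]` and `hd u = w(u) w(1)⁻¹`. -/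
lemma hd_eq (u : Aˣ) :
    hd u = (e12 (u : A) * e21 (-((u⁻¹ : Aˣ) : A)) * e12 (u : A)) *
      (e12 (1 : A) * e21 (-1 : A) * e12 (1 : A))⁻¹ := by
  apply SL2.ext4 <;> simp

/-! ### the subgroups -/

/-- The normal closure of the upper elementary matrices with entry in `I`. -/
def Elem (I : Ideal A) : Subgroup (SL2 A) :=
  Subgroup.normalClosure {g | ∃ x ∈ I, g = e12 x}

instance (I : Ideal A) : (Elem I).Normal := Subgroup.normalClosure_normal

/-- The principal congruence subgroup of level `I`. -/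
def Gam (I : Ideal A) : Subgroup (SL2 A) :=
  (Matrix.SpecialLinearGroup.map (Ideal.Quotient.mk I)).ker

instance (I : Ideal A) : (Gam I).Normal := MonoidHom.normal_ker _

lemma mem_Gam_iff {I : Ideal A} {x : SL2 A} :
    x ∈ Gam I ↔ x 0 0 - 1 ∈ I ∧ x 0 1 ∈ I ∧ x 1 0 ∈ I ∧ x 1 1 - 1 ∈ I := by
  unfold Gam
  rw [MonoidHom.mem_ker]
  constructor
  · intro h
    have h' : ∀ i j, (Matrix.SpecialLinearGroup.map (Ideal.Quotient.mk I) x) i j
        = (1 : SL2 (A ⧸ I)) i j := by rw [h]; intro i j; rfl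
    have e00 := h' 0 0
    have e01 := h' 0 1
    have e10 := h' 1 0
    have e11 := h' 1 1
    simp only [Matrix.SpecialLinearGroup.map_apply_coe, RingHom.mapMatrix_apply, Matrix.map_apply,
      SL2.one_00, SL2.one_01, SL2.one_10, SL2.one_11] at e00 e01 e10 e11
    refine ⟨?_, ?_, ?_, ?_⟩
    · rw [← Ideal.Quotient.eq_zero_iff_mem, map_sub, e00, map_one, sub_self]
    · rw [← Ideal.Quotient.eq_zero_iff_mem, e01]
    · rw [← Ideal.Quotient.eq_zero_iff_mem, e10]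
    · rw [← Ideal.Quotient.eq_zero_iff_mem, map_sub, e11, map_one, sub_self]
  · rintro ⟨h00, h01, h10, h11⟩
    apply SL2.ext4
    · simp only [Matrix.SpecialLinearGroup.map_apply_coe, RingHom.mapMatrix_apply, Matrix.map_apply,
        SL2.one_00]
      rw [← sub_eq_zero, ← map_one (Ideal.Quotient.mk I), ← map_sub,
        Ideal.Quotient.eq_zero_iff_mem]; exact h00
    · simp only [Matrix.SpecialLinearGroup.map_apply_coe, RingHom.mapMatrix_apply, Matrix.map_apply,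
        SL2.one_01]
      rw [Ideal.Quotient.eq_zero_iff_mem]; exact h01
    · simp only [Matrix.SpecialLinearGroup.map_apply_coe, RingHom.mapMatrix_apply, Matrix.map_apply,
        SL2.one_10]
      rw [Ideal.Quotient.eq_zero_iff_mem]; exact h10
    · simp only [Matrix.SpecialLinearGroup.map_apply_coe, RingHom.mapMatrix_apply, Matrix.map_apply,
        SL2.one_11]
      rw [← sub_eq_zero, ← map_one (Ideal.Quotient.mk I), ← map_sub,
        Ideal.Quotient.eq_zero_iff_mem]; exact h11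

lemma e12_mem_Gam {I : Ideal A} {x : A} (hx : x ∈ I) : e12 x ∈ Gam I := by
  rw [mem_Gam_iff]; simp [hx]

lemma e21_mem_Gam {I : Ideal A} {x : A} (hx : x ∈ I) : e21 x ∈ Gam I := by
  rw [mem_Gam_iff]; simp [hx]

lemma Elem_le_Gam (I : Ideal A) : Elem I ≤ Gam I := by
  apply Subgroup.normalClosure_le_normal
  rintro g ⟨x, hx, rfl⟩
  exact e12_mem_Gam hx

/-- The projection to `SL₂(A) ⧸ Elem I`. -/
def pr (I : Ideal A) : SL2 A →* SL2 A ⧸ Elem I := QuotientGroup.mk' (Elem I)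

lemma pr_eq_one_iff {I : Ideal A} {x : SL2 A} : pr I x = 1 ↔ x ∈ Elem I := by
  unfold pr
  rw [QuotientGroup.mk'_apply, QuotientGroup.eq_one_iff]

lemma pr_e12 {I : Ideal A} {x : A} (hx : x ∈ I) : pr I (e12 x) = 1 :=
  pr_eq_one_iff.2 (Subgroup.subset_normalClosure ⟨x, hx, rfl⟩)

lemma pr_e21 {I : Ideal A} {x : A} (hx : x ∈ I) : pr I (e21 x) = 1 := by
  rw [e21_eq_conj, map_mul, map_mul, pr_e12 (I.neg_mem hx), mul_one, ← map_mul, mul_inv_cancel,
    map_one]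

/-- **(R)** the class of an element of `Gam I` modulo `Elem I` depends only on its first row. -/
lemma pr_eq_of_row {I : Ideal A} {x y : SL2 A} (hx : x ∈ Gam I) (hy : y ∈ Gam I)
    (h0 : x 0 0 = y 0 0) (h1 : x 0 1 = y 0 1) : pr I x = pr I y := by
  have key : y = e21 (y 1 0 * x 1 1 - y 1 1 * x 1 0) * x := by
    have dx := SL2.det_eq x
    have dy := SL2.det_eq y
    apply SL2.ext4
    · simp [h0]
    · simp [h1]
    · simp only [SL2.mul_10, e21_10, e21_11]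
      rw [← h0, ← h1] at dy
      linear_combination (-(y 1 0)) * dx + (x 1 0) * dy
    · simp only [SL2.mul_11, e21_10, e21_11]
      rw [← h0, ← h1] at dy
      linear_combination (-(y 1 1)) * dx + (x 1 1) * dy
  rw [mem_Gam_iff] at hx hy
  have hmem : y 1 0 * x 1 1 - y 1 1 * x 1 0 ∈ I :=
    I.sub_mem (I.mul_mem_right _ hy.2.2.1) (I.mul_mem_left _ hx.2.2.1)
  rw [key, map_mul, pr_e21 hmem, one_mul]

/-- **(A)** `diag(u, u⁻¹) ∈ Elem I` for every unit `u ≡ 1 (mod I)`. -/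
lemma pr_hd {I : Ideal A} {u : Aˣ} (hu : (u : A) - 1 ∈ I) : pr I (hd u) = 1 := by
  have hu' : 1 - ((u⁻¹ : Aˣ) : A) ∈ I := by
    have : 1 - ((u⁻¹ : Aˣ) : A) = ((u⁻¹ : Aˣ) : A) * ((u : A) - 1) := by
      rw [mul_sub, mul_one, Units.inv_mul]
    rw [this]; exact I.mul_mem_left _ hu
  have h1 : e12 (u : A) = e12 (1 : A) * e12 ((u : A) - 1) := by
    rw [← e12_add]; congr 1; ring
  have h2 : e21 (-((u⁻¹ : Aˣ) : A)) = e21 (-1 : A) * e21 (1 - ((u⁻¹ : Aˣ) : A)) := by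
    rw [← e21_add]; congr 1; ring
  rw [hd_eq, map_mul, map_mul, map_mul, h1, h2, map_mul, map_mul, pr_e12 hu, pr_e21 hu', mul_one,
    mul_one, ← map_mul, ← map_mul, ← map_mul, mul_inv_cancel, map_one]

lemma hd_mem_Gam {I : Ideal A} {u : Aˣ} (hu : (u : A) - 1 ∈ I) : hd u ∈ Gam I :=
  Elem_le_Gam I (pr_eq_one_iff.1 (pr_hd hu))

end Fermat.Agent.S41.CSP
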