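/-
S41 / [IH2]-core.  Generic moves on classes modulo `Elem I` (any commutative ring).

* `CentGam I` : the subgroup of `SL₂(A)` whose image centralises the image of `Gam I`
  in `SL₂(A) ⧸ Elem I`;
* (B1) `pr_hd_conj` : a sufficient criterion for `hd v` to fix the class of `x`;
* (C) `pr_eq_of_row_sq` : `(a, b) ∼ (v² a, b)` when `hd v` is central and `v² ≡ 1 (I)`;
* (D-core) `pr_e21_conj` : a lower elementary matrix that fixes the class of `x`;
* `LowStab I x` : the additive subgroup of `s` with `e21 s` fixing the class of `x`.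
-/
import Fermat.Agent.S41.CSP.Basic

set_option autoImplicit false

open Matrix

namespace Fermat.Agent.S41.CSP

variable {A : Type*} [CommRing A] {I : Ideal A}

/-- The elements of `SL₂(A)` whose class centralises the image of `Gam I` in the quotient. -/
def CentGam (I : Ideal A) : Subgroup (SL2 A) :=
  (Subgroup.centralizer (((Gam I).map (pr I) : Subgroup (SL2 A ⧸ Elem I)) : Set _)).comap (pr I)

lemma mem_CentGam_iff {g : SL2 A} :
    g ∈ CentGam I ↔ ∀ x ∈ Gam I, pr I (g * x * g⁻¹) = pr I x := by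
  unfold CentGam
  rw [Subgroup.mem_comap, Subgroup.mem_centralizer_iff]
  constructor
  · intro h x hx
    have := h (pr I x) (Subgroup.mem_map_of_mem _ hx)
    rw [map_mul, map_mul, map_inv, ← this, mul_inv_cancel_right]
  · rintro h _ ⟨x, hx, rfl⟩
    have := h x hx
    rw [map_mul, map_mul, map_inv, mul_inv_eq_iff_eq_mul] at this
    exact this.symm

lemma Elem_le_CentGam : Elem I ≤ CentGam I := by
  intro g hg
  rw [mem_CentGam_iff]
  intro x _
  rw [map_mul, map_mul, map_inv, pr_eq_one_iff.2 hg, one_mul, inv_one, mul_one]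

/-- conjugation by `hd v` -/
lemma hd_conj_00 (v : Aˣ) (x : SL2 A) : (hd v * x * (hd v)⁻¹) 0 0 = x 0 0 := by
  simp only [SL2.mul_00, SL2.mul_01, hd_00, hd_01, hd_10, hd_11, SL2.inv_00, SL2.inv_10]
  have := v.mul_inv
  linear_combination (x 0 0) * this

lemma hd_conj_01 (v : Aˣ) (x : SL2 A) : (hd v * x * (hd v)⁻¹) 0 1 = (v : A) ^ 2 * x 0 1 := by
  simp only [SL2.mul_00, SL2.mul_01, hd_00, hd_01, SL2.inv_01, SL2.inv_11]
  ring

/-- **(B1)** if `v² ≡ 1` modulo `a' = a + s b` for some `s ∈ I`, then conjugation by `hd v`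
fixes the class of `x ∈ Gam I` (first row `(a, b)`). -/
lemma pr_hd_conj {x : SL2 A} (hx : x ∈ Gam I) (v : Aˣ) (s z : A) (hs : s ∈ I)
    (hv : (v : A) ^ 2 = 1 + (x 0 0 + s * x 0 1) * z) :
    pr I (hd v * x * (hd v)⁻¹) = pr I x := by
  have hb : x 0 1 ∈ I := (mem_Gam_iff.1 hx).2.1
  -- x' = x * e21 s
  have hx' : x * e21 s ∈ Gam I := (Gam I).mul_mem hx (e21_mem_Gam hs)
  have hprx' : pr I (x * e21 s) = pr I x := by rw [map_mul, pr_e21 hs, mul_one]
  have hy : hd v * (x * e21 s) * (hd v)⁻¹ ∈ Gam I :=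
    (inferInstance : (Gam I).Normal).conj_mem _ hx' _
  have hzb : z * x 0 1 ∈ I := I.mul_mem_left _ hb
  have hy' : (x * e21 s) * e12 (z * x 0 1) ∈ Gam I := (Gam I).mul_mem hx' (e12_mem_Gam hzb)
  have hrow : pr I (hd v * (x * e21 s) * (hd v)⁻¹) = pr I ((x * e21 s) * e12 (z * x 0 1)) := by
    apply pr_eq_of_row hy hy'
    · rw [hd_conj_00]; simp
    · rw [hd_conj_01, hv]; simp; ring
  calc pr I (hd v * x * (hd v)⁻¹)
      = pr I (hd v) * pr I x * (pr I (hd v))⁻¹ := by rw [map_mul, map_mul, map_inv]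
    _ = pr I (hd v) * pr I (x * e21 s) * (pr I (hd v))⁻¹ := by rw [hprx']
    _ = pr I (hd v * (x * e21 s) * (hd v)⁻¹) := by
        rw [map_mul (pr I) (hd v * (x * e21 s)), map_mul (pr I) (hd v), map_inv]
    _ = pr I ((x * e21 s) * e12 (z * x 0 1)) := hrow
    _ = pr I x := by rw [map_mul, pr_e12 hzb, mul_one, hprx']

/-- **(C)** if `hd v` is central on `Gam I` and `v² ≡ 1 (I)`, then the class with first row
`(a, b)` equals the class with first row `(v² a, b)`. -/
lemma pr_eq_of_row_sq {x y : SL2 A} (hx : x ∈ Gam I) (hy : y ∈ Gam I) (v : Aˣ)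
    (hvI : (v : A) ^ 2 - 1 ∈ I) (hv : hd v ∈ CentGam I)
    (h0 : y 0 0 = (v : A) ^ 2 * x 0 0) (h1 : y 0 1 = x 0 1) : pr I y = pr I x := by
  have hu : (((v ^ 2 : Aˣ) : A)) - 1 ∈ I := by simpa using hvI
  have hxu : x * hd (v ^ 2) ∈ Gam I := (Gam I).mul_mem hx (hd_mem_Gam hu)
  have hprxu : pr I (x * hd (v ^ 2)) = pr I x := by rw [map_mul, pr_hd hu, mul_one]
  have hx' : hd v * (x * hd (v ^ 2)) * (hd v)⁻¹ ∈ Gam I :=
    (inferInstance : (Gam I).Normal).conj_mem _ hxu _
  have h2 : pr I (hd v * (x * hd (v ^ 2)) * (hd v)⁻¹) = pr I x := by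
    rw [(mem_CentGam_iff.1 hv) _ hxu, hprxu]
  rw [← h2]
  apply pr_eq_of_row hy hx'
  · rw [hd_conj_00, h0]; simp; ring
  · rw [hd_conj_01, h1]
    simp only [SL2.mul_01, hd_01, hd_11, mul_zero, zero_add]
    have : (v : A) ^ 2 * (((v ^ 2)⁻¹ : Aˣ) : A) = 1 := by
      rw [← Units.val_pow_eq_pow_val, Units.mul_inv]
    linear_combination (- x 0 1) * this

/-- **(D-core)** if `hd v` is central on `Gam I` and `v² - 1 = w₀ b`, then conjugation by
`e21 (w₀ a)` fixes the class of `x` (first row `(a, b)`). -/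
lemma pr_e21_conj {x : SL2 A} (hx : x ∈ Gam I) (v : Aˣ) (hv : hd v ∈ CentGam I) (w₀ : A)
    (hw : (v : A) ^ 2 - 1 = w₀ * x 0 1) :
    pr I ((e21 (w₀ * x 0 0))⁻¹ * x * e21 (w₀ * x 0 0)) = pr I x := by
  have hb : x 0 1 ∈ I := (mem_Gam_iff.1 hx).2.1
  have hvI : (v : A) ^ 2 - 1 ∈ I := by rw [hw]; exact I.mul_mem_left _ hb
  have hy : (e21 (w₀ * x 0 0))⁻¹ * x * e21 (w₀ * x 0 0) ∈ Gam I := by
    have := (inferInstance : (Gam I).Normal).conj_mem _ hx (e21 (w₀ * x 0 0))⁻¹
    simpa using this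
  apply pr_eq_of_row_sq hx hy v hvI hv
  · simp only [SL2.mul_00, SL2.mul_01, SL2.inv_00, SL2.inv_01, e21_00, e21_01, e21_10, e21_11]
    linear_combination (-(x 0 0)) * hw
  · simp

/-- The additive subgroup of those `s` such that `e21 s` fixes the class of `x`. -/
def LowStab (I : Ideal A) (x : SL2 A) : AddSubgroup A where
  carrier := {s | pr I (e21 s) * pr I x = pr I x * pr I (e21 s)}
  zero_mem' := by simp
  add_mem' := by
    intro s t hs ht
    simp only [Set.mem_ofPred_eq] at hs ht ⊢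
    rw [e21_add, map_mul, mul_assoc, ht, ← mul_assoc, hs, mul_assoc]
  neg_mem' := by
    intro s hs
    simp only [Set.mem_ofPred_eq] at hs ⊢
    rw [e21_neg, map_inv]
    exact ((Commute.inv_left (a := pr I (e21 s)) (b := pr I x) hs)).eq

lemma mem_LowStab_iff {x : SL2 A} {s : A} :
    s ∈ LowStab I x ↔ pr I ((e21 s)⁻¹ * x * e21 s) = pr I x := by
  change pr I (e21 s) * pr I x = pr I x * pr I (e21 s) ↔ _
  rw [map_mul, map_mul, map_inv, mul_assoc, inv_mul_eq_iff_eq_mul]
  exact eq_comm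

lemma le_LowStab (x : SL2 A) : I.toAddSubgroup ≤ LowStab I x := by
  intro s hs
  change pr I (e21 s) * pr I x = pr I x * pr I (e21 s)
  rw [pr_e21 hs, one_mul, mul_one]

lemma LowStab_congr {x y : SL2 A} (h : pr I x = pr I y) : LowStab I x = LowStab I y := by
  ext s
  change pr I (e21 s) * pr I x = pr I x * pr I (e21 s) ↔
    pr I (e21 s) * pr I y = pr I y * pr I (e21 s)
  rw [h]

/-- A subgroup of a group containing, for every prime `r`, a power `t ^ k` with `r ∤ k`,
contains `t`. -/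
lemma mem_of_forall_prime_exists_zpow {G : Type*} [Group G] (H : Subgroup G) (t : G)
    (h : ∀ r : ℕ, r.Prime → ∃ k : ℤ, ¬ (r : ℤ) ∣ k ∧ t ^ k ∈ H) : t ∈ H := by
  let S : AddSubgroup ℤ :=
    { carrier := {k | t ^ k ∈ H}
      zero_mem' := by simp
      add_mem' := by
        intro a b ha hb
        simp only [Set.mem_ofPred_eq] at ha hb ⊢
        rw [_root_.zpow_add]; exact H.mul_mem ha hb
      neg_mem' := by
        intro a ha
        simp only [Set.mem_ofPred_eq] at ha ⊢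
        rw [_root_.zpow_neg]; exact H.inv_mem ha }
  obtain ⟨a, ha⟩ := Int.subgroup_cyclic S
  have hmemS : ∀ k : ℤ, k ∈ S ↔ a ∣ k := by
    intro k
    rw [ha, AddSubgroup.mem_closure_singleton]
    constructor
    · rintro ⟨n, rfl⟩; exact ⟨n, by rw [smul_eq_mul, mul_comm]⟩
    · rintro ⟨n, rfl⟩; exact ⟨n, by rw [smul_eq_mul, mul_comm]⟩
  have h1 : (1 : ℤ) ∈ S := by
    rw [hmemS]
    by_contra hna
    have hnat : a.natAbs ≠ 1 := by
      intro h1
      apply hna
      rcases Int.natAbs_eq a with h' | h'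
      · rw [h', h1]; simp
      · rw [h', h1]; simp
    obtain ⟨r, hr, hra⟩ := Nat.exists_prime_and_dvd hnat
    obtain ⟨k, hk, hkS⟩ := h r hr
    apply hk
    have hk' : a ∣ k := (hmemS k).1 hkS
    exact (Int.natCast_dvd.2 hra).trans hk'
  have : t ^ (1 : ℤ) ∈ H := h1
  simpa using this

end Fermat.Agent.S41.CSP
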