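/-
S41 / [IH2]-core.  Step **(B)**: for `A = ℤ[1/q]` and `m` prime to `q`, the torus element
`t = diag(q, 1/q)` centralises `Gam (m) / Elem (m)`.
-/
import Fermat.Agent.S41.CSP.Moves
import Fermat.Agent.S41.CSP.NumberTheory
import Fermat.Agent.S41.CSP.Away

set_option autoImplicit false

open Matrix

namespace Fermat.Agent.S41.CSP

lemma hd_pow {A : Type*} [CommRing A] (u : Aˣ) (k : ℕ) : hd (u ^ k) = (hd u) ^ k := by
  induction k with
  | zero => simp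
  | succ k ih => rw [pow_succ, pow_succ, hd_mul, ih]

/-- arithmetic input of step (B). -/
lemma exists_torus_data (q : ℕ) (hq : q.Prime) {A : Type*} [CommRing A] [Algebra ℤ A]
    [IsLocalization.Away (q : ℤ) A] (m : ℕ) (hm : 0 < m) (hqm : Nat.Coprime q m) {x : SL2 A}
    (hx : x ∈ Gam (Ideal.span {(m : A)})) (r : ℕ) (hr : r.Prime) :
    ∃ (s z : A) (k : ℕ), s ∈ Ideal.span {(m : A)} ∧ ¬ r ∣ k ∧
      ((q : A) ^ k) ^ 2 = 1 + (x 0 0 + s * x 0 1) * z := by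
  have hdet := SL2.det_eq x
  by_cases hb : x 0 1 = 0
  · refine ⟨0, x 1 1 * ((q : A) ^ 2 - 1), 1, Ideal.zero_mem _, ?_, ?_⟩
    · intro h; exact hr.one_lt.ne' (Nat.dvd_one.1 h)
    · rw [hb] at hdet
      linear_combination (-((q : A) ^ 2 - 1)) * hdet
  · obtain ⟨v, b₂, hb₂0, hb₂q, hbv⟩ := exists_unit_mul_int q hq hb
    have hmq : IsCoprime (m : ℤ) (q : ℤ) := by
      exact_mod_cast (Nat.isCoprime_iff_coprime.2 hqm.symm)
    set M : ℤ := (m : ℤ) * b₂ with hMdef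
    have hM0 : M ≠ 0 := mul_ne_zero (by exact_mod_cast hm.ne') hb₂0
    have hMq : IsCoprime M (q : ℤ) := hmq.mul_left hb₂q
    have hMA : (M : A) = (m : A) * (b₂ : A) := by rw [hMdef]; push_cast; ring
    obtain ⟨-, -, hc, -⟩ := mem_Gam_iff.1 hx
    obtain ⟨c', hc'⟩ := Ideal.mem_span_singleton.1 hc
    -- `a d ≡ 1 (M)`
    have had : (M : A) ∣ x 0 0 * x 1 1 - 1 := by
      refine ⟨(v : A) * c', ?_⟩
      rw [hMA]
      rw [hbv, hc'] at hdet
      linear_combination hdet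
    obtain ⟨a₁, ha₁⟩ := exists_int_sub_dvd q hMq (x 0 0)
    obtain ⟨d₁, hd₁⟩ := exists_int_sub_dvd q hMq (x 1 1)
    have h1 : (M : A) ∣ ((a₁ * d₁ - 1 : ℤ) : A) := by
      have e : ((a₁ * d₁ - 1 : ℤ) : A) = (x 0 0 * x 1 1 - 1) - (x 0 0 - a₁) * (d₁ : A)
          - x 0 0 * (x 1 1 - d₁) := by push_cast; ring
      rw [e]
      exact dvd_sub (dvd_sub had (Dvd.dvd.mul_right ha₁ _)) (Dvd.dvd.mul_left hd₁ _)
    obtain ⟨y₀, hy₀⟩ := int_dvd_of_dvd q hq.ne_zero hMq h1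
    have hcop : IsCoprime a₁ M := ⟨d₁, -y₀, by linear_combination hy₀⟩
    obtain ⟨a', k, ha', hrk, z₀, hz₀⟩ := exists_modulus_pow q hq.pos M hM0 a₁ hcop r hr
    -- back to `A`
    have h2 : (M : A) ∣ (a' : A) - x 0 0 := by
      obtain ⟨w, hw⟩ := ha'
      have e : (a' : A) - x 0 0 = ((a' - a₁ : ℤ) : A) - (x 0 0 - a₁) := by push_cast; ring
      rw [e, hw]
      push_cast
      exact dvd_sub (Dvd.intro _ rfl) ha₁
    obtain ⟨y, hy⟩ := h2
    refine ⟨(m : A) * (((v⁻¹ : Aˣ) : A) * y), (z₀ : A), k,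
      Ideal.mem_span_singleton.2 (Dvd.intro _ rfl), hrk, ?_⟩
    have hb₂ : (b₂ : A) = ((v⁻¹ : Aˣ) : A) * x 0 1 := by
      rw [hbv, ← mul_assoc, Units.inv_mul, one_mul]
    have hsum : x 0 0 + (m : A) * (((v⁻¹ : Aˣ) : A) * y) * x 0 1 = (a' : A) := by
      have : (a' : A) = x 0 0 + (M : A) * y := by linear_combination hy
      rw [this, hMA, hb₂]; ring
    rw [hsum]
    have hz : (((q : ℤ) ^ k) ^ 2 - 1 : ℤ) = a' * z₀ := hz₀
    have := congrArg (fun t : ℤ => (t : A)) hz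
    push_cast at this
    linear_combination this

/-- **(B)** `diag(q, 1/q)` centralises `Gam (m)` modulo `Elem (m)`. -/
theorem hd_qU_mem_CentGam (q : ℕ) (hq : q.Prime) {A : Type*} [CommRing A] [Algebra ℤ A]
    [IsLocalization.Away (q : ℤ) A] (m : ℕ) (hm : 0 < m) (hqm : Nat.Coprime q m) :
    hd (qU q A) ∈ CentGam (Ideal.span {(m : A)}) := by
  rw [mem_CentGam_iff]
  intro x hx
  set I : Ideal A := Ideal.span {(m : A)} with hI
  let H : Subgroup (SL2 A) := (Subgroup.centralizer {pr I x}).comap (pr I)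
  have hmemH : ∀ g : SL2 A, g ∈ H ↔ pr I (g * x * g⁻¹) = pr I x := by
    intro g
    change pr I g ∈ Subgroup.centralizer {pr I x} ↔ _
    rw [Subgroup.mem_centralizer_singleton_iff, map_mul, map_mul, map_inv, mul_inv_eq_iff_eq_mul]
  rw [← hmemH]
  apply mem_of_forall_prime_exists_zpow
  intro r hr
  obtain ⟨s, z, k, hs, hrk, hk⟩ := exists_torus_data q hq m hm hqm hx r hr
  refine ⟨(k : ℤ), by exact_mod_cast hrk, ?_⟩
  rw [zpow_natCast, ← hd_pow, hmemH]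
  apply pr_hd_conj hx ((qU q A) ^ k) s z hs
  rw [Units.val_pow_eq_pow_val, qU_val]
  exact hk

end Fermat.Agent.S41.CSP
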