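/-
S41 / [IH2]-core.  Steps **(C)+(D)**: for `A = ℤ[1/q]` and a *deep* level `m > 1` prime to `q`,
every lower elementary matrix `e21 s` (`s : A`) centralises `Gam (m) / Elem (m)`.
-/
import Fermat.Agent.S41.CSP.Torus
import Fermat.Agent.S41.CSP.DeepNT

set_option autoImplicit false

open Matrix

namespace Fermat.Agent.S41.CSP

/-- arithmetic input of step (D). -/
lemma exists_deep_data (q : ℕ) (hq : q.Prime) {A : Type*} [CommRing A] [Algebra ℤ A]
    [IsLocalization.Away (q : ℤ) A] (m : ℕ) (hm : 1 < m) (hqm : Nat.Coprime q m)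
    (hdeep : Deep q m) {x : SL2 A} (hx : x ∈ Gam (Ideal.span {(m : A)})) :
    ∃ (t : A) (j₀ : ℕ) (w₀ : ℤ), t ∈ Ideal.span {(m : A)} ∧
      ((q : A) ^ j₀) ^ 2 - 1 = (w₀ : A) * (x 0 1 + t * x 0 0) ∧ IsCoprime w₀ (m : ℤ) := by
  have hdet := SL2.det_eq x
  have hmq : IsCoprime (m : ℤ) (q : ℤ) := by
    exact_mod_cast (Nat.isCoprime_iff_coprime.2 hqm.symm)
  obtain ⟨ha1, hb, -, -⟩ := mem_Gam_iff.1 hx
  obtain ⟨b', hb'⟩ := Ideal.mem_span_singleton.1 hb
  -- `a ≠ 0`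
  have ha : x 0 0 ≠ 0 := by
    intro h0
    rw [h0, zero_sub] at ha1
    have h1 : (m : A) ∣ ((1 : ℤ) : A) := by
      have := Ideal.mem_span_singleton.1 ha1
      rw [Int.cast_one]; exact (dvd_neg.1 this)
    have h2 : ((m : ℤ) : A) ∣ ((1 : ℤ) : A) := by simpa using h1
    have h3 := int_dvd_of_dvd q hq.ne_zero hmq h2
    have : m ∣ 1 := by exact_mod_cast h3
    have := Nat.dvd_one.1 this
    omega
  obtain ⟨υ, α, hα0, hαq, haυ⟩ := exists_unit_mul_int q hq ha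
  -- `α` is prime to `m`
  have hαm : IsCoprime α (m : ℤ) := by
    have had : ((m : ℤ) : A) ∣ x 0 0 * x 1 1 - 1 := by
      refine ⟨b' * x 1 0, ?_⟩
      rw [hb'] at hdet
      push_cast
      linear_combination hdet
    obtain ⟨d₁, hd₁⟩ := exists_int_sub_dvd q hmq ((υ : A) * x 1 1)
    have h1 : ((m : ℤ) : A) ∣ ((α * d₁ - 1 : ℤ) : A) := by
      have e : ((α * d₁ - 1 : ℤ) : A) = (x 0 0 * x 1 1 - 1) - (α : A) * ((υ : A) * x 1 1 - d₁) := by
        rw [haυ]; push_cast; ring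
      rw [e]
      exact dvd_sub had (Dvd.dvd.mul_left hd₁ _)
    obtain ⟨y, hy⟩ := int_dvd_of_dvd q hq.ne_zero hmq h1
    exact ⟨d₁, -y, by linear_combination hy⟩
  -- the class `β` of `b'` modulo `α`
  obtain ⟨β, hβ⟩ := exists_int_sub_dvd q hαq b'
  obtain ⟨c₁, hc₁⟩ := exists_int_sub_dvd q hαq (x 1 0)
  have hβα : IsCoprime β α := by
    have h0 : (α : A) ∣ (m : A) * b' * x 1 0 + 1 := by
      refine ⟨(υ : A) * x 1 1, ?_⟩
      rw [hb', haυ] at hdet
      linear_combination (-1 : A) * hdet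
    have h1 : (α : A) ∣ (((m : ℤ) * β * c₁ + 1 : ℤ) : A) := by
      have e : (((m : ℤ) * β * c₁ + 1 : ℤ) : A) = ((m : A) * b' * x 1 0 + 1)
          - (m : A) * (b' - β) * x 1 0 - (m : A) * β * (x 1 0 - c₁) := by push_cast; ring
      rw [e]
      exact dvd_sub (dvd_sub h0 (Dvd.dvd.mul_right (Dvd.dvd.mul_left hβ _) _))
        (Dvd.dvd.mul_left hc₁ _)
    obtain ⟨y, hy⟩ := int_dvd_of_dvd q hq.ne_zero hαq h1
    exact ⟨-(m : ℤ) * c₁, y, by linear_combination (-1 : ℤ) * hy⟩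
  obtain ⟨ℓ, j₀, w₀, hℓβ, hpow, hw₀m⟩ :=
    exists_deep_dvd q m hq.pos (by omega) hdeep α hα0 hαm β hβα
  -- back to `A`
  have h2 : (α : A) ∣ (ℓ : A) - b' := by
    obtain ⟨w, hw⟩ := hℓβ
    have e : (ℓ : A) - b' = (((ℓ : ℤ) - β : ℤ) : A) - (b' - β) := by push_cast; ring
    rw [e, hw]
    push_cast
    exact dvd_sub (Dvd.intro _ rfl) hβ
  obtain ⟨y, hy⟩ := h2
  refine ⟨(m : A) * (((υ⁻¹ : Aˣ) : A) * y), j₀, w₀,
    Ideal.mem_span_singleton.2 (Dvd.intro _ rfl), ?_, hw₀m⟩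
  have hα : (α : A) = ((υ⁻¹ : Aˣ) : A) * x 0 0 := by
    rw [haυ, ← mul_assoc, Units.inv_mul, one_mul]
  have hsum : x 0 1 + (m : A) * (((υ⁻¹ : Aˣ) : A) * y) * x 0 0 = (m : A) * (ℓ : A) := by
    have : (ℓ : A) = b' + (α : A) * y := by linear_combination hy
    rw [this, hb', hα]; ring
  rw [hsum]
  have := congrArg (fun t : ℤ => (t : A)) hpow
  push_cast at this
  linear_combination this

/-- **(D)** for a deep level `m > 1`, every `e21 s` centralises `Gam (m)` modulo `Elem (m)`. -/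
theorem e21_mem_CentGam (q : ℕ) (hq : q.Prime) {A : Type*} [CommRing A] [Algebra ℤ A]
    [IsLocalization.Away (q : ℤ) A] (m : ℕ) (hm : 1 < m) (hqm : Nat.Coprime q m)
    (hdeep : Deep q m) (s : A) : e21 s ∈ CentGam (Ideal.span {(m : A)}) := by
  rw [mem_CentGam_iff]
  intro x hx
  set I : Ideal A := Ideal.span {(m : A)} with hI
  have hmq : IsCoprime (m : ℤ) (q : ℤ) := by
    exact_mod_cast (Nat.isCoprime_iff_coprime.2 hqm.symm)
  -- it suffices to show `LowStab I x = ⊤`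
  suffices htop : ∀ s' : A, s' ∈ LowStab I x by
    have := (mem_LowStab_iff.1 (htop (-s)))
    rw [e21_neg, inv_inv] at this
    exact this
  obtain ⟨t, j₀, w₀, ht, hpow, hw₀m⟩ := exists_deep_data q hq m hm hqm hdeep hx
  -- the modified element `x₁ = x * e12 t`
  have hx₁ : x * e12 t ∈ Gam I := (Gam I).mul_mem hx (e12_mem_Gam ht)
  have hprx₁ : pr I (x * e12 t) = pr I x := by rw [map_mul, pr_e12 ht, mul_one]
  have hv : hd ((qU q A) ^ j₀) ∈ CentGam I := by
    rw [hd_pow]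
    exact (CentGam I).pow_mem (hd_qU_mem_CentGam q hq m (by omega) hqm) j₀
  have h00 : (x * e12 t) 0 0 = x 0 0 := by simp
  have h01 : (x * e12 t) 0 1 = x 0 1 + t * x 0 0 := by simp; ring
  have hw : ((((qU q A) ^ j₀ : Aˣ)) : A) ^ 2 - 1 = (w₀ : A) * (x * e12 t) 0 1 := by
    rw [h01, Units.val_pow_eq_pow_val, qU_val]; exact hpow
  have hmem1 : (w₀ : A) * x 0 0 ∈ LowStab I x := by
    rw [← LowStab_congr hprx₁, mem_LowStab_iff]
    have := pr_e21_conj hx₁ ((qU q A) ^ j₀) hv (w₀ : A) hw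
    rw [h00] at this
    exact this
  -- `1 ∈ LowStab I x`
  obtain ⟨g, h, hgh⟩ := hw₀m
  have hone : (1 : A) ∈ LowStab I x := by
    have h1 : g • ((w₀ : A) * x 0 0) ∈ LowStab I x := (LowStab I x).zsmul_mem hmem1 g
    have ha1 : x 0 0 - 1 ∈ I := (mem_Gam_iff.1 hx).1
    have hgh' : (g : A) * (w₀ : A) + (h : A) * (m : A) = 1 := by
      have := congrArg (fun z : ℤ => (z : A)) hgh
      push_cast at this
      exact this
    have h2 : (1 : A) - g • ((w₀ : A) * x 0 0) ∈ I := by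
      have e : (1 : A) - g • ((w₀ : A) * x 0 0)
          = (m : A) * (h : A) - (g : A) * (w₀ : A) * (x 0 0 - 1) := by
        rw [zsmul_eq_mul]; linear_combination (-1 : A) * hgh'
      rw [e]
      exact I.sub_mem (Ideal.mem_span_singleton.2 (Dvd.intro _ rfl)) (I.mul_mem_left _ ha1)
    have h3 : (1 : A) - g • ((w₀ : A) * x 0 0) ∈ LowStab I x := le_LowStab x h2
    have := (LowStab I x).add_mem h3 h1
    simpa using this
  intro s'
  obtain ⟨n, hn⟩ := exists_int_sub_dvd q hmq s'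
  have h1 : n • (1 : A) ∈ LowStab I x := (LowStab I x).zsmul_mem hone n
  have h2 : s' - (n : A) ∈ LowStab I x := by
    apply le_LowStab x
    have : ((m : ℤ) : A) = (m : A) := by simp
    rw [this] at hn
    exact Ideal.mem_span_singleton.2 hn
  have := (LowStab I x).add_mem h2 h1
  simpa using this

end Fermat.Agent.S41.CSP
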