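/-
S41 / [IH2]-core.  `SL₂(ℤ[1/q])` is generated by the elementary matrices.

Shape used downstream: a subgroup containing all `e12 s` and all `e21 s` is everything.
(Proof: scale the first column to a primitive integral vector by a diagonal matrix, complete it
to an element of `SL₂(ℤ)`, and use Mathlib's `SL2Z_generators`.)
-/
import Fermat.Agent.S41.CSP.Basic
import Fermat.Agent.S41.CSP.Away

set_option autoImplicit false

open Matrix

namespace Fermat.Agent.S41.CSP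

/-- the Weyl element is a product of elementary matrices. -/
lemma wm_eq {A : Type*} [CommRing A] : (wm : SL2 A) = e12 1 * e21 (-1) * e12 1 := by
  apply SL2.ext4 <;> simp

lemma hd_mem_of_elementary {A : Type*} [CommRing A] (H : Subgroup (SL2 A))
    (h1 : ∀ s, e12 s ∈ H) (h2 : ∀ s, e21 s ∈ H) (u : Aˣ) : hd u ∈ H := by
  rw [hd_eq]
  exact H.mul_mem (H.mul_mem (H.mul_mem (h1 _) (h2 _)) (h1 _))
    (H.inv_mem (H.mul_mem (H.mul_mem (h1 _) (h2 _)) (h1 _)))

/-- the image of `SL₂(ℤ)`. -/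
noncomputable def ofZ (A : Type*) [CommRing A] : Matrix.SpecialLinearGroup (Fin 2) ℤ →* SL2 A :=
  Matrix.SpecialLinearGroup.map (Int.castRingHom A)

lemma ofZ_apply {A : Type*} [CommRing A] (σ : Matrix.SpecialLinearGroup (Fin 2) ℤ) (i j : Fin 2) :
    ofZ A σ i j = ((σ i j : ℤ) : A) := by
  simp [ofZ, Matrix.SpecialLinearGroup.map_apply_coe]

lemma ofZ_mem_of_elementary {A : Type*} [CommRing A] (H : Subgroup (SL2 A))
    (h1 : ∀ s, e12 s ∈ H) (h2 : ∀ s, e21 s ∈ H) (σ : Matrix.SpecialLinearGroup (Fin 2) ℤ) :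
    ofZ A σ ∈ H := by
  have hle : Subgroup.closure {ModularGroup.S, ModularGroup.T} ≤ H.comap (ofZ A) := by
    rw [Subgroup.closure_le]
    intro g hg
    rcases hg with rfl | hg
    · -- `S = wm⁻¹`
      have : ofZ A ModularGroup.S = (wm : SL2 A)⁻¹ := by
        apply SL2.ext4 <;> rw [ofZ_apply] <;> simp [ModularGroup.S]
      change ofZ A ModularGroup.S ∈ H
      rw [this, wm_eq]
      exact H.inv_mem (H.mul_mem (H.mul_mem (h1 _) (h2 _)) (h1 _))
    · rw [Set.mem_singleton_iff] at hg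
      subst hg
      have : ofZ A ModularGroup.T = e12 (1 : A) := by
        apply SL2.ext4 <;> rw [ofZ_apply] <;> simp [ModularGroup.T]
      change ofZ A ModularGroup.T ∈ H
      rw [this]; exact h1 _
  rw [_root_.SpecialLinearGroup.SL2Z_generators] at hle
  exact hle (Subgroup.mem_top σ)

/-- **(G)** `SL₂(ℤ[1/q])` is generated by elementary matrices. -/
theorem eq_top_of_elementary (q : ℕ) (hq : q.Prime) {A : Type*} [CommRing A] [Algebra ℤ A]
    [IsLocalization.Away (q : ℤ) A] (H : Subgroup (SL2 A))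
    (h1 : ∀ s, e12 s ∈ H) (h2 : ∀ s, e21 s ∈ H) : H = ⊤ := by
  rw [eq_top_iff]
  intro g _
  have hone : (1 : A) ≠ 0 := by
    intro h
    have : ((1 : ℤ) : A) = ((0 : ℤ) : A) := by simpa using h
    exact one_ne_zero (intCast_inj' q hq.ne_zero this)
  -- make the first column integral
  obtain ⟨n₁, k₁, hk₁⟩ := exists_int_mul_pow q (g 0 0)
  obtain ⟨n₂, k₂, hk₂⟩ := exists_int_mul_pow q (g 1 0)
  set k := k₁ + k₂ with hk
  set a₁ : ℤ := n₁ * (q : ℤ) ^ k₂ with ha₁
  set c₁ : ℤ := n₂ * (q : ℤ) ^ k₁ with hc₁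
  set g₁ : SL2 A := g * hd ((qU q A) ^ k) with hg₁
  have hqk : ((((qU q A) ^ k : Aˣ)) : A) = (q : A) ^ k := by simp
  have h00 : g₁ 0 0 = (a₁ : A) := by
    rw [hg₁]; simp only [SL2.mul_00, hd_00, hd_10, mul_zero, add_zero, hqk]
    rw [ha₁, hk]; push_cast; rw [← hk₁]; ring
  have h10 : g₁ 1 0 = (c₁ : A) := by
    rw [hg₁]; simp only [SL2.mul_10, hd_00, hd_10, mul_zero, add_zero, hqk]
    rw [hc₁, hk]; push_cast; rw [← hk₂]; ring
  have hdet₁ := SL2.det_eq g₁
  rw [h00, h10] at hdet₁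
  -- the gcd
  have hgcd : 0 < Int.gcd a₁ c₁ := by
    rw [Int.gcd_pos_iff]
    by_contra hcon
    push Not at hcon
    rw [hcon.1, hcon.2] at hdet₁
    simp at hdet₁
    exact hone hdet₁.symm
  obtain ⟨g₀, a₂, c₂, hg₀, hco, ha₂, hc₂⟩ := Int.exists_gcd_one' hgcd
  have hcop : IsCoprime a₂ c₂ := Int.isCoprime_iff_gcd_eq_one.2 hco
  -- `g₀` is a unit of `A`
  have hunit : (g₀ : A) * ((a₂ : A) * g₁ 1 1 - g₁ 0 1 * (c₂ : A)) = 1 := by
    rw [ha₂, hc₂] at hdet₁
    push_cast at hdet₁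
    linear_combination hdet₁
  set uu : Aˣ := Units.mkOfMulEqOne _ _ hunit with huu
  have huuval : (uu : A) = (g₀ : A) := rfl
  set g₂ : SL2 A := g₁ * hd uu⁻¹ with hg₂
  have h00' : g₂ 0 0 = (a₂ : A) := by
    rw [hg₂]; simp only [SL2.mul_00, hd_00, hd_10, mul_zero, add_zero, h00]
    rw [ha₂]; push_cast; rw [← huuval, mul_assoc, Units.mul_inv, mul_one]
  have h10' : g₂ 1 0 = (c₂ : A) := by
    rw [hg₂]; simp only [SL2.mul_10, hd_00, hd_10, mul_zero, add_zero, h10]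
    rw [hc₂]; push_cast; rw [← huuval, mul_assoc, Units.mul_inv, mul_one]
  -- complete to an integral matrix
  obtain ⟨σ, hσ0, hσ1⟩ := hcop.exists_SL2_col 0
  have hdetσ : σ 0 0 * σ 1 1 - σ 0 1 * σ 1 0 = 1 := by
    have := σ.2
    rw [Matrix.det_fin_two] at this
    exact this
  set τ : SL2 A := (ofZ A σ)⁻¹ * g₂ with hτ
  have hτ00 : τ 0 0 = 1 := by
    rw [hτ]; simp only [SL2.mul_00, SL2.inv_00, SL2.inv_01, ofZ_apply, h00', h10']
    rw [← hσ0, ← hσ1]
    have := congrArg (fun t : ℤ => (t : A)) hdetσ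
    push_cast at this
    linear_combination this
  have hτ10 : τ 1 0 = 0 := by
    rw [hτ]; simp only [SL2.mul_10, SL2.inv_10, SL2.inv_11, ofZ_apply, h00', h10']
    rw [← hσ0, ← hσ1]; ring
  have hτ11 : τ 1 1 = 1 := by
    have := SL2.det_eq τ
    rw [hτ00, hτ10] at this
    linear_combination this
  have hτe : τ = e12 (τ 0 1) := by
    apply SL2.ext4 <;> simp [hτ00, hτ10, hτ11]
  have hg : g = ofZ A σ * τ * (hd uu⁻¹)⁻¹ * (hd ((qU q A) ^ k))⁻¹ := by
    rw [hτ, hg₂, hg₁]; group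
  rw [hg, hτe]
  exact H.mul_mem (H.mul_mem (H.mul_mem (ofZ_mem_of_elementary H h1 h2 σ) (h1 _))
    (H.inv_mem (hd_mem_of_elementary H h1 h2 _))) (H.inv_mem (hd_mem_of_elementary H h1 h2 _))

end Fermat.Agent.S41.CSP
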