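/-
S41 / [IH2]-core.  Step **(E)** and the main theorem: for `A = ℤ[1/q]` and every `m ≥ 1` prime
to `q`, `Gam (m) / Elem (m)` is central in `SL₂(A) / Elem (m)`:

  `commutator_mem_Elem : γ * x * γ⁻¹ * x⁻¹ ∈ Elem (m)` for `γ : SL₂(A)`, `x ∈ Gam (m)`.
-/
import Fermat.Agent.S41.CSP.Deep
import Fermat.Agent.S41.CSP.Generation

set_option autoImplicit false

open Matrix

namespace Fermat.Agent.S41.CSP

section Generic

variable {A : Type*} [CommRing A] {I : Ideal A}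

instance CentGam_normal : (CentGam I).Normal := by
  constructor
  intro g hg h
  rw [mem_CentGam_iff] at hg ⊢
  intro x hx
  have hx' : h⁻¹ * x * h ∈ Gam I := by
    have := (inferInstance : (Gam I).Normal).conj_mem x hx h⁻¹
    simpa using this
  have := hg _ hx'
  have e : h * g * h⁻¹ * x * (h * g * h⁻¹)⁻¹ = h * (g * (h⁻¹ * x * h) * g⁻¹) * h⁻¹ := by group
  rw [e, map_mul, map_mul, this, ← map_mul, ← map_mul]
  congr 1; group

lemma Elem_mono {I J : Ideal A} (h : J ≤ I) : Elem J ≤ Elem I := by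
  apply Subgroup.normalClosure_le_normal
  rintro g ⟨x, hx, rfl⟩
  exact Subgroup.subset_normalClosure ⟨x, h hx, rfl⟩

/-- level reduction: if the upper-left entry of `x ∈ Gam I` is invertible modulo `J ≤ I`, then `x`
is congruent modulo `Elem I` to an element of `Gam J`. -/
lemma exists_mem_Gam_pr_eq {J : Ideal A} (hJI : J ≤ I) {x : SL2 A} (hx : x ∈ Gam I) (a' : A)
    (ha' : x 0 0 * a' - 1 ∈ J) : ∃ y ∈ Gam J, pr I x = pr I y := by
  obtain ⟨ha, hb, hc, -⟩ := mem_Gam_iff.1 hx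
  have hdet := SL2.det_eq x
  have ha'I : 1 - a' ∈ I := by
    have e : 1 - a' = (x 0 0 - 1) * a' - (x 0 0 * a' - 1) := by ring
    rw [e]; exact I.sub_mem (I.mul_mem_right _ ha) (hJI ha')
  set g : SL2 A := (e12 (x 0 0) * e21 (-a') * e12 (x 0 0)) * (e12 1 * e21 (-1) * e12 1)⁻¹ with hg
  have hprg : pr I g = 1 := by
    have h1 : e12 (x 0 0) = e12 (1 : A) * e12 (x 0 0 - 1) := by
      rw [← e12_add]; congr 1; ring
    have h2 : e21 (-a') = e21 (-1 : A) * e21 (1 - a') := by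
      rw [← e21_add]; congr 1; ring
    rw [hg, map_mul, map_mul, map_mul, h1, h2, map_mul, map_mul, pr_e12 ha, pr_e21 ha'I, mul_one,
      mul_one, ← map_mul, ← map_mul, ← map_mul, mul_inv_cancel, map_one]
  set y : SL2 A := e21 (-(x 1 0) * a') * x * e12 (-(x 0 1) * a') * g⁻¹ with hy
  have hpry : pr I x = pr I y := by
    rw [hy, map_mul, map_mul, map_mul, map_inv, hprg, inv_one, mul_one,
      pr_e21 (I.mul_mem_right _ (I.neg_mem hc)), pr_e12 (I.mul_mem_right _ (I.neg_mem hb)),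
      one_mul, mul_one]
  refine ⟨y, ?_, hpry⟩
  rw [mem_Gam_iff]
  have key : ∀ z : A, (∃ k, z = (x 0 0 * a' - 1) * k) → z ∈ J := by
    rintro z ⟨k, rfl⟩; exact J.mul_mem_right _ ha'
  refine ⟨key _ ?_, key _ ?_, key _ ?_, key _ ?_⟩
  · refine ⟨1 - x 0 1 * (x 0 0 * a' - 1), ?_⟩
    rw [hy, hg]
    simp only [SL2.mul_00, SL2.mul_01, SL2.mul_10, SL2.mul_11, SL2.inv_00, SL2.inv_01, SL2.inv_10,
      SL2.inv_11, e12_00, e12_01, e12_10, e12_11, e21_00, e21_01, e21_10, e21_11]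
    ring
  · refine ⟨-(x 0 0 + x 0 0 * x 0 1 * (1 - (x 0 0 * a' - 1))), ?_⟩
    rw [hy, hg]
    simp only [SL2.mul_00, SL2.mul_01, SL2.mul_10, SL2.mul_11, SL2.inv_00, SL2.inv_01, SL2.inv_10,
      SL2.inv_11, e12_00, e12_01, e12_10, e12_11, e21_00, e21_01, e21_10, e21_11]
    ring
  · refine ⟨-(x 1 0 * a' - x 1 1 + a' * x 0 1 * x 1 0 * (1 - (x 0 0 * a' - 1))), ?_⟩
    rw [hy, hg]
    simp only [SL2.mul_00, SL2.mul_01, SL2.mul_10, SL2.mul_11, SL2.inv_00, SL2.inv_01, SL2.inv_10,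
      SL2.inv_11, e12_00, e12_01, e12_10, e12_11, e21_00, e21_01, e21_10, e21_11]
    ring
  · refine ⟨-(-(x 1 0) * (x 0 0 * a' - 1) + 1
      - (x 0 0 * a' - 1) * x 0 1 * x 1 0 * (1 - (x 0 0 * a' - 1))), ?_⟩
    rw [hy, hg]
    simp only [SL2.mul_00, SL2.mul_01, SL2.mul_10, SL2.mul_11, SL2.inv_00, SL2.inv_01, SL2.inv_10,
      SL2.inv_11, e12_00, e12_01, e12_10, e12_11, e21_00, e21_01, e21_10, e21_11]
    linear_combination (2 - x 0 0 * a') * hdet

end Generic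

/-- **(E), deep case** for a deep level `m > 1` the whole group centralises `Gam (m) / Elem (m)`. -/
theorem CentGam_eq_top_of_deep (q : ℕ) (hq : q.Prime) {A : Type*} [CommRing A] [Algebra ℤ A]
    [IsLocalization.Away (q : ℤ) A] (m : ℕ) (hm : 1 < m) (hqm : Nat.Coprime q m)
    (hdeep : Deep q m) : CentGam (Ideal.span {(m : A)}) = ⊤ := by
  apply eq_top_of_elementary q hq
  · intro s
    rw [e12_eq_conj]
    have h := e21_mem_CentGam q hq (A := A) m hm hqm hdeep (-s)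
    have := (inferInstance : (CentGam (Ideal.span {(m : A)})).Normal).conj_mem _ h (wm⁻¹)
    simpa using this
  · intro s
    exact e21_mem_CentGam q hq m hm hqm hdeep s

/-- invertibility of `a ≡ 1 (m)` modulo a multiple `m'` of `m` with the same prime factors. -/
lemma exists_inv_mod (q : ℕ) (hq : q.Prime) {A : Type*} [CommRing A] [Algebra ℤ A]
    [IsLocalization.Away (q : ℤ) A] (m m' : ℕ) (hmm' : m ∣ m')
    (hprimes : ∀ r : ℕ, r.Prime → r ∣ m' → r ∣ m) (hqm' : Nat.Coprime q m') (a : A)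
    (ha : a - 1 ∈ Ideal.span {(m : A)}) : ∃ a' : A, a * a' - 1 ∈ Ideal.span {(m' : A)} := by
  have hm'q : IsCoprime (m' : ℤ) (q : ℤ) := by
    exact_mod_cast (Nat.isCoprime_iff_coprime.2 hqm'.symm)
  have hmq : IsCoprime (m : ℤ) (q : ℤ) :=
    hm'q.of_isCoprime_of_dvd_left (by exact_mod_cast hmm')
  obtain ⟨a₁, ha₁⟩ := exists_int_sub_dvd q hm'q a
  have hmA : (m : A) ∣ (m' : A) := by
    obtain ⟨k, hk⟩ := hmm'
    exact ⟨(k : A), by rw [hk]; push_cast; ring⟩
  have h1 : ((m : ℤ) : A) ∣ ((a₁ - 1 : ℤ) : A) := by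
    have e : ((a₁ - 1 : ℤ) : A) = (a - 1) - (a - a₁) := by push_cast; ring
    rw [e]
    have h2 : (m : A) ∣ a - a₁ := hmA.trans (by simpa using ha₁)
    have h3 : (m : A) ∣ a - 1 := Ideal.mem_span_singleton.1 ha
    simpa using dvd_sub h3 h2
  obtain ⟨y, hy⟩ := int_dvd_of_dvd q hq.ne_zero hmq h1
  have hcop : Nat.Coprime a₁.natAbs m' := by
    apply Nat.coprime_of_dvd
    intro r hr hra hrm'
    have hrm := hprimes r hr hrm'
    have hra' : (r : ℤ) ∣ a₁ := Int.natCast_dvd.2 hra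
    have hrm2 : (r : ℤ) ∣ (m : ℤ) := by exact_mod_cast hrm
    have : (r : ℤ) ∣ 1 := by
      have e : (1 : ℤ) = a₁ - (m : ℤ) * y := by linear_combination (-1 : ℤ) * hy
      rw [e]; exact dvd_sub hra' (Dvd.dvd.mul_right hrm2 _)
    have : r ∣ 1 := by exact_mod_cast this
    exact hr.one_lt.ne' (Nat.dvd_one.1 this)
  have hcop' : IsCoprime a₁ (m' : ℤ) := by
    rw [Int.isCoprime_iff_gcd_eq_one, Int.gcd_eq_natAbs, Int.natAbs_natCast]
    exact hcop
  obtain ⟨u, v, huv⟩ := hcop'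
  refine ⟨(u : A), ?_⟩
  rw [Ideal.mem_span_singleton]
  obtain ⟨w, hw⟩ := ha₁
  refine ⟨w * (u : A) - (v : A), ?_⟩
  have huv' : (u : A) * (a₁ : A) + (v : A) * (m' : A) = 1 := by
    have := congrArg (fun z : ℤ => (z : A)) huv
    push_cast at this
    exact this
  have hw' : a - (a₁ : A) = (m' : A) * w := by simpa using hw
  linear_combination (u : A) * hw' + huv'

/-- **MAIN THEOREM (centrality, Serre 1970 Prop. 2 for `ℤ[1/q]`).**
For `A = ℤ[1/q]`, `m ≥ 1` prime to `q`, `γ ∈ SL₂(A)` and `x ∈ Gam (m)` the commutator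
`γ x γ⁻¹ x⁻¹` lies in `Elem (m)`, the normal closure of the elementary matrices of level `m`. -/
theorem commutator_mem_Elem (q : ℕ) (hq : q.Prime) {A : Type*} [CommRing A] [Algebra ℤ A]
    [IsLocalization.Away (q : ℤ) A] (m : ℕ) (hm : 0 < m) (hqm : Nat.Coprime q m) (γ x : SL2 A)
    (hx : x ∈ Gam (Ideal.span {(m : A)})) :
    γ * x * γ⁻¹ * x⁻¹ ∈ Elem (Ideal.span {(m : A)}) := by
  rcases Nat.lt_or_ge 1 m with hm1 | hm1
  · -- `m > 1`
    obtain ⟨m', hm'pos, hmm', hprimes, hqm', hdeep⟩ := exists_deep_multiple q m hq.one_lt hm hqm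
    have hm'1 : 1 < m' := lt_of_lt_of_le hm1 (Nat.le_of_dvd hm'pos hmm')
    set I : Ideal A := Ideal.span {(m : A)} with hI
    set J : Ideal A := Ideal.span {(m' : A)} with hJ
    have hJI : J ≤ I := by
      rw [hJ, hI, Ideal.span_singleton_le_span_singleton]
      obtain ⟨k, hk⟩ := hmm'
      exact ⟨(k : A), by rw [hk]; push_cast; ring⟩
    obtain ⟨a', ha'⟩ := exists_inv_mod q hq m m' hmm' hprimes hqm' (x 0 0) (mem_Gam_iff.1 hx).1
    obtain ⟨y, hy, hxy⟩ := exists_mem_Gam_pr_eq hJI hx a' ha'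
    have htop := CentGam_eq_top_of_deep q hq (A := A) m' hm'1 hqm' hdeep
    have hγ : γ ∈ CentGam J := by rw [htop]; exact Subgroup.mem_top γ
    have h1 : pr J (γ * y * γ⁻¹) = pr J y := (mem_CentGam_iff.1 hγ) y hy
    have h2 : γ * y * γ⁻¹ * y⁻¹ ∈ Elem J := by
      rw [← pr_eq_one_iff, map_mul, h1, map_inv, mul_inv_cancel]
    have h3 : γ * y * γ⁻¹ * y⁻¹ ∈ Elem I := Elem_mono hJI h2
    rw [← pr_eq_one_iff] at h3 ⊢
    rw [map_mul, map_mul, map_mul, map_inv, map_inv] at h3 ⊢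
    rw [hxy]; exact h3
  · -- `m = 1`
    have hm1' : m = 1 := by omega
    subst hm1'
    have htop : Elem (Ideal.span {((1 : ℕ) : A)}) = ⊤ := by
      apply eq_top_of_elementary q hq
      · intro s
        exact pr_eq_one_iff.1 (pr_e12 (by simp))
      · intro s
        exact pr_eq_one_iff.1 (pr_e21 (by simp))
    rw [htop]; exact Subgroup.mem_top _

end Fermat.Agent.S41.CSP
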