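/-
S41 / [IH2]: ELEMENTARY GENERATION of `SL₂(A)` for `A = ℤ[1/q]` (generic `IsLocalization.Away`
ring, the setting of `CSP/Basic.lean`; `IsDomain A` is not needed).

* `EGen A` : the subgroup of `SL₂(A)` generated by all `e12 x`, `e21 y` (any commutative ring);
  `e12_mem`, `e21_mem`, `wm_mem`, `hd_mem` (Whitehead: `diag(u,u⁻¹)` is a product of elementaries),
  `map_int_mem` (the image of `SL₂(ℤ)` lies in `EGen A`; from Mathlib's `SL2Z_generators`);
* `exists_primitive_scaling` : for `g ∈ SL₂(A)` there are `K e` and a primitive integral vector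
  `(a', c')` with `q^e (a', c') = q^K · (first column of g)`;
* `exists_int_factorisation` : `g = map g₀ * e12 x * (hd u)⁻¹` with `g₀ ∈ SL₂(ℤ)`, `u` a power of `q`;
* `EGen_eq_top`, `closure_e12_e21_eq_top`, `eq_top_of_e12_e21_mem`, `induction_e12_e21`,
  and the `eU`/`eL`-free statement for quotients `map_closure_eq_top`.
-/
import Mathlib
import Fermat.Agent.S41.CSP.Basic

set_option autoImplicit false

open Matrix
open scoped MatrixGroups

namespace Fermat.Agent.S41.CSP.ElemGen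

open Fermat.Agent.S41.CSP

section General

variable {A : Type*} [CommRing A]

/-- The subgroup of `SL₂(A)` generated by all elementary matrices. -/
def EGen (A : Type*) [CommRing A] : Subgroup (SL2 A) :=
  Subgroup.closure (Set.range (e12 : A → SL2 A) ∪ Set.range (e21 : A → SL2 A))

lemma e12_mem (x : A) : e12 x ∈ EGen A := Subgroup.subset_closure (Or.inl ⟨x, rfl⟩)

lemma e21_mem (x : A) : e21 x ∈ EGen A := Subgroup.subset_closure (Or.inr ⟨x, rfl⟩)

lemma wm_eq : (wm : SL2 A) = e12 1 * e21 (-1) * e12 1 := by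
  apply SL2.ext4 <;> simp

lemma wm_mem : (wm : SL2 A) ∈ EGen A := by
  rw [wm_eq]
  exact mul_mem (mul_mem (e12_mem 1) (e21_mem _)) (e12_mem 1)

/-- Whitehead's lemma: `diag(u, u⁻¹)` is a product of elementary matrices. -/
lemma hd_mem (u : Aˣ) : hd u ∈ EGen A := by
  rw [hd_eq]
  exact mul_mem (mul_mem (mul_mem (e12_mem _) (e21_mem _)) (e12_mem _))
    (inv_mem (mul_mem (mul_mem (e12_mem _) (e21_mem _)) (e12_mem _)))

/-- entries of the image of an integral matrix -/
lemma map_int_apply [Algebra ℤ A] (g₀ : SL(2, ℤ)) (i j : Fin 2) :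
    (Matrix.SpecialLinearGroup.map (algebraMap ℤ A) g₀) i j = algebraMap ℤ A (g₀ i j) := rfl

/-- The image of `SL₂(ℤ)` in `SL₂(A)` consists of products of elementary matrices. -/
lemma map_int_mem [Algebra ℤ A] (g₀ : SL(2, ℤ)) :
    Matrix.SpecialLinearGroup.map (algebraMap ℤ A) g₀ ∈ EGen A := by
  have h : g₀ ∈ Subgroup.closure ({ModularGroup.S, ModularGroup.T} : Set SL(2, ℤ)) := by
    rw [SpecialLinearGroup.SL2Z_generators]; trivial
  induction h using Subgroup.closure_induction with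
  | mem x hx =>
    rcases hx with rfl | rfl
    · have : Matrix.SpecialLinearGroup.map (algebraMap ℤ A) ModularGroup.S = (wm : SL2 A)⁻¹ := by
        apply SL2.ext4 <;> simp [map_int_apply, ModularGroup.coe_S]
      rw [this]; exact inv_mem wm_mem
    · have : Matrix.SpecialLinearGroup.map (algebraMap ℤ A) ModularGroup.T = e12 (1 : A) := by
        apply SL2.ext4 <;> simp [map_int_apply, ModularGroup.coe_T]
      rw [this]; exact e12_mem 1
  | one => rw [map_one]; exact one_mem _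
  | mul x y _ _ hx hy => rw [map_mul]; exact mul_mem hx hy
  | inv x _ hx => rw [map_inv]; exact inv_mem hx

/-- a matrix of `SL₂(A)` with first column `(1, 0)` is upper elementary -/
lemma eq_e12_of_col {g : SL2 A} (h00 : g 0 0 = 1) (h10 : g 1 0 = 0) : g = e12 (g 0 1) := by
  have hd := SL2.det_eq g
  rw [h00, h10, mul_zero, sub_zero, one_mul] at hd
  apply SL2.ext4 <;> simp [h00, h10, hd]

end General

section Away

variable (q : ℕ) [Fact q.Prime] {A : Type*} [CommRing A] [Algebra ℤ A]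
  [IsLocalization.Away (q : ℤ) A]

/-- `q` as a unit of `A`. -/
noncomputable def uq (A : Type*) [CommRing A] [Algebra ℤ A] [IsLocalization.Away (q : ℤ) A] : Aˣ :=
  (IsLocalization.Away.algebraMap_isUnit (S := A) (q : ℤ)).unit

omit [Fact q.Prime] in
@[simp] lemma coe_uq : ((uq q A : Aˣ) : A) = algebraMap ℤ A (q : ℤ) := IsUnit.unit_spec _

include q in
lemma algebraMap_int_injective : Function.Injective (algebraMap ℤ A) := by
  have hq : (q : ℤ) ≠ 0 := by exact_mod_cast (Fact.out : q.Prime).ne_zero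
  exact IsLocalization.injective A (M := Submonoid.powers (q : ℤ))
    (powers_le_nonZeroDivisors_of_noZeroDivisors hq)

omit [Fact q.Prime] in
/-- clearing denominators of two elements at once -/
lemma exists_common_pow (a c : A) :
    ∃ (K : ℕ) (a₂ c₂ : ℤ), a * algebraMap ℤ A (q : ℤ) ^ K = algebraMap ℤ A a₂ ∧
      c * algebraMap ℤ A (q : ℤ) ^ K = algebraMap ℤ A c₂ := by
  obtain ⟨k₁, a₁, h₁⟩ := IsLocalization.Away.surj (q : ℤ) a
  obtain ⟨k₂, c₁, h₂⟩ := IsLocalization.Away.surj (q : ℤ) c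
  refine ⟨k₁ + k₂, a₁ * (q : ℤ) ^ k₂, c₁ * (q : ℤ) ^ k₁, ?_, ?_⟩
  · rw [pow_add, ← mul_assoc, h₁, map_mul, map_pow]
  · rw [pow_add, mul_comm (_ ^ k₁), ← mul_assoc, h₂, map_mul, map_pow]

/-- The first column of `g ∈ SL₂(A)` is, up to a power of `q`, a primitive integral vector. -/
theorem exists_primitive_scaling (g : SL2 A) :
    ∃ (K e : ℕ) (a' c' : ℤ), IsCoprime a' c' ∧
      algebraMap ℤ A (q : ℤ) ^ e * algebraMap ℤ A a' = algebraMap ℤ A (q : ℤ) ^ K * g 0 0 ∧
      algebraMap ℤ A (q : ℤ) ^ e * algebraMap ℤ A c' = algebraMap ℤ A (q : ℤ) ^ K * g 1 0 := by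
  have hqp : q.Prime := Fact.out
  obtain ⟨K, a₂, c₂, ha, hc⟩ := exists_common_pow q (g 0 0) (g 1 0)
  obtain ⟨J, b₂, d₂, hb, hd'⟩ := exists_common_pow q (g 0 1) (g 1 1)
  have hdet := SL2.det_eq g
  -- the integral determinant identity
  have hint : (q : ℤ) ^ (K + J) = a₂ * d₂ - b₂ * c₂ := by
    apply algebraMap_int_injective q (A := A)
    rw [map_sub, map_mul, map_mul, map_pow, ← ha, ← hc, ← hb, ← hd', pow_add]
    linear_combination (-(algebraMap ℤ A (q : ℤ) ^ K * algebraMap ℤ A (q : ℤ) ^ J)) * hdet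
  -- the gcd is a power of q
  have hgdvd : ((Int.gcd a₂ c₂ : ℕ) : ℤ) ∣ (q : ℤ) ^ (K + J) := by
    rw [hint]
    exact dvd_sub (Dvd.dvd.mul_right (Int.gcd_dvd_left a₂ c₂) _)
      (Dvd.dvd.mul_left (Int.gcd_dvd_right a₂ c₂) _)
  have hgdvd' : Int.gcd a₂ c₂ ∣ q ^ (K + J) := by exact_mod_cast hgdvd
  obtain ⟨e, -, he⟩ := (Nat.dvd_prime_pow hqp).1 hgdvd'
  have hgpos : 0 < Int.gcd a₂ c₂ := by rw [he]; exact pow_pos hqp.pos e
  obtain ⟨a', ha'⟩ := Int.gcd_dvd_left a₂ c₂
  obtain ⟨c', hc'⟩ := Int.gcd_dvd_right a₂ c₂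
  refine ⟨K, e, a', c', ?_, ?_, ?_⟩
  · -- coprimality
    rw [Int.isCoprime_iff_gcd_eq_one]
    have h := Int.gcd_mul_left (Int.gcd a₂ c₂ : ℤ) a' c'
    rw [← ha', ← hc', Int.natAbs_natCast] at h
    have h2 : Int.gcd a₂ c₂ * 1 = Int.gcd a₂ c₂ * Int.gcd a' c' := by rw [mul_one]; exact h
    exact (Nat.eq_of_mul_eq_mul_left hgpos h2).symm
  · have : algebraMap ℤ A a₂ = algebraMap ℤ A (q : ℤ) ^ e * algebraMap ℤ A a' := by
      conv_lhs => rw [ha']
      rw [map_mul, he, Nat.cast_pow, map_pow]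
    rw [← this, ← ha, mul_comm]
  · have : algebraMap ℤ A c₂ = algebraMap ℤ A (q : ℤ) ^ e * algebraMap ℤ A c' := by
      conv_lhs => rw [hc']
      rw [map_mul, he, Nat.cast_pow, map_pow]
    rw [← this, ← hc, mul_comm]

/-- Every `g ∈ SL₂(A)`, `A = ℤ[1/q]`, is `g₀ · e12 x · diag(u,u⁻¹)⁻¹` with `g₀ ∈ SL₂(ℤ)` and `u` a
(positive or negative) power of `q`. -/
theorem exists_int_factorisation (g : SL2 A) :
    ∃ (g₀ : SL(2, ℤ)) (x : A) (K e : ℕ),
      g = Matrix.SpecialLinearGroup.map (algebraMap ℤ A) g₀ * e12 x *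
        (hd (uq q A ^ K * (uq q A ^ e)⁻¹))⁻¹ := by
  obtain ⟨K, e, a', c', hcop, ha, hc⟩ := exists_primitive_scaling q g
  obtain ⟨s, t, hst⟩ := hcop
  set u : Aˣ := uq q A ^ K * (uq q A ^ e)⁻¹ with hu
  have hQe : IsUnit (algebraMap ℤ A (q : ℤ) ^ e) := IsLocalization.Away.algebraMap_pow_isUnit _ e
  -- u * g00 = a', u * g10 = c'
  have hua : (u : A) * g 0 0 = algebraMap ℤ A a' := by
    apply hQe.mul_left_cancel
    rw [ha, hu]
    simp only [Units.val_mul, Units.val_pow_eq_pow_val, coe_uq]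
    rw [← mul_assoc, ← mul_assoc, mul_comm (algebraMap ℤ A (q : ℤ) ^ e), mul_assoc (_ ^ K)]
    have : algebraMap ℤ A (q : ℤ) ^ e * ((uq q A ^ e)⁻¹ : Aˣ) = 1 := by
      have h := Units.mul_inv (uq q A ^ e)
      simpa using h
    rw [this, mul_one]
  have huc : (u : A) * g 1 0 = algebraMap ℤ A c' := by
    apply hQe.mul_left_cancel
    rw [hc, hu]
    simp only [Units.val_mul, Units.val_pow_eq_pow_val, coe_uq]
    rw [← mul_assoc, ← mul_assoc, mul_comm (algebraMap ℤ A (q : ℤ) ^ e), mul_assoc (_ ^ K)]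
    have : algebraMap ℤ A (q : ℤ) ^ e * ((uq q A ^ e)⁻¹ : Aˣ) = 1 := by
      have h := Units.mul_inv (uq q A ^ e)
      simpa using h
    rw [this, mul_one]
  -- the integral matrix with first column (a', c')
  let g₀ : SL(2, ℤ) := ⟨!![a', -t; c', s], by
    rw [Matrix.det_fin_two_of]; linarith⟩
  set g' : SL2 A := (Matrix.SpecialLinearGroup.map (algebraMap ℤ A) g₀)⁻¹ * g * hd u with hg'
  have h00 : g' 0 0 = 1 := by
    have h1 : algebraMap ℤ A (s * a' + t * c') = 1 := by rw [hst, map_one]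
    simp only [hg', SL2.mul_00, SL2.mul_01, SL2.inv_00, SL2.inv_01, hd_00, hd_10, map_int_apply,
      mul_zero, add_zero]
    have e1 : (g₀ 1 1 : ℤ) = s := rfl
    have e2 : (g₀ 0 1 : ℤ) = -t := rfl
    rw [e1, e2]
    rw [map_add, map_mul, map_mul, ← hua, ← huc] at h1
    rw [map_neg]
    linear_combination h1
  have h10 : g' 1 0 = 0 := by
    simp only [hg', SL2.mul_10, SL2.mul_11, SL2.inv_10, SL2.inv_11, hd_00, hd_10,
      map_int_apply, mul_zero, add_zero]
    have e1 : (g₀ 1 0 : ℤ) = c' := rfl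
    have e2 : (g₀ 0 0 : ℤ) = a' := rfl
    rw [e1, e2, ← hua, ← huc]
    ring
  refine ⟨g₀, g' 0 1, K, e, ?_⟩
  rw [← eq_e12_of_col h00 h10, hg']
  simp only [mul_assoc, mul_inv_cancel_left]
  rw [← hu, mul_inv_cancel, mul_one]

include q in
/-- **`SL₂(ℤ[1/q])` is generated by elementary matrices.** -/
theorem EGen_eq_top : EGen A = ⊤ := by
  rw [eq_top_iff]
  intro g _
  obtain ⟨g₀, x, K, e, rfl⟩ := exists_int_factorisation q g
  exact mul_mem (mul_mem (map_int_mem g₀) (e12_mem x)) (inv_mem (hd_mem _))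

include q in
theorem closure_e12_e21_eq_top :
    Subgroup.closure (Set.range (e12 : A → SL2 A) ∪ Set.range (e21 : A → SL2 A)) = ⊤ :=
  EGen_eq_top q

include q in
/-- a subgroup containing all elementary matrices is everything -/
theorem eq_top_of_e12_e21_mem (H : Subgroup (SL2 A)) (hU : ∀ x : A, e12 x ∈ H)
    (hL : ∀ y : A, e21 y ∈ H) : H = ⊤ := by
  rw [eq_top_iff, ← EGen_eq_top q (A := A)]
  refine (Subgroup.closure_le H).2 ?_
  rintro g (⟨x, rfl⟩ | ⟨y, rfl⟩)
  · exact hU x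
  · exact hL y

include q in
/-- induction along elementary matrices -/
theorem induction_e12_e21 {P : SL2 A → Prop} (h1 : P 1) (hU : ∀ (x : A) (g : SL2 A), P g → P (e12 x * g))
    (hL : ∀ (y : A) (g : SL2 A), P g → P (e21 y * g)) : ∀ g, P g := by
  intro g
  have hg : g ∈ EGen A := by rw [EGen_eq_top q]; trivial
  -- strengthen: P (h * g') for all g' with P g'
  suffices h : ∀ g' : SL2 A, P g' → P (g * g') by simpa using h 1 h1
  induction hg using Subgroup.closure_induction with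
  | mem x hx =>
    rcases hx with ⟨a, rfl⟩ | ⟨a, rfl⟩
    · exact fun g' hg' => hU a g' hg'
    · exact fun g' hg' => hL a g' hg'
  | one => intro g' hg'; simpa using hg'
  | mul x y _ _ hx hy => intro g' hg'; rw [mul_assoc]; exact hx _ (hy _ hg')
  | inv x hx ih =>
    -- inverses of generators are generators
    intro g' hg'
    have hx' : x⁻¹ ∈ Subgroup.closure
        (Set.range (e12 : A → SL2 A) ∪ Set.range (e21 : A → SL2 A)) := inv_mem hx
    clear ih
    revert g' hg'
    have key : ∀ z ∈ Subgroup.closure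
        (Set.range (e12 : A → SL2 A) ∪ Set.range (e21 : A → SL2 A)),
        (∀ g' : SL2 A, P g' → P (z * g')) ∧ (∀ g' : SL2 A, P g' → P (z⁻¹ * g')) := by
      intro z hz
      induction hz using Subgroup.closure_induction with
      | mem x hx =>
        rcases hx with ⟨a, rfl⟩ | ⟨a, rfl⟩
        · exact ⟨fun g' hg' => hU a g' hg', fun g' hg' => by rw [← e12_neg]; exact hU _ g' hg'⟩
        · exact ⟨fun g' hg' => hL a g' hg', fun g' hg' => by rw [← e21_neg]; exact hL _ g' hg'⟩
      | one => exact ⟨fun g' hg' => by simpa using hg', fun g' hg' => by simpa using hg'⟩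
      | mul x y _ _ hx hy =>
        exact ⟨fun g' hg' => by rw [mul_assoc]; exact hx.1 _ (hy.1 _ hg'),
          fun g' hg' => by rw [_root_.mul_inv_rev, mul_assoc]; exact hy.2 _ (hx.2 _ hg')⟩
      | inv x _ hx => exact ⟨hx.2, fun g' hg' => by rw [inv_inv]; exact hx.1 g' hg'⟩
    exact (key x hx).2

include q in
/-- generation of the image of `SL₂(A)` under a surjective homomorphism -/
theorem map_closure_eq_top {D : Type*} [Group D] (f : SL2 A →* D) (hf : Function.Surjective f) :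
    Subgroup.closure (Set.range (fun x : A => f (e12 x)) ∪ Set.range (fun y : A => f (e21 y))) = ⊤ := by
  have h := congrArg (Subgroup.map f) (closure_e12_e21_eq_top q (A := A))
  rw [MonoidHom.map_closure, Subgroup.map_top_of_surjective f hf, Set.image_union] at h
  rw [← h]
  congr 1
  · congr 1 <;> (ext d; simp [Set.mem_image, Set.mem_range])

end Away

end Fermat.Agent.S41.CSP.ElemGen
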