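/-
S41 / [IH2] (F), end game of the base case (board #1976 BASE, #2010 FINAL): for a `LiftCore`,
if the kernel of `π` meets the commutator subgroup trivially then the kernel is trivial.
(`D^ab` is generated by the class `x` of `u 1`, `x¹² = 1 = x^N`; for `p = 3 ∣ N` the explicit
character `χ₃ : SL₂(𝔽₃) → ℤ/3` is used.)  Mathlib only.
-/
import Fermat.Agent.S41.CSP.Descent

set_option autoImplicit false
set_option linter.unusedSectionVars false

namespace Fermat.Agent.S41.CSP.Descent


namespace AbEndgame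

/-! ### The character `χ₃ : SL₂(𝔽₃) → ℤ/3` -/

/-- `χ₃ (a b; c d) = a c + b d + c d + 2 b c² d`. -/
def chi3Fun (g : SL2 (ZMod 3)) : ZMod 3 :=
  g.1 0 0 * g.1 1 0 + g.1 0 1 * g.1 1 1 + g.1 1 0 * g.1 1 1 + 2 * g.1 0 1 * (g.1 1 0) ^ 2 * g.1 1 1

set_option maxRecDepth 100000 in
theorem chi3_aux : ∀ a b c d a' b' c' d' : ZMod 3, a * d - b * c = 1 → a' * d' - b' * c' = 1 →
    (a * a' + b * c') * (c * a' + d * c') + (a * b' + b * d') * (c * b' + d * d')
      + (c * a' + d * c') * (c * b' + d * d')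
      + 2 * (a * b' + b * d') * (c * a' + d * c') ^ 2 * (c * b' + d * d')
    = (a * c + b * d + c * d + 2 * b * c ^ 2 * d)
      + (a' * c' + b' * d' + c' * d' + 2 * b' * c' ^ 2 * d') := by
  decide

theorem chi3Fun_mul (g h : SL2 (ZMod 3)) : chi3Fun (g * h) = chi3Fun g + chi3Fun h := by
  have hg := g.2
  have hh := h.2
  rw [Matrix.det_fin_two] at hg hh
  unfold chi3Fun
  simp only [Matrix.SpecialLinearGroup.coe_mul, Matrix.mul_apply, Fin.sum_univ_two]
  exact chi3_aux _ _ _ _ _ _ _ _ hg hh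

/-- the character `χ₃` -/
def chi3 : SL2 (ZMod 3) →* Multiplicative (ZMod 3) where
  toFun g := Multiplicative.ofAdd (chi3Fun g)
  map_one' := by
    simp [chi3Fun]
  map_mul' g h := by
    rw [chi3Fun_mul, ofAdd_add]

theorem chi3_eU_one : chi3 (eU 1) = Multiplicative.ofAdd (1 : ZMod 3) := by
  change Multiplicative.ofAdd (chi3Fun (eU 1)) = _
  congr 1

end AbEndgame

/-! ### The abelianisation of a `LiftCore` -/

section Ab

variable {N p : ℕ} {D : Type*} [Group D] (C : LiftCore N p D)

/-- the class of `u 1` in the abelianisation -/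
def xab : Abelianization D := Abelianization.of (C.u 1)

theorem of_u [NeZero N] (t : ZMod N) : Abelianization.of (C.u t) = xab C ^ t.val := by
  rw [C.u_eq_pow, map_pow]; rfl

theorem of_v (t : ZMod N) : Abelianization.of (C.v t) = Abelianization.of (C.u (-t)) := by
  have h := C.w_conj (-t)
  rw [neg_neg] at h
  rw [← h, map_mul, map_mul, map_inv, mul_comm, inv_mul_cancel_left]

theorem of_w : Abelianization.of (C.u 1 * C.v (-1) * C.u 1) = xab C ^ 3 := by
  rw [map_mul, map_mul, of_v, neg_neg]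
  unfold xab
  rw [pow_succ, pow_two]

theorem xab_pow_twelve : xab C ^ 12 = 1 := by
  have h := congrArg Abelianization.of C.w_pow
  rw [map_pow, of_w, map_one, ← pow_mul] at h
  exact h

theorem xab_pow_N : xab C ^ N = 1 := by
  unfold xab
  rw [← map_pow, ← C.u_natCast, ZMod.natCast_self, C.u_zero, map_one]

theorem exists_zpow_eq [NeZero N] (d : D) : ∃ k : ℤ, Abelianization.of d = xab C ^ k := by
  have hd : d ∈ Subgroup.closure (Set.range C.u ∪ Set.range C.v) := by rw [C.gen]; trivial
  induction hd using Subgroup.closure_induction with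
  | mem y hy =>
    rcases hy with ⟨t, rfl⟩ | ⟨t, rfl⟩
    · exact ⟨(t.val : ℤ), by rw [of_u, zpow_natCast]⟩
    · exact ⟨((-t).val : ℤ), by rw [of_v, of_u, zpow_natCast]⟩
  | one => exact ⟨0, by simp⟩
  | mul a b _ _ ha hb =>
    obtain ⟨k, hk⟩ := ha
    obtain ⟨l, hl⟩ := hb
    exact ⟨k + l, by rw [map_mul, hk, hl, zpow_add]⟩
  | inv a _ ha =>
    obtain ⟨k, hk⟩ := ha
    exact ⟨-k, by rw [map_inv, hk, zpow_neg]⟩

theorem eq_one_of_pow_coprime {G : Type*} [Group G] {y : G} {a b : ℕ} (hab : Nat.Coprime a b)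
    (ha : y ^ a = 1) (hb : y ^ b = 1) : y = 1 := by
  have := pow_gcd_eq_one.mpr ⟨ha, hb⟩
  rwa [hab, pow_one] at this

/-- **End game.** If `ker π` meets the commutator subgroup trivially, then `ker π = 1`. -/
theorem ker_trivial_of_comm [NeZero N] (hp : p.Prime) (hp2 : p ≠ 2)
    (h : ∀ z, C.π z = 1 → z ∈ commutator D → z = 1) : ∀ z, C.π z = 1 → z = 1 := by
  intro z hz
  apply h z hz
  rw [← Abelianization.ker_of, MonoidHom.mem_ker]
  obtain ⟨k, hk⟩ := exists_zpow_eq C z
  have hzp : Abelianization.of z ^ p = 1 := by rw [← map_pow, C.ker_pow z hz, map_one]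
  have h12 : Abelianization.of z ^ 12 = 1 := by
    rw [hk, ← zpow_natCast, ← zpow_mul, mul_comm, zpow_mul, zpow_natCast, xab_pow_twelve,
      one_zpow]
  have hN : Abelianization.of z ^ N = 1 := by
    rw [hk, ← zpow_natCast, ← zpow_mul, mul_comm, zpow_mul, zpow_natCast, xab_pow_N, one_zpow]
  by_cases hp3 : p = 3
  · subst hp3
    by_cases h3N : 3 ∣ N
    · -- use `χ₃`
      let χ : D →* Multiplicative (ZMod 3) :=
        (AbEndgame.chi3.comp (redF (ZMod.castHom h3N (ZMod 3)))).comp C.π
      let χ' : Abelianization D →* Multiplicative (ZMod 3) := Abelianization.lift χ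
      have hχx : χ' (xab C) = Multiplicative.ofAdd (1 : ZMod 3) := by
        change Abelianization.lift χ (Abelianization.of (C.u 1)) = _
        rw [Abelianization.lift_apply_of]
        change AbEndgame.chi3 (redF (ZMod.castHom h3N (ZMod 3)) (C.π (C.u 1))) = _
        rw [C.π_u, redF_eU, map_one, AbEndgame.chi3_eU_one]
      have hχz : χ' (Abelianization.of z) = 1 := by
        rw [Abelianization.lift_apply_of]
        change AbEndgame.chi3 (redF (ZMod.castHom h3N (ZMod 3)) (C.π z)) = _
        rw [hz, map_one, map_one]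
      rw [hk, map_zpow, hχx, ← ofAdd_zsmul, ← ofAdd_zero, Multiplicative.ofAdd.injective.eq_iff,
        zsmul_one] at hχz
      rw [ZMod.intCast_zmod_eq_zero_iff_dvd] at hχz
      obtain ⟨k', rfl⟩ := hχz
      have h4 : Abelianization.of z ^ 4 = 1 := by
        rw [hk, ← zpow_natCast, ← zpow_mul]
        have : ((3 : ℕ) : ℤ) * k' * ((4 : ℕ) : ℤ) = k' * ((12 : ℕ) : ℤ) := by push_cast; ring
        rw [this, mul_comm, zpow_mul, zpow_natCast, xab_pow_twelve, one_zpow]
      exact eq_one_of_pow_coprime (by decide : Nat.Coprime 3 4) hzp h4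
    · exact eq_one_of_pow_coprime ((Nat.Prime.coprime_iff_not_dvd Nat.prime_three).mpr h3N) hzp hN
  · have hcop : Nat.Coprime p 12 := by
      have h12' : (12 : ℕ) = 2 ^ 2 * 3 := by norm_num
      rw [h12']
      apply Nat.Coprime.mul_right
      · apply Nat.Coprime.pow_right
        exact (Nat.coprime_primes hp Nat.prime_two).mpr hp2
      · exact (Nat.coprime_primes hp Nat.prime_three).mpr hp3
    exact eq_one_of_pow_coprime hcop hzp h12

end Ab

end Fermat.Agent.S41.CSP.Descent
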