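/-
S41 / [IH2-core] (centrality of `Γ(m)/E(m)` for `SL₂(ℤ[1/q])`, board #1956/#1969): the pure number
theory used in steps (B), (D), (E).  No matrices here.  Mathlib only (Dirichlet's theorem on primes
in arithmetic progressions is `Nat.forall_exists_prime_gt_and_zmodEq`).
-/
import Mathlib

set_option autoImplicit false

namespace Fermat.Agent.S41.CSP.Arith

/-! ### (N3) a subgroup of `ℤ` containing, for every prime `r`, an element prime to `r` -/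

theorem eq_top_of_forall_prime_exists (K : AddSubgroup ℤ)
    (h : ∀ r : ℕ, r.Prime → ∃ k ∈ K, ¬ (r : ℤ) ∣ k) : K = ⊤ := by
  obtain ⟨d, hd⟩ := Int.subgroup_cyclic K
  have hmem : ∀ k ∈ K, d ∣ k := by
    intro k hk
    rw [hd, AddSubgroup.mem_closure_singleton] at hk
    obtain ⟨n, rfl⟩ := hk
    exact ⟨n, by rw [smul_eq_mul, mul_comm]⟩
  have h1 : d.natAbs = 1 := by
    by_contra hne
    obtain ⟨r, hr, hrd⟩ := Nat.exists_prime_and_dvd hne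
    obtain ⟨k, hk, hrk⟩ := h r hr
    apply hrk
    have : (r : ℤ) ∣ d := Int.natCast_dvd.mpr hrd
    exact this.trans (hmem k hk)
  have hdK : d ∈ K := by
    rw [hd]; exact AddSubgroup.mem_closure_singleton_self d
  have h1K : (1 : ℤ) ∈ K := by
    rcases Int.natAbs_eq d with e | e
    · rw [h1] at e; rw [e] at hdK; exact_mod_cast hdK
    · rw [h1] at e; rw [e] at hdK
      have := K.neg_mem hdK
      simpa using this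
  rw [eq_top_iff]
  intro k _
  have := K.zsmul_mem h1K k
  simpa using this

/-! ### (N2) Fermat's little theorem for a product of two primes -/

theorem prime_dvd_pow_sub_one {q ℓ : ℕ} (hℓ : ℓ.Prime) (hq : ¬ ℓ ∣ q) (k : ℕ) :
    (ℓ : ℤ) ∣ (q : ℤ) ^ ((ℓ - 1) * k) - 1 := by
  have : Fact ℓ.Prime := ⟨hℓ⟩
  rw [← ZMod.intCast_zmod_eq_zero_iff_dvd]
  push_cast
  have hq0 : (q : ZMod ℓ) ≠ 0 := by
    rw [Ne, ZMod.natCast_eq_zero_iff]; exact hq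
  rw [pow_mul, ZMod.pow_card_sub_one_eq_one hq0, one_pow, sub_self]

theorem two_mul_half {ℓ : ℕ} (o : Odd ℓ) : 2 * ((ℓ - 1) / 2) = ℓ - 1 := by
  obtain ⟨t, rfl⟩ := o
  omega

theorem pow_two_mul_half_mul_half (q ℓ₁ ℓ₂ : ℕ) (h₁ : ℓ₁.Prime) (h₂ : ℓ₂.Prime) (hne : ℓ₁ ≠ ℓ₂)
    (o₁ : Odd ℓ₁) (o₂ : Odd ℓ₂) (hq₁ : ¬ ℓ₁ ∣ q) (hq₂ : ¬ ℓ₂ ∣ q) :
    ((ℓ₁ : ℤ) * ℓ₂) ∣ (q : ℤ) ^ (2 * (((ℓ₁ - 1) / 2) * ((ℓ₂ - 1) / 2))) - 1 := by
  have hcop : IsCoprime (ℓ₁ : ℤ) (ℓ₂ : ℤ) :=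
    Nat.isCoprime_iff_coprime.mpr ((Nat.coprime_primes h₁ h₂).mpr hne)
  refine hcop.mul_dvd ?_ ?_
  · have e : 2 * (((ℓ₁ - 1) / 2) * ((ℓ₂ - 1) / 2)) = (ℓ₁ - 1) * ((ℓ₂ - 1) / 2) := by
      rw [← mul_assoc, two_mul_half o₁]
    rw [e]
    exact prime_dvd_pow_sub_one h₁ hq₁ _
  · have e : 2 * (((ℓ₁ - 1) / 2) * ((ℓ₂ - 1) / 2)) = (ℓ₂ - 1) * ((ℓ₁ - 1) / 2) := by
      rw [mul_comm ((ℓ₁ - 1) / 2), ← mul_assoc, two_mul_half o₂]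
    rw [e]
    exact prime_dvd_pow_sub_one h₂ hq₂ _

/-! ### (N1) two primes with prescribed product class and `r ∤ ((ℓ₁ - 1) / 2) * ((ℓ₂ - 1) / 2)` -/

theorem isCoprime_natCast_of_prime_gt {p M : ℕ} (hp : p.Prime) (hM : 0 < M) (h : M < p) :
    IsCoprime (p : ℤ) (M : ℤ) := by
  rw [Nat.isCoprime_iff_coprime]
  exact (Nat.Prime.coprime_iff_not_dvd hp).mpr
    (fun hd => by have := Nat.le_of_dvd hM hd; omega)

theorem isCoprime_sign {ε : ℤ} (hε : ε = 1 ∨ ε = -1) (M : ℤ) : IsCoprime ε M := by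
  rcases hε with rfl | rfl
  · exact isCoprime_one_left
  · exact isCoprime_one_left.neg_left

theorem exists_second_prime (M : ℕ) (hM : 0 < M) (a : ℤ) (ha : IsCoprime a M) (ε : ℤ)
    (hε : ε = 1 ∨ ε = -1) (ℓ₁ : ℕ) (h₁ : ℓ₁.Prime) (hM1 : M < ℓ₁) :
    ∃ ℓ₂ : ℕ, ℓ₂.Prime ∧ ℓ₁ < ℓ₂ ∧ ε * ℓ₁ * ℓ₂ ≡ a [ZMOD M] := by
  obtain ⟨u, v, huv⟩ := isCoprime_natCast_of_prime_gt h₁ hM hM1
  have hu : IsCoprime u (M : ℤ) := ⟨ℓ₁, v, by linear_combination huv⟩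
  have hc : IsCoprime (ε * a * u) (M : ℤ) := ((isCoprime_sign hε _).mul_left ha).mul_left hu
  obtain ⟨p, hp1, hp, hpc⟩ := Nat.forall_exists_prime_gt_and_zmodEq ℓ₁ hM.ne' hc
  refine ⟨p, hp, hp1, ?_⟩
  have h1 : ε * ℓ₁ * p ≡ ε * ℓ₁ * (ε * a * u) [ZMOD M] := hpc.mul_left _
  have h2 : ε * ℓ₁ * (ε * a * u) = a + (M : ℤ) * (-(a * v)) := by
    rcases hε with rfl | rfl <;> linear_combination a * huv
  rw [h2] at h1
  exact h1.trans Int.modEq_add_fac_self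

/-- For odd `ℓ`, `r ∣ (ℓ - 1) / 2` forces `ℓ ≡ 1 (mod r)`. -/
theorem modEq_one_of_dvd_half {r ℓ : ℕ} (o : Odd ℓ) (h : r ∣ (ℓ - 1) / 2) :
    (ℓ : ℤ) ≡ 1 [ZMOD r] := by
  have h1 : r ∣ ℓ - 1 := by
    rw [← two_mul_half o]; exact h.mul_left 2
  have hℓ : 1 ≤ ℓ := by obtain ⟨t, rfl⟩ := o; omega
  have h2 : (r : ℤ) ∣ (ℓ : ℤ) - 1 := by
    have := Int.natCast_dvd_natCast.mpr h1
    rwa [Nat.cast_sub hℓ, Nat.cast_one] at this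
  exact (Int.modEq_iff_dvd.mpr h2).symm

/-- multiplying a congruence by a sign `ε = ±1` on both sides -/
theorem sign_mul_sign {ε : ℤ} (hε : ε = 1 ∨ ε = -1) : ε * ε = 1 := by
  rcases hε with rfl | rfl <;> norm_num

/-- The case `r` odd, `r ∣ M`. -/
theorem exists_two_primes_odd (M : ℕ) (hM : 0 < M) (a : ℤ) (ha : IsCoprime a M) (r : ℕ)
    (hr : r.Prime) (hr2 : r ≠ 2) (hrM : r ∣ M) (n₀ : ℕ) :
    ∃ (ℓ₁ ℓ₂ : ℕ) (ε : ℤ), ℓ₁.Prime ∧ ℓ₂.Prime ∧ n₀ < ℓ₁ ∧ ℓ₁ < ℓ₂ ∧ Odd ℓ₁ ∧ Odd ℓ₂ ∧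
      (ε = 1 ∨ ε = -1) ∧ ε * ℓ₁ * ℓ₂ ≡ a [ZMOD M] ∧
      ¬ r ∣ ((ℓ₁ - 1) / 2) * ((ℓ₂ - 1) / 2) := by
  have hrZ : (r : ℤ) ∣ (M : ℤ) := Int.natCast_dvd_natCast.mpr hrM
  have hr3 : 3 ≤ r := by have := hr.two_le; omega
  -- the sign
  obtain ⟨ε, hε, hεa⟩ : ∃ ε : ℤ, (ε = 1 ∨ ε = -1) ∧ ¬ (ε * a ≡ 2 [ZMOD r]) := by
    by_cases h2 : a ≡ 2 [ZMOD r]
    · refine ⟨-1, Or.inr rfl, fun h => ?_⟩
      have h3 : -1 * a ≡ -1 * 2 [ZMOD r] := h2.mul_left _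
      have h4 : (2 : ℤ) ≡ -2 [ZMOD r] := h.symm.trans (by simpa using h3)
      have h5 : (r : ℤ) ∣ 2 - (-2) := Int.modEq_iff_dvd.mp h4.symm
      have h6 : r ∣ 4 := by
        have : (r : ℤ) ∣ ((4 : ℕ) : ℤ) := by simpa using h5
        exact Int.natCast_dvd_natCast.mp this
      have h7 : r ∣ 2 ^ 2 := by simpa using h6
      have h8 := (Nat.prime_dvd_prime_iff_eq hr Nat.prime_two).mp (hr.dvd_of_dvd_pow h7)
      exact hr2 h8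
    · exact ⟨1, Or.inl rfl, by simpa using h2⟩
  -- first prime
  have h2r : IsCoprime (2 : ℤ) (r : ℤ) := by
    have : Nat.Coprime 2 r := (Nat.coprime_primes Nat.prime_two hr).mpr (Ne.symm hr2)
    exact_mod_cast Nat.isCoprime_iff_coprime.mpr this
  obtain ⟨ℓ₁, hgt, h₁, hℓ₁r⟩ :=
    Nat.forall_exists_prime_gt_and_zmodEq (max n₀ (max M 2)) hr.ne_zero h2r
  have hn₀ : n₀ < ℓ₁ := lt_of_le_of_lt (le_max_left _ _) hgt
  have hMℓ : M < ℓ₁ := lt_of_le_of_lt ((le_max_left _ _).trans (le_max_right _ _)) hgt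
  have h2ℓ : 2 < ℓ₁ := lt_of_le_of_lt ((le_max_right _ _).trans (le_max_right _ _)) hgt
  obtain ⟨ℓ₂, h₂, hlt, hcong⟩ := exists_second_prime M hM a ha ε hε ℓ₁ h₁ hMℓ
  have o₁ : Odd ℓ₁ := h₁.odd_of_ne_two (by omega)
  have o₂ : Odd ℓ₂ := h₂.odd_of_ne_two (by omega)
  refine ⟨ℓ₁, ℓ₂, ε, h₁, h₂, hn₀, hlt, o₁, o₂, hε, hcong, fun hdiv => ?_⟩
  have hcr : ε * ℓ₁ * ℓ₂ ≡ a [ZMOD r] := hcong.of_dvd hrZ
  rcases (Nat.Prime.dvd_mul hr).mp hdiv with h | h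
  · have h1 := modEq_one_of_dvd_half o₁ h
    have h3 : (2 : ℤ) ≡ 1 [ZMOD r] := hℓ₁r.symm.trans h1
    have h5 : (r : ℤ) ∣ 1 - 2 := Int.modEq_iff_dvd.mp h3
    have h6 : (r : ℤ) ∣ 1 := by simpa using h5
    have := Int.le_of_dvd one_pos h6
    omega
  · have h1 := modEq_one_of_dvd_half o₂ h
    apply hεa
    -- `ε ℓ₁ ≡ a`, so `ℓ₁ ≡ ε a`
    have h3 : ε * ℓ₁ * ℓ₂ ≡ ε * ℓ₁ * 1 [ZMOD r] := h1.mul_left _
    have h4 : ε * ℓ₁ ≡ a [ZMOD r] := by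
      have := h3.symm.trans hcr
      simpa using this
    have h5 : ε * (ε * ℓ₁) ≡ ε * a [ZMOD r] := h4.mul_left _
    rw [← mul_assoc, sign_mul_sign hε, one_mul] at h5
    exact h5.symm.trans hℓ₁r


/-- The case `r = 2`, `4 ∣ M`. -/
theorem exists_two_primes_two (M : ℕ) (hM : 0 < M) (a : ℤ) (ha : IsCoprime a M)
    (h4M : 4 ∣ M) (n₀ : ℕ) :
    ∃ (ℓ₁ ℓ₂ : ℕ) (ε : ℤ), ℓ₁.Prime ∧ ℓ₂.Prime ∧ n₀ < ℓ₁ ∧ ℓ₁ < ℓ₂ ∧ Odd ℓ₁ ∧ Odd ℓ₂ ∧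
      (ε = 1 ∨ ε = -1) ∧ ε * ℓ₁ * ℓ₂ ≡ a [ZMOD M] ∧
      ¬ 2 ∣ ((ℓ₁ - 1) / 2) * ((ℓ₂ - 1) / 2) := by
  have h4Z : ((4 : ℕ) : ℤ) ∣ (M : ℤ) := Int.natCast_dvd_natCast.mpr h4M
  -- `a` is odd
  have ha4 : IsCoprime a ((4 : ℕ) : ℤ) := ha.of_isCoprime_of_dvd_right h4Z
  have haodd : a % 4 = 1 ∨ a % 4 = 3 := by
    have h2 : ¬ (2 : ℤ) ∣ a := by
      intro h
      have h3 : IsCoprime (2 : ℤ) ((4 : ℕ) : ℤ) := ha4.of_isCoprime_of_dvd_left h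
      have h4 : (2 : ℤ) ∣ ((4 : ℕ) : ℤ) := ⟨2, by norm_num⟩
      have := h3.isUnit_of_dvd' (dvd_refl _) h4
      rw [Int.isUnit_iff] at this
      omega
    omega
  obtain ⟨ε, hε, hεa⟩ : ∃ ε : ℤ, (ε = 1 ∨ ε = -1) ∧ ε * a ≡ 1 [ZMOD 4] := by
    rcases haodd with h | h
    · exact ⟨1, Or.inl rfl, by rw [one_mul]; exact h⟩
    · refine ⟨-1, Or.inr rfl, ?_⟩
      unfold Int.ModEq
      omega
  -- first prime `≡ 3 mod 4`
  have h34 : IsCoprime (3 : ℤ) ((4 : ℕ) : ℤ) := ⟨-1, 1, by norm_num⟩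
  obtain ⟨ℓ₁, hgt, h₁, hℓ₁4⟩ :=
    Nat.forall_exists_prime_gt_and_zmodEq (max n₀ (max M 2)) (by norm_num : (4 : ℕ) ≠ 0) h34
  have hn₀ : n₀ < ℓ₁ := lt_of_le_of_lt (le_max_left _ _) hgt
  have hMℓ : M < ℓ₁ := lt_of_le_of_lt ((le_max_left _ _).trans (le_max_right _ _)) hgt
  have h2ℓ : 2 < ℓ₁ := lt_of_le_of_lt ((le_max_right _ _).trans (le_max_right _ _)) hgt
  obtain ⟨ℓ₂, h₂, hlt, hcong⟩ := exists_second_prime M hM a ha ε hε ℓ₁ h₁ hMℓ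
  have o₁ : Odd ℓ₁ := h₁.odd_of_ne_two (by omega)
  have o₂ : Odd ℓ₂ := h₂.odd_of_ne_two (by omega)
  refine ⟨ℓ₁, ℓ₂, ε, h₁, h₂, hn₀, hlt, o₁, o₂, hε, hcong, ?_⟩
  have hc4 : ε * ℓ₁ * ℓ₂ ≡ a [ZMOD ((4 : ℕ) : ℤ)] := hcong.of_dvd h4Z
  -- `ℓ₁ ℓ₂ ≡ ε a ≡ 1`
  have h5 : ε * (ε * ℓ₁ * ℓ₂) ≡ ε * a [ZMOD ((4 : ℕ) : ℤ)] := hc4.mul_left _
  have h6 : (ℓ₁ : ℤ) * ℓ₂ ≡ 1 [ZMOD ((4 : ℕ) : ℤ)] := by
    have e : ε * (ε * ℓ₁ * ℓ₂) = (ε * ε) * (ℓ₁ * ℓ₂) := by ring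
    rw [e, sign_mul_sign hε, one_mul] at h5
    exact h5.trans (by simpa using hεa)
  have h7 : (ℓ₁ : ℤ) % 4 = 3 := by
    have := hℓ₁4
    unfold Int.ModEq at this
    simpa using this
  have h8 : (ℓ₂ : ℤ) % 4 = 3 := by
    have hodd2 : (ℓ₂ : ℤ) % 4 = 1 ∨ (ℓ₂ : ℤ) % 4 = 3 := by
      obtain ⟨t, ht⟩ := o₂
      have : (ℓ₂ : ℤ) = 2 * t + 1 := by exact_mod_cast ht
      omega
    rcases hodd2 with h | h
    · exfalso
      have h9 : (ℓ₁ : ℤ) * ℓ₂ ≡ 3 * 1 [ZMOD ((4 : ℕ) : ℤ)] :=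
        Int.ModEq.mul (by unfold Int.ModEq; simpa using h7) (by unfold Int.ModEq; simpa using h)
      have h10 := h6.symm.trans h9
      unfold Int.ModEq at h10
      norm_num at h10
    · exact h
  have k₁ : ℓ₁ % 4 = 3 := by omega
  have k₂ : ℓ₂ % 4 = 3 := by omega
  have q₁ : Odd ((ℓ₁ - 1) / 2) := by rw [Nat.odd_iff]; omega
  have q₂ : Odd ((ℓ₂ - 1) / 2) := by rw [Nat.odd_iff]; omega
  have := q₁.mul q₂
  rw [← Nat.not_even_iff_odd, even_iff_two_dvd] at this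
  exact this

/-- **(N1)** -/
theorem exists_two_primes (M : ℕ) (hM : 0 < M) (a : ℤ) (ha : IsCoprime a M) (r : ℕ)
    (hr : r.Prime) (n₀ : ℕ) :
    ∃ (ℓ₁ ℓ₂ : ℕ) (ε : ℤ), ℓ₁.Prime ∧ ℓ₂.Prime ∧ n₀ < ℓ₁ ∧ ℓ₁ < ℓ₂ ∧ Odd ℓ₁ ∧ Odd ℓ₂ ∧
      (ε = 1 ∨ ε = -1) ∧ ε * ℓ₁ * ℓ₂ ≡ a [ZMOD M] ∧
      ¬ r ∣ ((ℓ₁ - 1) / 2) * ((ℓ₂ - 1) / 2) := by
  -- enlarge the modulus to `M' = M * (4 * r)` and lift `a` to a prime `p > M'`
  have hM' : 0 < M * (4 * r) := Nat.mul_pos hM (Nat.mul_pos (by norm_num) hr.pos)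
  obtain ⟨p, hpgt, hp, hpa⟩ := Nat.forall_exists_prime_gt_and_zmodEq (M * (4 * r)) hM.ne' ha
  have hpc : IsCoprime (p : ℤ) ((M * (4 * r) : ℕ) : ℤ) :=
    isCoprime_natCast_of_prime_gt hp hM' hpgt
  have hMM' : (M : ℤ) ∣ ((M * (4 * r) : ℕ) : ℤ) := Int.natCast_dvd_natCast.mpr (Dvd.intro _ rfl)
  by_cases hr2 : r = 2
  · subst hr2
    obtain ⟨ℓ₁, ℓ₂, ε, h₁, h₂, hn, hlt, o₁, o₂, hε, hc, hnd⟩ :=
      exists_two_primes_two (M * (4 * 2)) hM' p hpc ⟨M * 2, by ring⟩ n₀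
    exact ⟨ℓ₁, ℓ₂, ε, h₁, h₂, hn, hlt, o₁, o₂, hε, (hc.of_dvd hMM').trans hpa, hnd⟩
  · obtain ⟨ℓ₁, ℓ₂, ε, h₁, h₂, hn, hlt, o₁, o₂, hε, hc, hnd⟩ :=
      exists_two_primes_odd (M * (4 * r)) hM' p hpc r hr hr2 ⟨M * 4, by ring⟩ n₀
    exact ⟨ℓ₁, ℓ₂, ε, h₁, h₂, hn, hlt, o₁, o₂, hε, (hc.of_dvd hMM').trans hpa, hnd⟩

/-! ### (N4), (N5) deep moduli -/

/-- `m` is *deep* for `q`: `m` is the `m`-primary part of some `q ^ (2 * j) - 1`. -/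
def IsDeep (q m : ℕ) : Prop :=
  ∃ j c : ℕ, 0 < j ∧ q ^ (2 * j) - 1 = m * c ∧ Nat.Coprime c m

theorem exists_primary_part (Y : ℕ) (hY : 0 < Y) :
    ∀ c m : ℕ, 0 < m → m * c = Y →
      ∃ m' c' : ℕ, m' * c' = Y ∧ m ∣ m' ∧ Nat.Coprime c' m' ∧
        ∀ r : ℕ, r.Prime → r ∣ m' → r ∣ m := by
  intro c
  induction c using Nat.strong_induction_on with
  | _ c ih =>
    intro m hm hmc
    have hc : 0 < c := by
      rcases Nat.eq_zero_or_pos c with h | h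
      · rw [h, mul_zero] at hmc; omega
      · exact h
    by_cases hg : Nat.gcd c m = 1
    · exact ⟨m, c, hmc, dvd_rfl, hg, fun r _ h => h⟩
    · have hgpos : 0 < Nat.gcd c m := Nat.gcd_pos_of_pos_right c hm
      obtain ⟨c₁, hc₁⟩ := Nat.gcd_dvd_left c m
      have hc₁pos : 0 < c₁ := by
        rcases Nat.eq_zero_or_pos c₁ with h | h
        · rw [h, mul_zero] at hc₁; omega
        · exact h
      have hlt : c₁ < c := by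
        have h2 : 2 ≤ Nat.gcd c m := by omega
        calc c₁ < 2 * c₁ := by omega
          _ ≤ Nat.gcd c m * c₁ := Nat.mul_le_mul_right _ h2
          _ = c := hc₁.symm
      have hY' : (m * Nat.gcd c m) * c₁ = Y := by
        rw [mul_assoc, ← hc₁, hmc]
      obtain ⟨m', c', h1, h2, h3, h4⟩ := ih c₁ hlt (m * Nat.gcd c m) (Nat.mul_pos hm hgpos) hY'
      refine ⟨m', c', h1, (Dvd.intro _ rfl).trans h2, h3, fun r hr hrm' => ?_⟩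
      rcases (Nat.Prime.dvd_mul hr).mp (h4 r hr hrm') with h | h
      · exact h
      · exact h.trans (Nat.gcd_dvd_right c m)

theorem exists_deep_multiple {q m : ℕ} (hq : 1 < q) (hm : 0 < m) (hqm : Nat.Coprime q m) :
    ∃ m' : ℕ, m ∣ m' ∧ IsDeep q m' ∧ Nat.Coprime q m' ∧ ∀ r : ℕ, r.Prime → r ∣ m' → r ∣ m := by
  have hφ : 0 < Nat.totient m := Nat.totient_pos.mpr hm
  have hpow : 1 ≤ q ^ (2 * Nat.totient m) := Nat.one_le_pow _ _ (by omega)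
  have hmod : q ^ (2 * Nat.totient m) ≡ 1 [MOD m] := by
    have h1 := Nat.ModEq.pow_totient hqm
    have h2 := h1.pow 2
    rw [← pow_mul, one_pow, mul_comm] at h2
    exact h2
  have hdvd : m ∣ q ^ (2 * Nat.totient m) - 1 := (Nat.modEq_iff_dvd' hpow).mp hmod.symm
  obtain ⟨c₀, hc₀⟩ := hdvd
  have hYpos : 0 < q ^ (2 * Nat.totient m) - 1 := by
    have : 2 ^ 1 ≤ q ^ (2 * Nat.totient m) :=
      (Nat.pow_le_pow_left hq 1).trans (Nat.pow_le_pow_right (by omega) (by omega))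
    omega
  obtain ⟨m', c', h1, h2, h3, h4⟩ :=
    exists_primary_part _ hYpos c₀ m hm hc₀.symm
  refine ⟨m', h2, ⟨Nat.totient m, c', hφ, h1.symm, h3⟩, ?_, h4⟩
  rw [Nat.coprime_iff_gcd_eq_one]
  by_contra hne
  obtain ⟨r, hr, hrd⟩ := Nat.exists_prime_and_dvd hne
  have hrq : r ∣ q := hrd.trans (Nat.gcd_dvd_left _ _)
  have hrm : r ∣ m := h4 r hr (hrd.trans (Nat.gcd_dvd_right _ _))
  have := Nat.dvd_gcd hrq hrm
  rw [hqm] at this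
  exact hr.one_lt.ne' (Nat.dvd_one.mp this)

/-- The geometric sum `∑_{i<n} X^i` is `≡ n` modulo any divisor of `X - 1`. -/
theorem geom_sum_modEq {X m c : ℕ} (hX : X = m * c + 1) (n : ℕ) :
    (∑ i ∈ Finset.range n, X ^ i) ≡ n [MOD m] := by
  rw [← ZMod.natCast_eq_natCast_iff]
  push_cast
  have h1 : (X : ZMod m) = 1 := by
    rw [hX]; push_cast; rw [ZMod.natCast_self]; ring
  simp [h1]

theorem geom_sum_mul_add_one {X m c : ℕ} (hX : X = m * c + 1) (n : ℕ) :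
    (∑ i ∈ Finset.range n, X ^ i) * (m * c) + 1 = X ^ n := by
  have h := geom_sum_mul (X : ℤ) n
  have h2 : ((X : ℤ) - 1) = ((m * c : ℕ) : ℤ) := by rw [hX]; push_cast; ring
  rw [h2] at h
  have h3 : (((∑ i ∈ Finset.range n, X ^ i) * (m * c) + 1 : ℕ) : ℤ) = ((X ^ n : ℕ) : ℤ) := by
    push_cast
    push_cast at h
    linarith
  exact_mod_cast h3

/-- **(N4)** For deep `m` and a prime `ℓ ≡ -1` modulo `m` (modulo `4 m` if `m` is even), `ℓ ≠ q, 2`: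
some `q ^ (2 j₀) - 1` equals `m * ℓ * w₀` with `w₀` prime to `m`. -/
theorem exists_w0 {q m ℓ : ℕ} (hq : q.Prime) (hdeep : IsDeep q m) (hℓ : ℓ.Prime)
    (hℓq : ℓ ≠ q) (hℓ2 : ℓ ≠ 2)
    (hcong : (ℓ : ℤ) ≡ -1 [ZMOD ((if 2 ∣ m then 4 * m else m : ℕ) : ℤ)]) :
    ∃ j₀ w₀ : ℕ, 0 < j₀ ∧ q ^ (2 * j₀) - 1 = m * ℓ * w₀ ∧ Nat.Coprime w₀ m := by
  obtain ⟨j, c, hj, hjc, hcop⟩ := hdeep
  have hodd : Odd ℓ := hℓ.odd_of_ne_two hℓ2
  have h2n := two_mul_half hodd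
  set n := (ℓ - 1) / 2 with hn
  have hℓ3 : 3 ≤ ℓ := by
    have := hℓ.two_le
    omega
  have hnpos : 0 < n := by omega
  have hXpos : 1 ≤ q ^ (2 * j) := Nat.one_le_pow _ _ hq.pos
  have hX : q ^ (2 * j) = m * c + 1 := by omega
  -- `m ∣ n + 1`
  have hmn : m ∣ n + 1 := by
    have hd : ((if 2 ∣ m then 4 * m else m : ℕ) : ℤ) ∣ (ℓ : ℤ) + 1 := by
      have := (Int.modEq_iff_dvd.mp hcong.symm)
      simpa using this
    have hℓn : (ℓ : ℤ) + 1 = 2 * ((n : ℤ) + 1) := by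
      have : (ℓ : ℤ) = 2 * (n : ℤ) + 1 := by
        have h3 : ℓ = 2 * n + 1 := by omega
        exact_mod_cast h3
      rw [this]; ring
    rw [hℓn] at hd
    by_cases h2m : 2 ∣ m
    · rw [if_pos h2m] at hd
      obtain ⟨s, hs⟩ := hd
      have : (n : ℤ) + 1 = (m : ℤ) * (2 * s) := by push_cast at hs; linarith
      have h4 : (m : ℤ) ∣ ((n + 1 : ℕ) : ℤ) := ⟨2 * s, by push_cast; exact this⟩
      exact Int.natCast_dvd_natCast.mp h4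
    · rw [if_neg h2m] at hd
      have hcop2 : IsCoprime (m : ℤ) (2 : ℤ) := by
        have : Nat.Coprime m 2 := (Nat.coprime_comm.mp ((Nat.Prime.coprime_iff_not_dvd Nat.prime_two).mpr h2m))
        exact_mod_cast Nat.isCoprime_iff_coprime.mpr this
      have h4 : (m : ℤ) ∣ ((n + 1 : ℕ) : ℤ) := by
        push_cast
        exact hcop2.dvd_of_dvd_mul_left hd
      exact Int.natCast_dvd_natCast.mp h4
  have hcopn : Nat.Coprime n m := by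
    have h5 : Nat.Coprime n (n + 1) := by simp
    exact Nat.Coprime.coprime_dvd_right hmn h5
  -- the geometric sum
  set G := ∑ i ∈ Finset.range n, (q ^ (2 * j)) ^ i with hG
  have hGmod : G ≡ n [MOD m] := geom_sum_modEq hX n
  have hGcop : Nat.Coprime G m := by
    have := Nat.ModEq.gcd_eq hGmod
    rw [Nat.coprime_iff_gcd_eq_one, this]
    exact hcopn
  have hkey : G * (m * c) + 1 = (q ^ (2 * j)) ^ n := geom_sum_mul_add_one hX n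
  have hpow : (q ^ (2 * j)) ^ n = q ^ (2 * (j * n)) := by rw [← pow_mul]; ring_nf
  -- `ℓ` divides
  have hℓnq : ¬ ℓ ∣ q := fun h => hℓq ((Nat.prime_dvd_prime_iff_eq hℓ hq).mp h)
  have hℓdvd : ℓ ∣ G * (m * c) := by
    have h6 := prime_dvd_pow_sub_one hℓ hℓnq j
    have e : (ℓ - 1) * j = 2 * (j * n) := by rw [← h2n]; ring
    rw [e, ← Int.natCast_pow] at h6
    have h7 : ((G * (m * c) : ℕ) : ℤ) = ((q ^ (2 * (j * n)) : ℕ) : ℤ) - 1 := by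
      rw [← hpow, ← hkey]; push_cast; ring
    rw [← h7] at h6
    exact Int.natCast_dvd_natCast.mp h6
  have hℓm : ¬ ℓ ∣ m := by
    intro h
    have hd : ((if 2 ∣ m then 4 * m else m : ℕ) : ℤ) ∣ (ℓ : ℤ) + 1 := by
      have := (Int.modEq_iff_dvd.mp hcong.symm)
      simpa using this
    have h8 : (ℓ : ℤ) ∣ (ℓ : ℤ) + 1 := by
      refine dvd_trans ?_ hd
      by_cases h2m : 2 ∣ m
      · rw [if_pos h2m]; push_cast
        exact (Int.natCast_dvd_natCast.mpr h).mul_left 4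
      · rw [if_neg h2m]; exact Int.natCast_dvd_natCast.mpr h
    have h9 : (ℓ : ℤ) ∣ 1 := (Int.dvd_add_right (dvd_refl _)).mp h8
    have := Int.le_of_dvd one_pos h9
    omega
  have hℓcop : Nat.Coprime ℓ m := (Nat.Prime.coprime_iff_not_dvd hℓ).mpr hℓm
  have hℓGc : ℓ ∣ G * c := by
    have : ℓ ∣ m * (G * c) := by
      have e : G * (m * c) = m * (G * c) := by ring
      rwa [e] at hℓdvd
    exact hℓcop.dvd_of_dvd_mul_left this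
  obtain ⟨w₀, hw₀⟩ := hℓGc
  refine ⟨j * n, w₀, Nat.mul_pos hj hnpos, ?_, ?_⟩
  · rw [← hpow, ← hkey]
    have e : G * (m * c) = m * (G * c) := by ring
    rw [e, hw₀]; simp [mul_assoc]
  · have h10 : Nat.Coprime (G * c) m := Nat.Coprime.mul_left hGcop hcop
    exact Nat.Coprime.coprime_dvd_left ⟨ℓ, by rw [hw₀, mul_comm]⟩ h10

/-! ### (N6) Dirichlet in a class modulo `a` with a side condition modulo `m₄` -/

/-- **(N6)** Dirichlet + CRT: a prime `ℓ > n₀` with `ℓ ≡ -1 (mod m₄)` in the class `b₁ + a ℤ`. -/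
theorem exists_prime_in_class (a b₁ : ℤ) (ha : a ≠ 0) (hab : IsCoprime b₁ a) (m₄ : ℕ)
    (hm₄ : 0 < m₄) (ham : IsCoprime a (m₄ : ℤ)) (n₀ : ℕ) :
    ∃ ℓ : ℕ, ℓ.Prime ∧ n₀ < ℓ ∧ (ℓ : ℤ) ≡ -1 [ZMOD (m₄ : ℤ)] ∧ ∃ t : ℤ, (ℓ : ℤ) = b₁ + t * a := by
  obtain ⟨x, y, hxy⟩ := ham
  -- the CRT class
  set c : ℤ := b₁ * (y * m₄) - x * a with hc
  have hca : c = b₁ + a * (-(b₁ + 1) * x) := by rw [hc]; linear_combination b₁ * hxy
  have hcm : c = -1 + (m₄ : ℤ) * ((b₁ + 1) * y) := by rw [hc]; linear_combination (-1 : ℤ) * hxy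
  have h1 : IsCoprime c a := by rw [hca]; exact hab.add_mul_left_left _
  have h2 : IsCoprime c (m₄ : ℤ) := by
    rw [hcm]; exact (isCoprime_one_left.neg_left).add_mul_left_left _
  have hA : 0 < a.natAbs := Int.natAbs_pos.mpr ha
  have h1' : IsCoprime c (a.natAbs : ℤ) := by
    rcases Int.natAbs_eq a with h | h
    · rw [← h]; exact h1
    · have : (a.natAbs : ℤ) = -a := by omega
      rw [this]; exact h1.neg_right
  have h3 : IsCoprime c ((a.natAbs * m₄ : ℕ) : ℤ) := by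
    rw [Nat.cast_mul]; exact h1'.mul_right h2
  obtain ⟨p, hpgt, hp, hpc⟩ :=
    Nat.forall_exists_prime_gt_and_zmodEq n₀ (Nat.mul_pos hA hm₄).ne' h3
  refine ⟨p, hp, hpgt, ?_, ?_⟩
  · have h4 : (p : ℤ) ≡ c [ZMOD (m₄ : ℤ)] :=
      hpc.of_dvd (Int.natCast_dvd_natCast.mpr (Dvd.intro_left _ rfl))
    rw [hcm] at h4
    exact h4.trans Int.modEq_add_fac_self
  · have h4 : (p : ℤ) ≡ c [ZMOD (a.natAbs : ℤ)] :=
      hpc.of_dvd (Int.natCast_dvd_natCast.mpr (Dvd.intro _ rfl))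
    have h5 : (a.natAbs : ℤ) ∣ c - p := Int.modEq_iff_dvd.mp h4
    obtain ⟨s, hs⟩ := Int.natAbs_dvd.mp h5
    refine ⟨-(b₁ + 1) * x - s, ?_⟩
    rw [hca] at hs
    linear_combination (-1 : ℤ) * hs

/-! ### the arithmetic of step (D), combined -/

/-- `a` prime to `m` is prime to `m₄ := if 2 ∣ m then 4 * m else m`. -/
theorem isCoprime_m4 {a : ℤ} {m : ℕ} (ham : IsCoprime a (m : ℤ)) :
    IsCoprime a ((if 2 ∣ m then 4 * m else m : ℕ) : ℤ) := by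
  by_cases h2 : 2 ∣ m
  · rw [if_pos h2]
    have h2Z : (2 : ℤ) ∣ (m : ℤ) := by exact_mod_cast Int.natCast_dvd_natCast.mpr h2
    have ha2 : IsCoprime a (2 : ℤ) := ham.of_isCoprime_of_dvd_right h2Z
    have ha4 : IsCoprime a (4 : ℤ) := by
      have : (4 : ℤ) = 2 * 2 := by norm_num
      rw [this]; exact ha2.mul_right ha2
    push_cast
    exact ha4.mul_right ham
  · rw [if_neg h2]; exact ham

/-- **(N4)+(N6) combined, the arithmetic of step (D)**: for deep `m`, coprime integers `b₁, a`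
with `a ≠ 0` prime to `m`: there is `t` with `b₁ + t a = ℓ` a prime `> n₀`, and `j₀ > 0`, `w₀` prime
to `m` with `q ^ (2 j₀) - 1 = m ℓ w₀`. -/
theorem exists_deep_dvd {q m : ℕ} (hq : q.Prime) (hm : 0 < m) (hdeep : IsDeep q m) (a b₁ : ℤ)
    (ha : a ≠ 0) (hab : IsCoprime b₁ a) (ham : IsCoprime a (m : ℤ)) (n₀ : ℕ) :
    ∃ (ℓ j₀ w₀ : ℕ) (t : ℤ), ℓ.Prime ∧ n₀ < ℓ ∧ (ℓ : ℤ) = b₁ + t * a ∧ 0 < j₀ ∧
      q ^ (2 * j₀) - 1 = m * ℓ * w₀ ∧ Nat.Coprime w₀ m := by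
  have hm₄ : 0 < (if 2 ∣ m then 4 * m else m : ℕ) := by
    by_cases h2 : 2 ∣ m
    · rw [if_pos h2]; omega
    · rw [if_neg h2]; exact hm
  obtain ⟨ℓ, hℓ, hgt, hcong, t, ht⟩ :=
    exists_prime_in_class a b₁ ha hab _ hm₄ (isCoprime_m4 ham) (max n₀ (max q 2))
  have h1 : n₀ < ℓ := lt_of_le_of_lt (le_max_left _ _) hgt
  have h2 : q < ℓ := lt_of_le_of_lt ((le_max_left _ _).trans (le_max_right _ _)) hgt
  have h3 : 2 < ℓ := lt_of_le_of_lt ((le_max_right _ _).trans (le_max_right _ _)) hgt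
  obtain ⟨j₀, w₀, hj₀, hw, hcop⟩ := exists_w0 hq hdeep hℓ (by omega) (by omega) hcong
  exact ⟨ℓ, j₀, w₀, t, hℓ, h1, ht, hj₀, hw, hcop⟩

end Fermat.Agent.S41.CSP.Arith
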