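/-
S41 / [IH2-F] (R2) TwoPart leaf (board #2044 (3), helper2): in `SL₂(ℤ/2^f)` the cyclic subgroup
generated by `g₀ = eU 1 * eL (-1)` has 2-power index (its reduction mod 2 has order 3,
`|SL₂(𝔽₂)| = 6`, the kernel of reduction is a 2-group).  On top of `CSP/CyclicSylow.lean`.
-/
import Mathlib
import Fermat.Agent.S41.CSP.CyclicSylow

set_option autoImplicit false

namespace Fermat.Agent.S41.CSP.CyclicSylowTwo

open Matrix Fermat.Agent.S41.CSP.Descent Fermat.Agent.S41.CSP.CyclicSylow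

/-- `eU 1 * eL (-1)` has order `3` in `SL₂(𝔽₂)`. -/
theorem orderOf_eU_mul_eL_two : orderOf (eU 1 * eL (-1) : SL2 (ZMod 2)) = 3 := by
  have : Fact (Nat.Prime 3) := ⟨Nat.prime_three⟩
  apply orderOf_eq_prime
  · decide
  · decide

theorem red_eU_mul_eL {r f : ℕ} [Fact r.Prime] (hf : 0 < f) :
    red r f hf (eU 1 * eL (-1)) = eU 1 * eL (-1) := by
  rw [map_mul]
  congr 1
  · apply sl2_ext <;> rw [red_apply] <;> simp [-ZMod.castHom_apply]
  · apply sl2_ext <;> rw [red_apply] <;> simp [-ZMod.castHom_apply]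

/-- `3` divides the order of `eU 1 * eL (-1)` in `SL₂(ℤ/2^f)`. -/
theorem three_dvd_orderOf (f : ℕ) (hf : 0 < f) :
    3 ∣ orderOf (eU 1 * eL (-1) : SL2 (ZMod (2 ^ f))) := by
  have : Fact (Nat.Prime 2) := ⟨Nat.prime_two⟩
  have h := orderOf_map_dvd (red 2 f hf) (eU 1 * eL (-1) : SL2 (ZMod (2 ^ f)))
  rwa [red_eU_mul_eL, orderOf_eU_mul_eL_two] at h

/-- The index of `⟨eU 1 * eL (-1)⟩` in `SL₂(ℤ/2^f)` is a power of `2`. -/
theorem two_zpowers_index_eq_pow (f : ℕ) (hf : 0 < f) :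
    ∃ k : ℕ, (Subgroup.zpowers (eU 1 * eL (-1) : SL2 (ZMod (2 ^ f)))).index = 2 ^ k := by
  have : Fact (Nat.Prime 2) := ⟨Nat.prime_two⟩
  have : NeZero (2 ^ f) := ⟨pow_ne_zero _ two_ne_zero⟩
  obtain ⟨m, hm⟩ := exists_card_SL2_zmod_prime_pow (r := 2) hf
  obtain ⟨c, hc⟩ := three_dvd_orderOf f hf
  have h1 : (Subgroup.zpowers (eU 1 * eL (-1) : SL2 (ZMod (2 ^ f)))).index
      * orderOf (eU 1 * eL (-1) : SL2 (ZMod (2 ^ f))) = Nat.card (SL2 (ZMod (2 ^ f))) := by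
    rw [← Nat.card_zpowers, mul_comm, Subgroup.card_mul_index]
  rw [hm, hc] at h1
  have h2 : (Subgroup.zpowers (eU 1 * eL (-1) : SL2 (ZMod (2 ^ f)))).index * c = 2 ^ (m + 1) := by
    have : (2 : ℕ) * (2 - 1) * (2 + 1) = 2 * 3 := by norm_num
    rw [this] at h1
    have h3 : ((Subgroup.zpowers (eU 1 * eL (-1) : SL2 (ZMod (2 ^ f)))).index * c) * 3
        = 2 ^ (m + 1) * 3 := by
      rw [pow_succ]
      linarith
    exact Nat.eq_of_mul_eq_mul_right (by norm_num) h3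
  exact (Nat.dvd_prime_pow Nat.prime_two).mp ⟨c, h2.symm⟩ |>.imp fun k hk => hk.2

/-- helper2's #2044 (3), verbatim. -/
theorem two_zpowers_index (f : ℕ) (hf : 0 < f) {p : ℕ} (hp : p.Prime) (hp2 : p ≠ 2) :
    ¬ p ∣ (Subgroup.zpowers (eU 1 * eL (-1) : SL2 (ZMod (2 ^ f)))).index := by
  obtain ⟨k, hk⟩ := two_zpowers_index_eq_pow f hf
  rw [hk]
  intro h
  exact hp2 ((Nat.prime_dvd_prime_iff_eq hp Nat.prime_two).mp (hp.dvd_of_dvd_pow h))

end Fermat.Agent.S41.CSP.CyclicSylowTwo
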