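/-
S41 / [IH2] (F)(iii): "Lemma K" — the K₂-type group-theory core.

A group `E` with a hom `π : E →* SL₂(R)` (`R` a local ring) whose kernel is central, together with
lifts `X, Y : R → E` of the elementary matrices (additive), a hom lift `h : Rˣ →* E` of the torus
with the exact conjugation rules, and the exact Weyl relations for `w = X 1 * Y (-1) * X 1`.
If in `Rˣ` the product of two non-squares is a square and there are non-squares `u, v` with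
`u + v = 1`, then the subgroup generated by the `X t, Y t` meets `ker π` trivially.
-/
import Mathlib

set_option autoImplicit false

namespace Fermat.Agent.S41.CSP.LemmaK

open Matrix

section Matrices

variable {R : Type*} [CommRing R]

/-- upper elementary matrix -/
def eX (t : R) : SpecialLinearGroup (Fin 2) R := ⟨!![1, t; 0, 1], by simp [det_fin_two]⟩
/-- lower elementary matrix -/
def eY (t : R) : SpecialLinearGroup (Fin 2) R := ⟨!![1, 0; t, 1], by simp [det_fin_two]⟩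
/-- diagonal matrix `diag(u, u⁻¹)` -/
def eD (u : Rˣ) : SpecialLinearGroup (Fin 2) R :=
  ⟨!![(u : R), 0; 0, ((u⁻¹ : Rˣ) : R)], by simp [det_fin_two]⟩
/-- monomial matrix `[[0,u],[-u⁻¹,0]]` -/
def eW (u : Rˣ) : SpecialLinearGroup (Fin 2) R :=
  ⟨!![0, (u : R); -((u⁻¹ : Rˣ) : R), 0], by simp [det_fin_two]⟩

@[simp] theorem coe_eX (t : R) : (eX t : Matrix (Fin 2) (Fin 2) R) = !![1, t; 0, 1] := rfl
@[simp] theorem coe_eY (t : R) : (eY t : Matrix (Fin 2) (Fin 2) R) = !![1, 0; t, 1] := rfl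
@[simp] theorem coe_eD (u : Rˣ) :
    (eD u : Matrix (Fin 2) (Fin 2) R) = !![(u : R), 0; 0, ((u⁻¹ : Rˣ) : R)] := rfl
@[simp] theorem coe_eW (u : Rˣ) :
    (eW u : Matrix (Fin 2) (Fin 2) R) = !![0, (u : R); -((u⁻¹ : Rˣ) : R), 0] := rfl

theorem eX_mul_eY_mul_eX (u : Rˣ) :
    eX (u : R) * eY (-((u⁻¹ : Rˣ) : R)) * eX (u : R) = eW u := by
  ext i j
  fin_cases i <;> fin_cases j <;> simp [Matrix.mul_apply, Fin.sum_univ_two]

theorem eW_eq (u : Rˣ) : eW u = eD u * eW 1 := by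
  ext i j
  fin_cases i <;> fin_cases j <;> simp [Matrix.mul_apply, Fin.sum_univ_two]

end Matrices

/-- The data of Lemma K. -/
structure Datum (R : Type*) [CommRing R] (E : Type*) [Group E] where
  π : E →* SpecialLinearGroup (Fin 2) R
  X : R → E
  Y : R → E
  h : Rˣ →* E
  ζ_central : ∀ (u : Rˣ) (g : E),
    g * (X (u : R) * Y (-((u⁻¹ : Rˣ) : R)) * X (u : R) * (X 1 * Y (-1) * X 1)⁻¹ * (h u)⁻¹)
      = (X (u : R) * Y (-((u⁻¹ : Rˣ) : R)) * X (u : R) * (X 1 * Y (-1) * X 1)⁻¹ * (h u)⁻¹) * g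
  X_add : ∀ s t : R, X (s + t) = X s * X t
  Y_add : ∀ s t : R, Y (s + t) = Y s * Y t
  π_X : ∀ t : R, π (X t) = eX t
  π_Y : ∀ t : R, π (Y t) = eY t
  π_h : ∀ u : Rˣ, π (h u) = eD u
  h_X : ∀ (u : Rˣ) (t : R), h u * X t = X ((u : R) ^ 2 * t) * h u
  h_Y : ∀ (u : Rˣ) (t : R), h u * Y t = Y (((u⁻¹ : Rˣ) : R) ^ 2 * t) * h u
  w_X : ∀ t : R, (X 1 * Y (-1) * X 1) * X t = Y (-t) * (X 1 * Y (-1) * X 1)
  w_Y : ∀ t : R, (X 1 * Y (-1) * X 1) * Y t = X (-t) * (X 1 * Y (-1) * X 1)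

namespace Datum

variable {R : Type*} [CommRing R] {E : Type*} [Group E] (D : Datum R E)

theorem X_zero : D.X 0 = 1 := by
  have h := D.X_add 0 0
  rw [add_zero] at h
  exact left_eq_mul.mp h

theorem Y_zero : D.Y 0 = 1 := by
  have h := D.Y_add 0 0
  rw [add_zero] at h
  exact left_eq_mul.mp h

theorem X_neg (t : R) : D.X (-t) = (D.X t)⁻¹ :=
  eq_inv_of_mul_eq_one_left (by rw [← D.X_add, neg_add_cancel, D.X_zero])

theorem Y_neg (t : R) : D.Y (-t) = (D.Y t)⁻¹ :=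
  eq_inv_of_mul_eq_one_left (by rw [← D.Y_add, neg_add_cancel, D.Y_zero])

theorem X_add_assoc (s t : R) (r : E) : D.X s * (D.X t * r) = D.X (s + t) * r := by
  rw [D.X_add, mul_assoc]

theorem Y_add_assoc (s t : R) (r : E) : D.Y s * (D.Y t * r) = D.Y (s + t) * r := by
  rw [D.Y_add, mul_assoc]

/-- `W u = X u * Y (-u⁻¹) * X u`, a lift of `[[0,u],[-u⁻¹,0]]`. -/
def W (u : Rˣ) : E := D.X (u : R) * D.Y (-((u⁻¹ : Rˣ) : R)) * D.X (u : R)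

/-- `w = W 1`. -/
def w : E := D.X 1 * D.Y (-1) * D.X 1

theorem W_one : D.W 1 = D.w := by simp [W, w]

/-- `Hh u = W u * w⁻¹`, a lift of `diag(u,u⁻¹)`. -/
def Hh (u : Rˣ) : E := D.W u * D.w⁻¹

/-- the central defect `ζ u = Hh u * (h u)⁻¹`. -/
def ζ (u : Rˣ) : E := D.Hh u * (D.h u)⁻¹

theorem π_W (u : Rˣ) : D.π (D.W u) = eW u := by
  simp only [W, map_mul, D.π_X, D.π_Y]
  exact eX_mul_eY_mul_eX u

theorem π_w : D.π D.w = eW 1 := by rw [← W_one, π_W]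

theorem π_Hh (u : Rˣ) : D.π (D.Hh u) = eD u := by
  rw [Hh, map_mul, map_inv, π_W, π_w, eW_eq u, mul_inv_cancel_right]

theorem π_ζ (u : Rˣ) : D.π (D.ζ u) = 1 := by
  rw [ζ, map_mul, map_inv, π_Hh, D.π_h, mul_inv_cancel]

theorem ζ_comm (u : Rˣ) (g : E) : g * D.ζ u = D.ζ u * g := D.ζ_central u g

theorem ζ_comm_assoc (u : Rˣ) (g r : E) : g * (D.ζ u * r) = D.ζ u * (g * r) := by
  rw [← mul_assoc, D.ζ_comm, mul_assoc]

theorem Hh_eq (u : Rˣ) : D.Hh u = D.ζ u * D.h u := by simp [ζ]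

theorem W_eq (u : Rˣ) : D.W u = D.ζ u * D.h u * D.w := by simp [ζ, Hh, mul_assoc]

theorem W_eq' (u : Rˣ) : D.W u = D.Hh u * D.w := by simp [Hh]

theorem w_X' (t : R) : D.w * D.X t = D.Y (-t) * D.w := D.w_X t

theorem w_Y' (t : R) : D.w * D.Y t = D.X (-t) * D.w := D.w_Y t

/-- R2 for all units, `X`-version. -/
theorem W_X (u : Rˣ) (t : R) :
    D.W u * D.X t = D.Y (-(((u⁻¹ : Rˣ) : R) ^ 2 * t)) * D.W u := by
  calc D.W u * D.X t = D.ζ u * (D.h u * (D.w * D.X t)) := by rw [W_eq]; simp only [mul_assoc]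
    _ = D.ζ u * (D.h u * (D.Y (-t) * D.w)) := by rw [w_X']
    _ = D.ζ u * ((D.h u * D.Y (-t)) * D.w) := by simp only [mul_assoc]
    _ = D.ζ u * ((D.Y (((u⁻¹ : Rˣ) : R) ^ 2 * -t) * D.h u) * D.w) := by rw [D.h_Y]
    _ = (D.ζ u * D.Y (((u⁻¹ : Rˣ) : R) ^ 2 * -t)) * (D.h u * D.w) := by simp only [mul_assoc]
    _ = (D.Y (((u⁻¹ : Rˣ) : R) ^ 2 * -t) * D.ζ u) * (D.h u * D.w) := by rw [D.ζ_comm]
    _ = D.Y (-(((u⁻¹ : Rˣ) : R) ^ 2 * t)) * D.W u := by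
        rw [W_eq, mul_neg]; simp only [mul_assoc]

/-- R2 for all units, `Y`-version. -/
theorem W_Y (u : Rˣ) (t : R) :
    D.W u * D.Y t = D.X (-((u : R) ^ 2 * t)) * D.W u := by
  calc D.W u * D.Y t = D.ζ u * (D.h u * (D.w * D.Y t)) := by rw [W_eq]; simp only [mul_assoc]
    _ = D.ζ u * (D.h u * (D.X (-t) * D.w)) := by rw [w_Y']
    _ = D.ζ u * ((D.h u * D.X (-t)) * D.w) := by simp only [mul_assoc]
    _ = D.ζ u * ((D.X ((u : R) ^ 2 * -t) * D.h u) * D.w) := by rw [D.h_X]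
    _ = (D.ζ u * D.X ((u : R) ^ 2 * -t)) * (D.h u * D.w) := by simp only [mul_assoc]
    _ = (D.X ((u : R) ^ 2 * -t) * D.ζ u) * (D.h u * D.w) := by rw [D.ζ_comm]
    _ = D.X (-((u : R) ^ 2 * t)) * D.W u := by
        rw [W_eq, mul_neg]; simp only [mul_assoc]

theorem W_X_assoc (u : Rˣ) (t : R) (r : E) :
    D.W u * (D.X t * r) = D.Y (-(((u⁻¹ : Rˣ) : R) ^ 2 * t)) * (D.W u * r) := by
  rw [← mul_assoc, D.W_X, mul_assoc]

theorem W_Y_assoc (u : Rˣ) (t : R) (r : E) :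
    D.W u * (D.Y t * r) = D.X (-((u : R) ^ 2 * t)) * (D.W u * r) := by
  rw [← mul_assoc, D.W_Y, mul_assoc]

theorem W_neg (u : Rˣ) : D.W (-u) = (D.W u)⁻¹ := by
  simp [W, inv_neg, X_neg, Y_neg, _root_.mul_inv_rev, mul_assoc]

/-- the alternative form `W u = Y (-u⁻¹) * X u * Y (-u⁻¹)`. -/
theorem W_alt (u : Rˣ) :
    D.W u = D.Y (-((u⁻¹ : Rˣ) : R)) * D.X (u : R) * D.Y (-((u⁻¹ : Rˣ) : R)) := by
  have h1 : (u : R) * ((u⁻¹ : Rˣ) : R) = 1 := Units.mul_inv u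
  have e1 : ((u⁻¹ : Rˣ) : R) ^ 2 * (u : R) = ((u⁻¹ : Rˣ) : R) := by
    linear_combination ((u⁻¹ : Rˣ) : R) * h1
  have e2 : -((u : R) ^ 2 * -((u⁻¹ : Rˣ) : R)) = (u : R) := by
    linear_combination (u : R) * h1
  have key : D.W u * D.W u
      = (D.Y (-((u⁻¹ : Rˣ) : R)) * D.X (u : R) * D.Y (-((u⁻¹ : Rˣ) : R))) * D.W u := by
    calc D.W u * D.W u
        = D.W u * (D.X (u : R) * (D.Y (-((u⁻¹ : Rˣ) : R)) * D.X (u : R))) := by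
          congr 1; simp only [W, mul_assoc]
      _ = (D.Y (-((u⁻¹ : Rˣ) : R)) * D.X (u : R) * D.Y (-((u⁻¹ : Rˣ) : R))) * D.W u := by
          rw [D.W_X_assoc, D.W_Y_assoc, D.W_X, e1, e2]; simp only [mul_assoc]
  exact mul_right_cancel key

theorem coe_inv_sq_mul_inv (u v : Rˣ) :
    (((u ^ 2 * v⁻¹)⁻¹ : Rˣ) : R) = ((u⁻¹ : Rˣ) : R) ^ 2 * (v : R) := by
  have : (u ^ 2 * v⁻¹)⁻¹ = (u⁻¹) ^ 2 * v := by
    rw [_root_.mul_inv_rev, inv_inv, inv_pow, mul_comm]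
  rw [this, Units.val_mul, Units.val_pow_eq_pow_val]

/-- `W u * W v * (W u)⁻¹ = W (u² v⁻¹)` in commutation form. -/
theorem W_W (u v : Rˣ) : D.W u * D.W v = D.W (u ^ 2 * v⁻¹) * D.W u := by
  have e1 : -((u : R) ^ 2 * -((v⁻¹ : Rˣ) : R)) = ((u ^ 2 * v⁻¹ : Rˣ) : R) := by
    rw [Units.val_mul, Units.val_pow_eq_pow_val]; ring
  calc D.W u * D.W v
      = D.W u * (D.X (v : R) * (D.Y (-((v⁻¹ : Rˣ) : R)) * D.X (v : R))) := by
        congr 1; simp only [W, mul_assoc]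
    _ = (D.Y (-(((u⁻¹ : Rˣ) : R) ^ 2 * (v : R))) * D.X (((u ^ 2 * v⁻¹ : Rˣ) : R))
          * D.Y (-(((u⁻¹ : Rˣ) : R) ^ 2 * (v : R)))) * D.W u := by
        rw [D.W_X_assoc, D.W_Y_assoc, D.W_X, e1]; simp only [mul_assoc]
    _ = D.W (u ^ 2 * v⁻¹) * D.W u := by
        rw [D.W_alt (u ^ 2 * v⁻¹), coe_inv_sq_mul_inv]

theorem w_W (v : Rˣ) : D.w * D.W v = D.W v⁻¹ * D.w := by
  have := D.W_W 1 v
  rwa [one_pow, one_mul, W_one] at this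

theorem w_Hh (v : Rˣ) : D.w * D.Hh v = D.Hh v⁻¹ * D.w := by
  rw [Hh, ← mul_assoc, D.w_W, Hh]; simp only [mul_assoc, inv_mul_cancel, mul_one, mul_inv_cancel]

theorem w_Hh_assoc (v : Rˣ) (r : E) : D.w * (D.Hh v * r) = D.Hh v⁻¹ * (D.w * r) := by
  rw [← mul_assoc, D.w_Hh, mul_assoc]

theorem Hh_rel (u v : Rˣ) : D.Hh u * D.Hh v⁻¹ = D.Hh (u ^ 2 * v⁻¹) * D.Hh u⁻¹ := by
  have key := D.W_W u v
  rw [D.W_eq' u, D.W_eq' v, D.W_eq' (u ^ 2 * v⁻¹)] at key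
  have key2 : D.Hh u * D.Hh v⁻¹ * (D.w * D.w)
      = D.Hh (u ^ 2 * v⁻¹) * D.Hh u⁻¹ * (D.w * D.w) := by
    calc D.Hh u * D.Hh v⁻¹ * (D.w * D.w) = D.Hh u * D.w * (D.Hh v * D.w) := by
          rw [mul_assoc (D.Hh u) D.w, D.w_Hh_assoc]; simp only [mul_assoc]
      _ = D.Hh (u ^ 2 * v⁻¹) * D.w * (D.Hh u * D.w) := key
      _ = D.Hh (u ^ 2 * v⁻¹) * D.Hh u⁻¹ * (D.w * D.w) := by
          rw [mul_assoc (D.Hh (u ^ 2 * v⁻¹)) D.w, D.w_Hh_assoc]; simp only [mul_assoc]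
  exact mul_right_cancel key2

theorem ζ_one : D.ζ 1 = 1 := by simp [ζ, Hh, W_one]

theorem ζ_rel (u v : Rˣ) : D.ζ u * D.ζ v⁻¹ = D.ζ (u ^ 2 * v⁻¹) * D.ζ u⁻¹ := by
  have key := D.Hh_rel u v
  rw [D.Hh_eq u, D.Hh_eq v⁻¹, D.Hh_eq (u ^ 2 * v⁻¹), D.Hh_eq u⁻¹] at key
  have e : u ^ 2 * v⁻¹ * u⁻¹ = u * v⁻¹ := by
    rw [pow_two, mul_assoc, mul_assoc, mul_comm v⁻¹ u⁻¹, ← mul_assoc u u⁻¹, mul_inv_cancel,
      one_mul]
  have key2 : D.ζ u * D.ζ v⁻¹ * D.h (u * v⁻¹) = D.ζ (u ^ 2 * v⁻¹) * D.ζ u⁻¹ * D.h (u * v⁻¹) := by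
    calc D.ζ u * D.ζ v⁻¹ * D.h (u * v⁻¹) = D.ζ u * D.h u * (D.ζ v⁻¹ * D.h v⁻¹) := by
          rw [map_mul]; simp only [mul_assoc]; rw [D.ζ_comm_assoc v⁻¹ (D.h u)]
      _ = D.ζ (u ^ 2 * v⁻¹) * D.h (u ^ 2 * v⁻¹) * (D.ζ u⁻¹ * D.h u⁻¹) := key
      _ = D.ζ (u ^ 2 * v⁻¹) * D.ζ u⁻¹ * D.h (u * v⁻¹) := by
          rw [← e, map_mul (D.h) (u ^ 2 * v⁻¹) u⁻¹]; simp only [mul_assoc]
          rw [D.ζ_comm_assoc u⁻¹ (D.h (u ^ 2 * v⁻¹))]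
  exact mul_right_cancel key2

theorem ζ_sq (u : Rˣ) : D.ζ u = D.ζ (u ^ 2) * D.ζ u⁻¹ := by
  have := D.ζ_rel u 1
  rwa [inv_one, ζ_one, mul_one, mul_one] at this

theorem ζ_sq_mul (u v : Rˣ) : D.ζ (u ^ 2 * v) = D.ζ (u ^ 2) * D.ζ v := by
  have h1 := D.ζ_rel u v⁻¹
  rw [inv_inv] at h1
  have h2 := D.ζ_sq u
  have key : D.ζ (u ^ 2 * v) * D.ζ u⁻¹ = D.ζ (u ^ 2) * D.ζ v * D.ζ u⁻¹ := by
    rw [← h1, mul_assoc, D.ζ_comm u⁻¹ (D.ζ v), ← mul_assoc, ← h2]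
  exact mul_right_cancel key

theorem Y_neg_inv (u : Rˣ) :
    D.Y (-((u⁻¹ : Rˣ) : R)) = D.X (-(u : R)) * D.W u * D.X (-(u : R)) := by
  simp [W, X_neg, mul_assoc]

theorem WW_X (A B : Rˣ) (t : R) :
    D.W A * (D.W B * D.X t)
      = D.X ((A : R) ^ 2 * (((B⁻¹ : Rˣ) : R) ^ 2 * t)) * (D.W A * D.W B) := by
  rw [D.W_X, D.W_Y_assoc]
  congr 1
  congr 1
  ring

/-- The three-term relation coming from `Y a * Y b = Y (a + b)`. -/
theorem W_three (A B S : Rˣ) (hS : (S : R) = (A : R) + (B : R)) :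
    D.W (-(A ^ 2 * S⁻¹)) * (D.W A * D.W B) = D.W (A * B * S⁻¹) := by
  set a : R := (A : R) with ha_def
  set a' : R := ((A⁻¹ : Rˣ) : R) with ha'_def
  set b : R := (B : R) with hb_def
  set b' : R := ((B⁻¹ : Rˣ) : R) with hb'_def
  set s : R := (S : R) with hs_def
  set s' : R := ((S⁻¹ : Rˣ) : R) with hs'_def
  have ha : a * a' = 1 := Units.mul_inv A
  have hb : b * b' = 1 := Units.mul_inv B
  have hs : s * s' = 1 := Units.mul_inv S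
  -- the two auxiliary units
  set C : Rˣ := A * B * S⁻¹ with hC_def
  set F : Rˣ := -(A ^ 2 * S⁻¹) with hF_def
  have cC : (C : R) = a * b * s' := by
    simp only [hC_def, Units.val_mul]; rfl
  have cC' : ((C⁻¹ : Rˣ) : R) = s * b' * a' := by
    have : C⁻¹ = S * B⁻¹ * A⁻¹ := by
      simp only [hC_def, _root_.mul_inv_rev, inv_inv, mul_assoc]
    rw [this]; simp only [Units.val_mul]; rfl
  have cF : (F : R) = -(a ^ 2 * s') := by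
    simp only [hF_def, Units.val_neg, Units.val_mul, Units.val_pow_eq_pow_val]; rfl
  have cF' : ((F⁻¹ : Rˣ) : R) = -(s * a' ^ 2) := by
    have : F⁻¹ = -(S * (A⁻¹) ^ 2) := by
      simp only [hF_def, inv_neg, _root_.mul_inv_rev, inv_inv, inv_pow]
    rw [this]; simp only [Units.val_neg, Units.val_mul, Units.val_pow_eq_pow_val]; rfl
  -- step 1: `Y (-a') * Y (-b') = Y (-C⁻¹)`
  have I1 : -a' + -b' = -((C⁻¹ : Rˣ) : R) := by
    rw [cC']; linear_combination b' * ha + a' * hb + (b' * a') * hS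
  have H : D.X (-a) * D.W A * D.X (-a) * (D.X (-b) * D.W B * D.X (-b))
      = D.X (-(C : R)) * D.W C * D.X (-(C : R)) := by
    rw [← D.Y_neg_inv A, ← D.Y_neg_inv B, ← D.Y_neg_inv C, ← D.Y_add, I1]
  -- step 2: solve for `W C`
  have H2 : D.W C = D.X (C : R) * (D.X (-a) * D.W A * D.X (-a) * (D.X (-b) * D.W B * D.X (-b)))
      * D.X (C : R) := by
    rw [H]; simp [X_neg, mul_assoc]
  rw [H2]
  -- step 3: normalise
  have I2 : -(a' ^ 2 * (-a + -b)) = -((F⁻¹ : Rˣ) : R) := by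
    rw [cF']; linear_combination (-a' ^ 2) * hS
  have I3 : (C : R) + -a + -(F : R) = 0 := by
    rw [cC, cF]; linear_combination a * hs - a * s' * hS
  have I4 : -(F : R) + a ^ 2 * (b' ^ 2 * (-b + (C : R))) = 0 := by
    rw [cC, cF]
    linear_combination a ^ 2 * b' * hs - a ^ 2 * b' * s' * hS
      + a ^ 2 * (a * b' * s' - b' - s') * hb
  symm
  calc D.X (C : R) * (D.X (-a) * D.W A * D.X (-a) * (D.X (-b) * D.W B * D.X (-b))) * D.X (C : R)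
      = D.X ((C : R) + -a) * (D.W A * (D.X (-a + -b) * (D.W B * D.X (-b + (C : R))))) := by
        simp only [mul_assoc, D.X_add]
    _ = D.X ((C : R) + -a) * (D.Y (-((F⁻¹ : Rˣ) : R)) * (D.W A * (D.W B * D.X (-b + (C : R))))) := by
        rw [D.W_X_assoc, I2]
    _ = D.X ((C : R) + -a + -(F : R)) * (D.W F * (D.X (-(F : R))
          * (D.W A * (D.W B * D.X (-b + (C : R)))))) := by
        rw [D.Y_neg_inv F]; simp only [mul_assoc, D.X_add]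
    _ = D.W F * (D.X (-(F : R) + a ^ 2 * (b' ^ 2 * (-b + (C : R)))) * (D.W A * D.W B)) := by
        rw [I3, D.X_zero, one_mul, D.WW_X, ← mul_assoc (D.X _) (D.X _), ← D.X_add]
    _ = D.W F * (D.W A * D.W B) := by
        rw [I4, D.X_zero, one_mul]

theorem w_mul_w : D.w * D.w = (D.Hh (-1))⁻¹ := by
  rw [Hh, W_neg, W_one]; simp [_root_.mul_inv_rev]

theorem Hh_three (A B S : Rˣ) (hS : (S : R) = (A : R) + (B : R)) :
    D.Hh (-(A ^ 2 * S⁻¹)) * (D.Hh A⁻¹ * D.Hh B) = D.Hh (A * B * S⁻¹) * D.Hh (-1) := by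
  have key := D.W_three A B S hS
  rw [D.W_eq' (-(A ^ 2 * S⁻¹)), D.W_eq' A, D.W_eq' B, D.W_eq' (A * B * S⁻¹)] at key
  have e1 : D.Hh (-(A ^ 2 * S⁻¹)) * D.w * (D.Hh A * D.w * (D.Hh B * D.w))
      = D.Hh (-(A ^ 2 * S⁻¹)) * (D.Hh A⁻¹ * D.Hh B) * (D.w * D.w) * D.w := by
    simp only [mul_assoc]
    rw [D.w_Hh_assoc A, D.w_Hh_assoc B, D.w_Hh_assoc B⁻¹, inv_inv]
  rw [e1] at key
  have key2 := mul_right_cancel key
  rw [D.w_mul_w] at key2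
  rw [← key2]; simp only [mul_assoc, inv_mul_cancel, mul_one]

/-- the central defect as an element of the (commutative) centre. -/
def zc (u : Rˣ) : Subgroup.center E :=
  ⟨D.ζ u, Subgroup.mem_center_iff.mpr (fun g => D.ζ_comm u g)⟩

theorem zc_one : D.zc 1 = 1 := Subtype.ext D.ζ_one

theorem zc_sq_mul (r v : Rˣ) : D.zc (r * r * v) = D.zc (r * r) * D.zc v := by
  apply Subtype.ext
  have := D.ζ_sq_mul r v
  rw [pow_two] at this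
  exact this

theorem Hh_mul_Hh (u v : Rˣ) : D.Hh u * D.Hh v = D.ζ u * D.ζ v * D.h (u * v) := by
  rw [D.Hh_eq u, D.Hh_eq v, map_mul]; simp only [mul_assoc]; rw [D.ζ_comm_assoc v (D.h u)]

theorem zc_three (A B S : Rˣ) (hS : (S : R) = (A : R) + (B : R)) :
    D.zc (-(A ^ 2 * S⁻¹)) * (D.zc A⁻¹ * D.zc B) = D.zc (A * B * S⁻¹) * D.zc (-1) := by
  apply Subtype.ext
  show D.ζ (-(A ^ 2 * S⁻¹)) * (D.ζ A⁻¹ * D.ζ B) = D.ζ (A * B * S⁻¹) * D.ζ (-1)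
  have key := D.Hh_three A B S hS
  rw [D.Hh_mul_Hh A⁻¹ B, D.Hh_mul_Hh (A * B * S⁻¹) (-1), D.Hh_eq (-(A ^ 2 * S⁻¹))] at key
  have e : -(A ^ 2 * S⁻¹) * (A⁻¹ * B) = A * B * S⁻¹ * -1 := by
    rw [mul_neg_one, neg_mul, pow_two]
    congr 1
    calc A * A * S⁻¹ * (A⁻¹ * B) = A * B * S⁻¹ * (A * A⁻¹) := by ac_rfl
      _ = A * B * S⁻¹ := by rw [mul_inv_cancel, mul_one]
  have key2 : D.ζ (-(A ^ 2 * S⁻¹)) * (D.ζ A⁻¹ * D.ζ B) * D.h (A * B * S⁻¹ * -1)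
      = D.ζ (A * B * S⁻¹) * D.ζ (-1) * D.h (A * B * S⁻¹ * -1) := by
    rw [← key, ← e, map_mul D.h (-(A ^ 2 * S⁻¹)) (A⁻¹ * B)]
    simp only [mul_assoc]
    rw [D.ζ_comm_assoc A⁻¹ (D.h (-(A ^ 2 * S⁻¹))), D.ζ_comm_assoc B (D.h (-(A ^ 2 * S⁻¹)))]
  exact mul_right_cancel key2

section Hom

variable (hsq : ∀ a b : Rˣ, ¬ IsSquare a → ¬ IsSquare b → IsSquare (a * b))
  (hns : ∃ u v : Rˣ, ¬ IsSquare u ∧ ¬ IsSquare v ∧ (u : R) + (v : R) = 1)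

include hsq hns

theorem zc_mul (a b : Rˣ) : D.zc (a * b) = D.zc a * D.zc b := by
  obtain ⟨u, v, hu, hv, huv⟩ := hns
  have hv' : ¬ IsSquare v⁻¹ := by
    rintro ⟨r, hr⟩
    exact hv ⟨r⁻¹, by rw [← _root_.mul_inv_rev, ← hr, inv_inv]⟩
  -- the key identity `z u * z v⁻¹ = z (u * v⁻¹)`
  have key : D.zc u * D.zc v⁻¹ = D.zc (u * v⁻¹) := by
    obtain ⟨r, hr⟩ := hsq u v⁻¹ hu hv'
    have hu1 : (u : R) * ((u⁻¹ : Rˣ) : R) = 1 := Units.mul_inv u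
    have hv1 : (v : R) * ((v⁻¹ : Rˣ) : R) = 1 := Units.mul_inv v
    have hS : (((u * v)⁻¹ : Rˣ) : R) = ((u⁻¹ : Rˣ) : R) + ((v⁻¹ : Rˣ) : R) := by
      rw [_root_.mul_inv_rev, Units.val_mul]
      linear_combination (-(((u⁻¹ : Rˣ) : R) * ((v⁻¹ : Rˣ) : R))) * huv
        + ((v⁻¹ : Rˣ) : R) * hu1 + ((u⁻¹ : Rˣ) : R) * hv1
    have h3 := D.zc_three u⁻¹ v⁻¹ (u * v)⁻¹ hS
    have eC : u⁻¹ * v⁻¹ * ((u * v)⁻¹)⁻¹ = 1 := by
      rw [inv_inv, ← _root_.mul_inv_rev, mul_comm v u, inv_mul_cancel]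
    have eF : -(u⁻¹ ^ 2 * ((u * v)⁻¹)⁻¹) = r⁻¹ * r⁻¹ * (-1) := by
      rw [mul_neg_one, ← _root_.mul_inv_rev, ← hr, inv_inv, _root_.mul_inv_rev, inv_inv, pow_two]
      congr 1
      calc u⁻¹ * u⁻¹ * (u * v) = v * u⁻¹ * (u⁻¹ * u) := by ac_rfl
        _ = v * u⁻¹ := by rw [inv_mul_cancel, mul_one]
    rw [eC, eF, inv_inv, D.zc_one, one_mul, D.zc_sq_mul] at h3
    -- h3 : z (r⁻¹ r⁻¹) * z (-1) * (z u * z v⁻¹) = z (-1)
    have h4 : D.zc (r⁻¹ * r⁻¹) * (D.zc u * D.zc v⁻¹) = 1 := by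
      have : D.zc (-1) * (D.zc (r⁻¹ * r⁻¹) * (D.zc u * D.zc v⁻¹)) = D.zc (-1) * 1 := by
        calc D.zc (-1) * (D.zc (r⁻¹ * r⁻¹) * (D.zc u * D.zc v⁻¹))
            = D.zc (r⁻¹ * r⁻¹) * D.zc (-1) * (D.zc u * D.zc v⁻¹) := by ac_rfl
          _ = D.zc (-1) := h3
          _ = D.zc (-1) * 1 := (mul_one _).symm
      exact mul_left_cancel this
    have h5 : D.zc (r * r) * D.zc (r⁻¹ * r⁻¹) = 1 := by
      rw [← D.zc_sq_mul, ← _root_.mul_inv_rev, mul_inv_cancel, D.zc_one]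
    rw [hr]
    calc D.zc u * D.zc v⁻¹ = (D.zc (r * r) * D.zc (r⁻¹ * r⁻¹)) * (D.zc u * D.zc v⁻¹) := by
          rw [h5, one_mul]
      _ = D.zc (r * r) * (D.zc (r⁻¹ * r⁻¹) * (D.zc u * D.zc v⁻¹)) := by rw [mul_assoc]
      _ = D.zc (r * r) := by rw [h4, mul_one]
  by_cases ha : IsSquare a
  · obtain ⟨r, rfl⟩ := ha
    exact D.zc_sq_mul r b
  by_cases hb : IsSquare b
  · obtain ⟨r, rfl⟩ := hb
    rw [mul_comm a (r * r), D.zc_sq_mul]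
    exact mul_comm' (D.zc (r * r)) (D.zc a)
  -- both non-squares
  obtain ⟨r₁, hr₁⟩ := hsq a u ha hu
  obtain ⟨r₂, hr₂⟩ := hsq b v hb hv
  have ea : a = (r₁ * u⁻¹) * (r₁ * u⁻¹) * u := by
    calc a = a * u * u⁻¹ := by rw [mul_inv_cancel_right]
      _ = r₁ * r₁ * u⁻¹ := by rw [hr₁]
      _ = r₁ * r₁ * u⁻¹ * (u⁻¹ * u) := by rw [inv_mul_cancel, mul_one]
      _ = (r₁ * u⁻¹) * (r₁ * u⁻¹) * u := by ac_rfl
  have eb : b = r₂ * r₂ * v⁻¹ := by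
    rw [← hr₂, mul_inv_cancel_right]
  set ρ := r₁ * u⁻¹ with hρ
  have eab : a * b = (ρ * r₂) * (ρ * r₂) * (u * v⁻¹) := by
    rw [ea, eb]; ac_rfl
  have e4 : D.zc ((ρ * r₂) * (ρ * r₂)) = D.zc (ρ * ρ) * D.zc (r₂ * r₂) := by
    rw [← D.zc_sq_mul]; congr 1; ac_rfl
  rw [eab, D.zc_sq_mul, e4, ← key, ea, eb, D.zc_sq_mul, D.zc_sq_mul]
  ac_rfl

theorem ζ_mul (a b : Rˣ) : D.ζ (a * b) = D.ζ a * D.ζ b :=
  congrArg Subtype.val (D.zc_mul hsq hns a b)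

/-- `Hh` is a homomorphism. -/
theorem Hh_mul (a b : Rˣ) : D.Hh (a * b) = D.Hh a * D.Hh b := by
  rw [D.Hh_mul_Hh, D.Hh_eq, D.ζ_mul hsq hns]

end Hom

section NormalForm

variable (hsq : ∀ a b : Rˣ, ¬ IsSquare a → ¬ IsSquare b → IsSquare (a * b))
  (hns : ∃ u v : Rˣ, ¬ IsSquare u ∧ ¬ IsSquare v ∧ (u : R) + (v : R) = 1)

theorem Hh_one : D.Hh 1 = 1 := by simp [Hh, W_one]

theorem Hh_X (u : Rˣ) (t : R) : D.Hh u * D.X t = D.X ((u : R) ^ 2 * t) * D.Hh u := by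
  rw [D.Hh_eq, mul_assoc, D.h_X, ← mul_assoc, ← D.ζ_comm, mul_assoc]

theorem Hh_Y (u : Rˣ) (t : R) :
    D.Hh u * D.Y t = D.Y (((u⁻¹ : Rˣ) : R) ^ 2 * t) * D.Hh u := by
  rw [D.Hh_eq, mul_assoc, D.h_Y, ← mul_assoc, ← D.ζ_comm, mul_assoc]

theorem X_Hh (u : Rˣ) (t : R) :
    D.X t * D.Hh u = D.Hh u * D.X (((u⁻¹ : Rˣ) : R) ^ 2 * t) := by
  have h1 : (u : R) * ((u⁻¹ : Rˣ) : R) = 1 := Units.mul_inv u
  rw [D.Hh_X]
  congr 2
  linear_combination (-(1 + (u : R) * ((u⁻¹ : Rˣ) : R)) * t) * h1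

theorem Hh_w (u : Rˣ) : D.Hh u * D.w = D.w * D.Hh u⁻¹ := by
  have := D.w_Hh u⁻¹
  rw [inv_inv] at this
  exact this.symm

theorem Y_eq_conj (t : R) : D.Y t = D.w * D.X (-t) * D.w⁻¹ := by
  rw [D.w_X', neg_neg, mul_inv_cancel_right]

/-- `Y s` for a unit `s`. -/
theorem Y_unit (s : Rˣ) :
    D.Y (s : R) = D.X ((s⁻¹ : Rˣ) : R) * D.W (-s⁻¹) * D.X ((s⁻¹ : Rˣ) : R) := by
  have := D.Y_neg_inv (-s⁻¹)
  rw [inv_neg, inv_inv, Units.val_neg, neg_neg, Units.val_neg, neg_neg] at this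
  exact this

/-- `X t` for a unit `t`. -/
theorem X_unit (t : Rˣ) :
    D.X (t : R) = D.Y ((t⁻¹ : Rˣ) : R) * D.W t * D.Y ((t⁻¹ : Rˣ) : R) := by
  rw [D.W_alt t]
  simp only [mul_assoc, D.Y_add_assoc, ← D.Y_add, add_neg_cancel, neg_add_cancel, D.Y_zero,
    one_mul, mul_one]

include hsq hns

theorem w_mul_w' : D.w * D.w = D.Hh (-1) := by
  rw [D.w_mul_w]
  have h := D.Hh_mul hsq hns (-1) (-1)
  rw [neg_mul_neg, one_mul, D.Hh_one] at h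
  exact inv_eq_of_mul_eq_one_left h.symm

theorem w_inv : D.w⁻¹ = D.Hh (-1) * D.w := by
  symm
  apply eq_inv_of_mul_eq_one_left
  rw [mul_assoc, D.w_mul_w' hsq hns, ← D.Hh_mul hsq hns, neg_mul_neg, one_mul, D.Hh_one]

theorem Hh_mul_assoc (a b : Rˣ) (r : E) : D.Hh a * (D.Hh b * r) = D.Hh (a * b) * r := by
  rw [D.Hh_mul hsq hns, mul_assoc]

omit hsq hns in
theorem X_Hh_assoc (u : Rˣ) (t : R) (r : E) :
    D.X t * (D.Hh u * r) = D.Hh u * (D.X (((u⁻¹ : Rˣ) : R) ^ 2 * t) * r) := by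
  rw [← mul_assoc, D.X_Hh, mul_assoc]

omit hsq hns in
theorem Hh_X_assoc (u : Rˣ) (t : R) (r : E) :
    D.Hh u * (D.X t * r) = D.X ((u : R) ^ 2 * t) * (D.Hh u * r) := by
  rw [← mul_assoc, D.Hh_X, mul_assoc]

omit hsq hns in
theorem Hh_Y_assoc (u : Rˣ) (t : R) (r : E) :
    D.Hh u * (D.Y t * r) = D.Y (((u⁻¹ : Rˣ) : R) ^ 2 * t) * (D.Hh u * r) := by
  rw [← mul_assoc, D.Hh_Y, mul_assoc]

omit hsq hns in
theorem Hh_w_assoc (u : Rˣ) (r : E) : D.Hh u * (D.w * r) = D.w * (D.Hh u⁻¹ * r) := by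
  rw [← mul_assoc, D.Hh_w, mul_assoc]

omit hsq hns in
theorem w_X_assoc (t : R) (r : E) : D.w * (D.X t * r) = D.Y (-t) * (D.w * r) := by
  rw [← mul_assoc, D.w_X', mul_assoc]

omit hsq hns in
theorem w_Y_assoc (t : R) (r : E) : D.w * (D.Y t * r) = D.X (-t) * (D.w * r) := by
  rw [← mul_assoc, D.w_Y', mul_assoc]

/-- The Bruhat normal-form predicate. -/
def NF (g : E) : Prop :=
  (∃ (a : R) (u : Rˣ) (b : R), g = D.X a * (D.w * (D.Hh u * D.X b))) ∨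
  (∃ (c : R) (u : Rˣ) (b : R), ¬ IsUnit c ∧ g = D.Y c * (D.Hh u * D.X b))

omit hsq hns in
theorem NF_one [Nontrivial R] : D.NF 1 := by
  right
  exact ⟨0, 1, 0, not_isUnit_zero, by rw [D.Y_zero, D.Hh_one, D.X_zero]; simp⟩

theorem NF_YHX (s : R) (v : Rˣ) (b : R) : D.NF (D.Y s * (D.Hh v * D.X b)) := by
  by_cases hs : IsUnit s
  · obtain ⟨σ, rfl⟩ := hs
    left
    refine ⟨((σ⁻¹ : Rˣ) : R), (-σ⁻¹ * v⁻¹)⁻¹, ((v⁻¹ : Rˣ) : R) ^ 2 * ((σ⁻¹ : Rˣ) : R) + b, ?_⟩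
    rw [D.Y_unit σ, D.W_eq' (-σ⁻¹)]
    simp only [mul_assoc]
    rw [D.X_Hh_assoc v, D.w_Hh_assoc v, D.Hh_mul_assoc hsq hns, D.Hh_w_assoc, ← D.X_add]
  · right
    exact ⟨s, v, b, hs, rfl⟩

section Local

variable [IsLocalRing R]

omit hsq hns in
theorem isUnit_add_of_not_isUnit {a c : R} (ha : IsUnit a) (hc : ¬ IsUnit c) : IsUnit (a + c) := by
  have h : IsUnit ((a + c) + (-c)) := by simpa using ha
  rcases IsLocalRing.isUnit_or_isUnit_of_isUnit_add h with h1 | h1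
  · exact h1
  · exact absurd (by simpa using h1.neg) hc

omit hsq hns in
theorem isUnit_sub_one_of_not_isUnit {t : R} (ht : ¬ IsUnit t) : IsUnit (t - 1) := by
  have h : IsUnit (t + (1 - t)) := by simp
  rcases IsLocalRing.isUnit_or_isUnit_of_isUnit_add h with h1 | h1
  · exact absurd h1 ht
  · simpa using h1.neg

/-- `(★)` for a unit `τ`. -/
theorem star_unit (τ : Rˣ) (c : R) (hc : ¬ IsUnit c) :
    ∃ (c' : R) (u' : Rˣ) (b' : R), ¬ IsUnit c' ∧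
      D.X (τ : R) * D.Y c = D.Y c' * (D.Hh u' * D.X b') := by
  obtain ⟨ρ, hρ⟩ := isUnit_add_of_not_isUnit (Units.isUnit τ⁻¹) hc
  have hτ : (τ : R) * ((τ⁻¹ : Rˣ) : R) = 1 := Units.mul_inv τ
  have hρ1 : (ρ : R) * ((ρ⁻¹ : Rˣ) : R) = 1 := Units.mul_inv ρ
  refine ⟨((τ⁻¹ : Rˣ) : R) + -(((τ⁻¹ : Rˣ) : R) ^ 2 * ((ρ⁻¹ : Rˣ) : R)),
    τ * (-ρ⁻¹)⁻¹ * -1, ((ρ⁻¹ : Rˣ) : R), ?_, ?_⟩
  · intro hc'
    apply hc
    have : c = (((τ⁻¹ : Rˣ) : R) + -(((τ⁻¹ : Rˣ) : R) ^ 2 * ((ρ⁻¹ : Rˣ) : R)))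
        * ((τ : R) * (ρ : R)) := by
      linear_combination (exp := 1) (-(ρ : R) + ((τ⁻¹ : Rˣ) : R) * (ρ : R) * ((ρ⁻¹ : Rˣ) : R)) * hτ
        + (((τ⁻¹ : Rˣ) : R)) * hρ1 - hρ
    rw [this]
    exact hc'.mul ((Units.isUnit τ).mul (Units.isUnit ρ))
  · have e1 : D.Y c = D.Y (-((τ⁻¹ : Rˣ) : R)) * D.Y (ρ : R) := by
      rw [← D.Y_add, hρ]; congr 1; ring
    rw [e1, D.Y_unit ρ, D.X_unit τ, D.W_eq' (-ρ⁻¹)]
    simp only [mul_assoc]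
    rw [D.Y_add_assoc, add_neg_cancel, D.Y_zero, one_mul, D.W_X_assoc, D.W_eq' τ]
    simp only [mul_assoc]
    rw [D.w_Hh_assoc, ← mul_assoc D.w D.w, D.w_mul_w' hsq hns, D.Hh_mul_assoc hsq hns,
      D.Hh_mul_assoc hsq hns, ← mul_assoc (D.Y _) (D.Y _), ← D.Y_add]
    simp only [mul_assoc]

/-- `(★)` in general. -/
theorem star (t c : R) (hc : ¬ IsUnit c) :
    ∃ (c' : R) (u' : Rˣ) (b' : R), ¬ IsUnit c' ∧
      D.X t * D.Y c = D.Y c' * (D.Hh u' * D.X b') := by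
  by_cases ht : IsUnit t
  · obtain ⟨τ, rfl⟩ := ht
    exact D.star_unit hsq hns τ c hc
  · obtain ⟨τ, hτ⟩ := isUnit_sub_one_of_not_isUnit ht
    obtain ⟨c₁, u₁, b₁, hc₁, h₁⟩ := D.star_unit hsq hns 1 c hc
    obtain ⟨c₂, u₂, b₂, hc₂, h₂⟩ := D.star_unit hsq hns τ c₁ hc₁
    refine ⟨c₂, u₂ * u₁, ((u₁⁻¹ : Rˣ) : R) ^ 2 * b₂ + b₁, hc₂, ?_⟩
    have e : D.X t = D.X (τ : R) * D.X ((1 : Rˣ) : R) := by
      rw [← D.X_add, hτ, Units.val_one]; congr 1; ring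
    rw [e, mul_assoc, h₁, ← mul_assoc, h₂]
    simp only [mul_assoc]
    rw [D.X_Hh_assoc u₁, D.Hh_mul_assoc hsq hns, ← D.X_add]

theorem NF_X_mul (t : R) {g : E} (hg : D.NF g) : D.NF (D.X t * g) := by
  rcases hg with ⟨a, u, b, rfl⟩ | ⟨c, u, b, hc, rfl⟩
  · left
    exact ⟨t + a, u, b, by rw [D.X_add_assoc]⟩
  · right
    obtain ⟨c', u', b', hc', h'⟩ := D.star hsq hns t c hc
    refine ⟨c', u' * u, ((u⁻¹ : Rˣ) : R) ^ 2 * b' + b, hc', ?_⟩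
    rw [← mul_assoc, h']
    simp only [mul_assoc]
    rw [D.X_Hh_assoc u, D.Hh_mul_assoc hsq hns, ← D.X_add]

omit [IsLocalRing R] in
theorem NF_w_mul {g : E} (hg : D.NF g) : D.NF (D.w * g) := by
  rcases hg with ⟨a, u, b, rfl⟩ | ⟨c, u, b, hc, rfl⟩
  · rw [D.w_X_assoc, ← mul_assoc D.w D.w, D.w_mul_w' hsq hns, D.Hh_mul_assoc hsq hns]
    exact D.NF_YHX hsq hns _ _ _
  · left
    exact ⟨-c, u, b, by rw [D.w_Y_assoc]⟩

omit [IsLocalRing R] in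
theorem NF_Hh_mul (v : Rˣ) {g : E} (hg : D.NF g) : D.NF (D.Hh v * g) := by
  rcases hg with ⟨a, u, b, rfl⟩ | ⟨c, u, b, hc, rfl⟩
  · left
    exact ⟨(v : R) ^ 2 * a, v⁻¹ * u, b, by
      rw [D.Hh_X_assoc, D.Hh_w_assoc, D.Hh_mul_assoc hsq hns]⟩
  · right
    refine ⟨((v⁻¹ : Rˣ) : R) ^ 2 * c, v * u, b, ?_, by
      rw [D.Hh_Y_assoc, D.Hh_mul_assoc hsq hns]⟩
    intro h
    exact hc (isUnit_of_mul_isUnit_right h)

omit [IsLocalRing R] in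
theorem NF_w_inv_mul {g : E} (hg : D.NF g) : D.NF (D.w⁻¹ * g) := by
  rw [D.w_inv hsq hns, mul_assoc]
  exact D.NF_Hh_mul hsq hns _ (D.NF_w_mul hsq hns hg)

theorem NF_Y_mul (t : R) {g : E} (hg : D.NF g) : D.NF (D.Y t * g) := by
  rw [D.Y_eq_conj, mul_assoc, mul_assoc]
  exact D.NF_w_mul hsq hns (D.NF_X_mul hsq hns _ (D.NF_w_inv_mul hsq hns hg))

theorem NF_of_mem_closure {g : E} (hg : g ∈ Subgroup.closure (Set.range D.X ∪ Set.range D.Y)) :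
    D.NF g := by
  induction hg using Subgroup.closure_induction_left with
  | one => exact D.NF_one
  | mul_left x hx y _ ih =>
    rcases hx with ⟨t, rfl⟩ | ⟨t, rfl⟩
    · exact D.NF_X_mul hsq hns t ih
    · exact D.NF_Y_mul hsq hns t ih
  | inv_mul_cancel x hx y _ ih =>
    rcases hx with ⟨t, rfl⟩ | ⟨t, rfl⟩
    · rw [← D.X_neg]; exact D.NF_X_mul hsq hns _ ih
    · rw [← D.Y_neg]; exact D.NF_Y_mul hsq hns _ ih

/-- **Lemma K.** The subgroup generated by the `X t`, `Y t` meets `ker π` trivially. -/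
theorem eq_one_of_mem_closure {g : E}
    (hg : g ∈ Subgroup.closure (Set.range D.X ∪ Set.range D.Y)) (hπ : D.π g = 1) : g = 1 := by
  rcases D.NF_of_mem_closure hsq hns hg with ⟨a, u, b, rfl⟩ | ⟨c, u, b, _, rfl⟩
  · exfalso
    have h10 := congrArg (fun m : SpecialLinearGroup (Fin 2) R => (m : Matrix (Fin 2) (Fin 2) R) 1 0) hπ
    simp only [map_mul, D.π_X, D.π_w, D.π_Hh] at h10
    simp [Matrix.mul_apply, Fin.sum_univ_two] at h10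
  · have h00 := congrArg (fun m : SpecialLinearGroup (Fin 2) R => (m : Matrix (Fin 2) (Fin 2) R) 0 0) hπ
    have h01 := congrArg (fun m : SpecialLinearGroup (Fin 2) R => (m : Matrix (Fin 2) (Fin 2) R) 0 1) hπ
    have h10 := congrArg (fun m : SpecialLinearGroup (Fin 2) R => (m : Matrix (Fin 2) (Fin 2) R) 1 0) hπ
    simp only [map_mul, D.π_X, D.π_Y, D.π_Hh] at h00 h01 h10
    simp [Matrix.mul_apply, Fin.sum_univ_two] at h00 h01 h10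
    subst h00
    rw [h01, h10, D.Y_zero, D.Hh_one, D.X_zero]; simp

end Local

end NormalForm

end Datum

/-- the matrix identity behind "`ζ u` lifts `1`". -/
theorem eZeta_eq_one {R : Type*} [CommRing R] (u : Rˣ) :
    eX (u : R) * eY (-((u⁻¹ : Rˣ) : R)) * eX (u : R) * (eX (1 : R) * eY (-1) * eX 1)⁻¹ * (eD u)⁻¹
      = 1 := by
  have h1 := eX_mul_eY_mul_eX (1 : Rˣ)
  simp only [Units.val_one, inv_one] at h1
  rw [eX_mul_eY_mul_eX u, h1, eW_eq u, mul_inv_cancel_right, mul_inv_cancel]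

/-- **Lemma K**, user-facing form. `R` local, `π : E →* SL₂(R)` any hom, `X Y : R → E` additive
lifts of the elementary matrices, `h : Rˣ →* E` a hom lift of the torus with the exact conjugation
rules, the exact Weyl relations, the defect `ζ u` central; if the product of two non-squares of
`Rˣ` is a square and `1` is a sum of two non-square units, then `⟨X, Y⟩ ∩ ker π = 1`. -/
theorem lemmaK {R : Type*} [CommRing R] [IsLocalRing R] {E : Type*} [Group E] (D : Datum R E)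
    (hsq : ∀ a b : Rˣ, ¬ IsSquare a → ¬ IsSquare b → IsSquare (a * b))
    (hns : ∃ u v : Rˣ, ¬ IsSquare u ∧ ¬ IsSquare v ∧ (u : R) + (v : R) = 1)
    {g : E} (hg : g ∈ Subgroup.closure (Set.range D.X ∪ Set.range D.Y)) (hπ : D.π g = 1) :
    g = 1 :=
  D.eq_one_of_mem_closure hsq hns hg hπ

end Fermat.Agent.S41.CSP.LemmaK
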