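/-
S41 / [IH2-F].  The two arithmetic hypotheses `hsq`, `hns` of `CSP/LemmaK.lean` for the local
rings `R = ZMod (r ^ f)`, `r` an odd prime, `f ≥ 1`  (Mathlib only):

* `hsq` : the product of two non-squares of `Rˣ` is a square (cyclic unit group);
* `hns` : there are two non-square units `u`, `v` with `u + v = 1`
  (`1 = n a² + n b²` for a non-residue `n`, `n⁻¹ = a² + b²`; lifted from `𝔽_r` to `ℤ/r^f`).
-/
import Mathlib

set_option autoImplicit false

namespace Fermat.Agent.S41.CSP.SquareClasses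

/-- In a cyclic group the product of two non-squares is a square. -/
theorem isSquare_mul_of_not_isSquare {G : Type*} [Group G] [IsCyclic G] (a b : G)
    (ha : ¬ IsSquare a) (hb : ¬ IsSquare b) : IsSquare (a * b) := by
  obtain ⟨g, hg⟩ := IsCyclic.exists_generator (α := G)
  obtain ⟨i, rfl⟩ := Subgroup.mem_zpowers_iff.1 (hg a)
  obtain ⟨j, rfl⟩ := Subgroup.mem_zpowers_iff.1 (hg b)
  have hodd : ∀ k : ℤ, ¬ IsSquare (g ^ k) → k % 2 = 1 := by
    intro k hk
    by_contra hcon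
    apply hk
    have hk2 : k = (k / 2) + (k / 2) := by omega
    exact ⟨g ^ (k / 2), by rw [← zpow_add, ← hk2]⟩
  have hi := hodd i ha
  have hj := hodd j hb
  have hij : i + j = ((i + j) / 2) + ((i + j) / 2) := by omega
  exact ⟨g ^ ((i + j) / 2), by rw [← zpow_add, ← zpow_add, ← hij]⟩

/-- `hsq` for `ZMod (r ^ f)`, `r` an odd prime. -/
theorem hsq_zmod_prime_pow {r : ℕ} (hr : r.Prime) (hr2 : r ≠ 2) (f : ℕ) :
    ∀ a b : (ZMod (r ^ f))ˣ, ¬ IsSquare a → ¬ IsSquare b → IsSquare (a * b) := by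
  have := ZMod.isCyclic_units_of_prime_pow r hr hr2 f
  exact isSquare_mul_of_not_isSquare

/-- in `𝔽_r` (`r` odd) there are non-squares `u`, `v` with `u + v = 1`. -/
theorem exists_nonsquare_add_field {r : ℕ} [hr : Fact r.Prime] (hr2 : r ≠ 2) :
    ∃ u v : ZMod r, ¬ IsSquare u ∧ ¬ IsSquare v ∧ u + v = 1 := by
  have hchar : ringChar (ZMod r) ≠ 2 := by
    rw [ZMod.ringChar_zmod_n]; exact hr2
  obtain ⟨n, hn⟩ := FiniteField.exists_nonsquare hchar
  have hn0 : n ≠ 0 := by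
    rintro rfl; exact hn ⟨0, by simp⟩
  obtain ⟨a, b, hab⟩ := ZMod.sq_add_sq r n⁻¹
  have key : ∀ c d : ZMod r, c ^ 2 + d ^ 2 = n⁻¹ → ¬ IsSquare (n * c ^ 2) := by
    intro c d hcd hsq
    -- if `n c²` is a square then `c = 0` (else `n` is a square), so `n⁻¹ = d²`, `n` a square
    by_cases hc : c = 0
    · subst hc
      apply hn
      have hd : d ^ 2 = n⁻¹ := by simpa using hcd
      have hd0 : d ≠ 0 := by
        rintro rfl
        have : n⁻¹ = 0 := by simpa using hd.symm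
        exact hn0 (inv_eq_zero.1 this)
      refine ⟨d⁻¹, ?_⟩
      have : n = (d ^ 2)⁻¹ := by rw [hd, inv_inv]
      rw [this]; field_simp
    · apply hn
      obtain ⟨s, hs⟩ := hsq
      refine ⟨s * c⁻¹, ?_⟩
      have : n = (n * c ^ 2) * (c⁻¹) ^ 2 := by field_simp
      rw [this, hs]; ring
  refine ⟨n * a ^ 2, n * b ^ 2, key a b hab, key b a (by rw [add_comm]; exact hab), ?_⟩
  rw [← mul_add, hab, mul_inv_cancel₀ hn0]

/-- `hns` for `ZMod (r ^ f)`, `r` an odd prime, `f ≥ 1`. -/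
theorem hns_zmod_prime_pow {r : ℕ} (hr : r.Prime) (hr2 : r ≠ 2) {f : ℕ} (hf : 0 < f) :
    ∃ u v : (ZMod (r ^ f))ˣ, ¬ IsSquare u ∧ ¬ IsSquare v ∧
      ((u : ZMod (r ^ f)) + (v : ZMod (r ^ f)) = 1) := by
  have : Fact r.Prime := ⟨hr⟩
  have hdvd : r ∣ r ^ f := dvd_pow_self r hf.ne'
  have : NeZero (r ^ f) := ⟨pow_ne_zero _ hr.ne_zero⟩
  obtain ⟨u₀, v₀, hu₀, hv₀, huv₀⟩ := exists_nonsquare_add_field (r := r) hr2
  let ρ : ZMod (r ^ f) →+* ZMod r := ZMod.castHom hdvd (ZMod r)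
  have hρsurj : Function.Surjective ρ := ZMod.castHom_surjective hdvd
  obtain ⟨u₁, hu₁⟩ := hρsurj u₀
  -- units: an element whose reduction is nonzero is a unit
  have hunit : ∀ x : ZMod (r ^ f), ρ x ≠ 0 → IsUnit x := by
    intro x hx
    have hx' : x = ((x.val : ℕ) : ZMod (r ^ f)) := by simp
    rw [hx', ZMod.isUnit_iff_coprime]
    apply Nat.Coprime.pow_right
    rw [Nat.coprime_comm, Nat.Prime.coprime_iff_not_dvd hr]
    intro hdiv
    apply hx
    have : ρ x = ((x.val : ℕ) : ZMod r) := by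
      rw [hx']; simp [ρ]
    rw [this, ZMod.natCast_eq_zero_iff]
    exact hdiv
  have hu₀0 : u₀ ≠ 0 := by rintro rfl; exact hu₀ ⟨0, by simp⟩
  have hv₀0 : v₀ ≠ 0 := by rintro rfl; exact hv₀ ⟨0, by simp⟩
  have hρv : ρ (1 - u₁) = v₀ := by
    rw [map_sub, map_one, hu₁, ← huv₀]; ring
  have hU : IsUnit u₁ := hunit u₁ (by rw [hu₁]; exact hu₀0)
  have hV : IsUnit (1 - u₁) := hunit (1 - u₁) (by rw [hρv]; exact hv₀0)
  refine ⟨hU.unit, hV.unit, ?_, ?_, ?_⟩
  · rintro ⟨s, hs⟩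
    apply hu₀
    refine ⟨ρ (s : ZMod (r ^ f)), ?_⟩
    have := congrArg (fun t : (ZMod (r ^ f))ˣ => ρ (t : ZMod (r ^ f))) hs
    simp only [IsUnit.unit_spec, Units.val_mul, map_mul] at this
    rw [← this, hu₁]
  · rintro ⟨s, hs⟩
    apply hv₀
    refine ⟨ρ (s : ZMod (r ^ f)), ?_⟩
    have := congrArg (fun t : (ZMod (r ^ f))ˣ => ρ (t : ZMod (r ^ f))) hs
    simp only [IsUnit.unit_spec, Units.val_mul, map_mul] at this
    rw [← this, hρv]
  · simp only [IsUnit.unit_spec]; ring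

end Fermat.Agent.S41.CSP.SquareClasses
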