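/-
S41 / [IH2-F].  Two abstract transfer lemmas (Mathlib only), for the base step of the
congruence-subgroup argument (board #2010 (T), #2014 TwoPart).

Both say: a central element `z` of order dividing `p` dies as soon as the transfer into a subgroup
`H` of index prime to `p` kills it.
* `eq_one_of_transfer_commutator` : `z ∈ commutator G`, `⁅H, H⁆ ≤ K`, `⟨z⟩ ∩ K = 1`;
* `eq_one_of_transfer_closure` : `H` abelian, `z ∈ closure S` with every `s ∈ S` of order prime to `p`.
-/
import Mathlib

set_option autoImplicit false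

namespace Fermat.Agent.S41.CSP.TransferLemma

open Subgroup

variable {G : Type*} [Group G]

/-- the conjugation hypothesis of `MonoidHom.transfer_eq_pow` for a central element. -/
lemma key_of_central (H : Subgroup G) (z : G) (hzc : ∀ g : G, g * z = z * g) :
    ∀ (k : ℕ) (g₀ : G), g₀⁻¹ * z ^ k * g₀ ∈ H → g₀⁻¹ * z ^ k * g₀ = z ^ k := by
  intro k g₀ _
  have hc : g₀ * z ^ k = z ^ k * g₀ := ((show Commute g₀ z from hzc g₀).pow_right k).eq
  rw [mul_assoc, ← hc, ← mul_assoc, inv_mul_cancel, one_mul]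

/-- a central element: `z ^ H.index ∈ H`. -/
lemma pow_index_mem_of_central (H : Subgroup G) (z : G) (hzc : ∀ g : G, g * z = z * g) :
    z ^ H.index ∈ H :=
  MonoidHom.transfer_eq_pow_aux z (key_of_central H z hzc)

/-- from `z ^ p = 1`, `z ^ n = 1` and `p ∤ n` (`p` prime): `z = 1`. -/
lemma eq_one_of_pow_of_pow {p : ℕ} (hp : p.Prime) {n : ℕ} (hn : ¬ p ∣ n) (z : G)
    (hzp : z ^ p = 1) (hzn : z ^ n = 1) : z = 1 := by
  have hco : Nat.Coprime p n := (Nat.Prime.coprime_iff_not_dvd hp).2 hn
  have h1 : orderOf z ∣ p := orderOf_dvd_of_pow_eq_one hzp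
  have h2 : orderOf z ∣ n := orderOf_dvd_of_pow_eq_one hzn
  have : orderOf z ∣ Nat.gcd p n := Nat.dvd_gcd h1 h2
  rw [hco] at this
  exact orderOf_eq_one_iff.1 (Nat.dvd_one.1 this)

/-- **(T1)** transfer into the abelianisation of `H`. -/
theorem eq_one_of_transfer_commutator (H K : Subgroup G) [H.FiniteIndex] {p : ℕ} (hp : p.Prime)
    (hidx : ¬ p ∣ H.index) (hHK : ⁅H, H⁆ ≤ K) (z : G) (hzc : ∀ g : G, g * z = z * g)
    (hzp : z ^ p = 1) (hz : z ∈ _root_.commutator G) (hK : ∀ k : ℕ, z ^ k ∈ K → z ^ k = 1) :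
    z = 1 := by
  have key := key_of_central H z hzc
  have h1 := MonoidHom.transfer_eq_pow (Abelianization.of : H →* Abelianization H) z key
  have h2 : MonoidHom.transfer (Abelianization.of : H →* Abelianization H) z = 1 := by
    have hle : _root_.commutator G ≤
        (MonoidHom.transfer (Abelianization.of : H →* Abelianization H)).ker :=
      Abelianization.commutator_subset_ker _
    exact hle hz
  rw [h2] at h1
  have h3 : (⟨z ^ H.index, MonoidHom.transfer_eq_pow_aux z key⟩ : H) ∈ _root_.commutator H := by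
    rw [← Abelianization.ker_of (G := H), MonoidHom.mem_ker]; exact h1.symm
  have h4 : z ^ H.index ∈ ⁅H, H⁆ := by
    rw [← map_subtype_commutator]
    exact ⟨_, h3, rfl⟩
  have h5 : z ^ H.index = 1 := hK _ (hHK h4)
  exact eq_one_of_pow_of_pow hp hidx z hzp h5

/-- **(T2)** transfer into an abelian subgroup `H`. -/
theorem eq_one_of_transfer_closure (H : Subgroup G) [H.FiniteIndex]
    (hab : ∀ a b : H, a * b = b * a) {p : ℕ} (hp : p.Prime) (hidx : ¬ p ∣ H.index) (S : Set G)
    (hS : ∀ s ∈ S, ∃ n : ℕ, ¬ p ∣ n ∧ s ^ n = 1) (z : G) (hzc : ∀ g : G, g * z = z * g)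
    (hzp : z ^ p = 1) (hz : z ∈ Subgroup.closure S) : z = 1 := by
  let _ : CommGroup H := { (inferInstance : Group H) with mul_comm := hab }
  have key := key_of_central H z hzc
  set V : G →* H := MonoidHom.transfer (MonoidHom.id H) with hV
  -- the subgroup of `H` of elements of order prime to `p`
  let P : Subgroup H :=
    { carrier := {h | ∃ n : ℕ, ¬ p ∣ n ∧ h ^ n = 1}
      one_mem' := ⟨1, by simpa using hp.one_lt.ne', by simp⟩
      mul_mem' := by
        rintro a b ⟨n, hn, han⟩ ⟨m, hm, hbm⟩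
        refine ⟨n * m, ?_, ?_⟩
        · intro h
          rcases (Nat.Prime.dvd_mul hp).1 h with h | h
          · exact hn h
          · exact hm h
        · rw [mul_pow, pow_mul, han, one_pow, mul_comm n m, pow_mul, hbm, one_pow, one_mul]
      inv_mem' := by
        rintro a ⟨n, hn, han⟩
        exact ⟨n, hn, by rw [inv_pow, han, inv_one]⟩ }
  have hle : Subgroup.closure S ≤ P.comap V := by
    rw [Subgroup.closure_le]
    intro s hs
    obtain ⟨n, hn, hsn⟩ := hS s hs
    exact ⟨n, hn, by rw [← map_pow, hsn, map_one]⟩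
  obtain ⟨n, hn, hVn⟩ := hle hz
  have h1 : V z = ⟨z ^ H.index, MonoidHom.transfer_eq_pow_aux z key⟩ :=
    MonoidHom.transfer_eq_pow (MonoidHom.id H) z key
  rw [h1] at hVn
  have h2 : (z ^ H.index) ^ n = 1 := by
    have := congrArg Subtype.val hVn
    simpa using this
  rw [← pow_mul] at h2
  have hidxn : ¬ p ∣ H.index * n := by
    intro h
    rcases (Nat.Prime.dvd_mul hp).1 h with h | h
    · exact hidx h
    · exact hn h
  exact eq_one_of_pow_of_pow hp hidxn z hzp h2

end Fermat.Agent.S41.CSP.TransferLemma
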